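import Mathlib
import Fermat.Prelude.Def_GaloisRep_DeformationCondition

/-!
# S53 support: test algebras and their fibre product over the residue field

`IsTestAlg 𝒪 A` : `A` is a local `𝒪`-algebra whose structure map is local and induces a
surjection onto the residue field of `A`.  For such `A` there is a canonical `𝒪`-algebra map
`resO : A →ₐ[𝒪] ResidueField 𝒪`.  For two test algebras `A`, `B` we build the fibre product
`FP 𝒪 A B = A ×_k B` as a subalgebra of `A × B`, show it is again a (finite/Artinian) test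
algebra, and provide exactly the data consumed by `IsDeformationCondition.of_fibreProduct`.
-/

set_option autoImplicit false

open IsLocalRing

namespace Fermat.Agent.S53

variable (𝒪 : Type) [CommRing 𝒪] [IsLocalRing 𝒪]

/-- A local `𝒪`-algebra with local structure map and residue field a quotient of `𝒪`. -/
class IsTestAlg (A : Type) [CommRing A] [IsLocalRing A] [Algebra 𝒪 A] : Prop where
  isLocalHom : IsLocalHom (algebraMap 𝒪 A)
  residue_surjective : Function.Surjective (IsLocalRing.residue A ∘ algebraMap 𝒪 A)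

theorem isTestAlg_of_isArtinianTestAlgebra {A : Type} [CommRing A] [IsLocalRing A]
    [Algebra 𝒪 A] (h : GaloisRep.IsArtinianTestAlgebra 𝒪 A) : IsTestAlg 𝒪 A :=
  ⟨h.isLocalHom, h.residue_surjective⟩

section resO

variable (A : Type) [CommRing A] [IsLocalRing A] [Algebra 𝒪 A] [hA : IsTestAlg 𝒪 A]

/-- The isomorphism of residue fields induced by the structure map of a test algebra. -/
noncomputable def resEquiv : ResidueField 𝒪 ≃+* ResidueField A :=
  have := hA.isLocalHom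
  RingEquiv.ofBijective (ResidueField.map (algebraMap 𝒪 A))
    ⟨(ResidueField.map (algebraMap 𝒪 A)).injective, by
      intro x
      obtain ⟨a, rfl⟩ := IsLocalRing.residue_surjective x
      obtain ⟨o, ho⟩ := hA.residue_surjective (IsLocalRing.residue A a)
      exact ⟨IsLocalRing.residue 𝒪 o, by rw [ResidueField.map_residue]; exact ho⟩⟩

theorem resEquiv_residue (o : 𝒪) :
    resEquiv 𝒪 A (IsLocalRing.residue 𝒪 o) = IsLocalRing.residue A (algebraMap 𝒪 A o) := by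
  haveI := hA.isLocalHom
  exact ResidueField.map_residue _ _

/-- The canonical residue map of a test algebra, valued in the residue field of `𝒪`. -/
noncomputable def resO : A →ₐ[𝒪] ResidueField 𝒪 where
  toRingHom := (resEquiv 𝒪 A).symm.toRingHom.comp (IsLocalRing.residue A)
  commutes' o := by
    change (resEquiv 𝒪 A).symm (IsLocalRing.residue A (algebraMap 𝒪 A o)) = _
    rw [← resEquiv_residue, RingEquiv.symm_apply_apply]
    rfl

variable {A}

theorem resO_apply (a : A) :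
    resO 𝒪 A a = (resEquiv 𝒪 A).symm (IsLocalRing.residue A a) := rfl

theorem resEquiv_resO (a : A) : resEquiv 𝒪 A (resO 𝒪 A a) = IsLocalRing.residue A a := by
  rw [resO_apply, RingEquiv.apply_symm_apply]

theorem resO_eq_zero_iff (a : A) : resO 𝒪 A a = 0 ↔ a ∈ maximalIdeal A := by
  rw [resO_apply, map_eq_zero_iff _ (resEquiv 𝒪 A).symm.injective,
    IsLocalRing.residue_eq_zero_iff]

theorem resO_ne_zero_iff (a : A) : resO 𝒪 A a ≠ 0 ↔ IsUnit a := by
  rw [Ne, resO_eq_zero_iff, IsLocalRing.notMem_maximalIdeal]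

theorem resO_algebraMap (o : 𝒪) : resO 𝒪 A (algebraMap 𝒪 A o) = IsLocalRing.residue 𝒪 o :=
  (resO 𝒪 A).commutes o

theorem resO_surjective : Function.Surjective (resO 𝒪 A) := by
  intro x
  obtain ⟨o, rfl⟩ := IsLocalRing.residue_surjective x
  exact ⟨algebraMap 𝒪 A o, resO_algebraMap 𝒪 o⟩

theorem exists_sub_mem_maximalIdeal (a : A) : ∃ o : 𝒪, a - algebraMap 𝒪 A o ∈ maximalIdeal A := by
  obtain ⟨o, ho⟩ := IsLocalRing.residue_surjective (resO 𝒪 A a)
  refine ⟨o, ?_⟩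
  rw [← resO_eq_zero_iff 𝒪, map_sub, resO_algebraMap, ho, sub_self]

theorem resO_eq_resO_iff {B : Type} [CommRing B] [IsLocalRing B] [Algebra 𝒪 B] [IsTestAlg 𝒪 B]
    (a : A) (b : B) :
    resO 𝒪 A a = resO 𝒪 B b ↔
      ∃ o : 𝒪, a - algebraMap 𝒪 A o ∈ maximalIdeal A ∧ b - algebraMap 𝒪 B o ∈ maximalIdeal B := by
  constructor
  · intro h
    obtain ⟨o, ho⟩ := exists_sub_mem_maximalIdeal 𝒪 a
    refine ⟨o, ho, ?_⟩
    rw [← resO_eq_zero_iff 𝒪] at ho ⊢
    rw [map_sub, resO_algebraMap] at ho ⊢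
    rw [← h]; exact ho
  · rintro ⟨o, ha, hb⟩
    rw [← resO_eq_zero_iff 𝒪, map_sub, resO_algebraMap, sub_eq_zero] at ha hb
    rw [ha, hb]

/-- Every `𝒪`-algebra hom from a test algebra to the residue field of `𝒪` is the canonical one. -/
theorem algHom_eq_resO (ψ : A →ₐ[𝒪] ResidueField 𝒪) : ψ = resO 𝒪 A := by
  have hsurj : Function.Surjective ψ := by
    intro x
    obtain ⟨o, rfl⟩ := IsLocalRing.residue_surjective x
    exact ⟨algebraMap 𝒪 A o, ψ.commutes o⟩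
  have hker : RingHom.ker (ψ : A →+* ResidueField 𝒪) = maximalIdeal A :=
    IsLocalRing.eq_maximalIdeal (RingHom.ker_isMaximal_of_surjective _ hsurj)
  ext a
  obtain ⟨o, ho⟩ := exists_sub_mem_maximalIdeal 𝒪 a
  have h1 : ψ (a - algebraMap 𝒪 A o) = 0 := by
    have : a - algebraMap 𝒪 A o ∈ RingHom.ker (ψ : A →+* ResidueField 𝒪) := hker ▸ ho
    exact this
  have h2 : resO 𝒪 A (a - algebraMap 𝒪 A o) = 0 := (resO_eq_zero_iff 𝒪 _).2 ho
  rw [map_sub, sub_eq_zero] at h1 h2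
  rw [h1, h2, AlgHom.commutes, AlgHom.commutes]

/-- An `𝒪`-algebra hom between test algebras is compatible with the canonical residue maps. -/
theorem resO_comp {B : Type} [CommRing B] [IsLocalRing B] [Algebra 𝒪 B]
    [IsTestAlg 𝒪 B] (φ : A →ₐ[𝒪] B) : (resO 𝒪 B).comp φ = resO 𝒪 A :=
  algHom_eq_resO 𝒪 _

theorem resO_algHom_apply {B : Type} [CommRing B] [IsLocalRing B] [Algebra 𝒪 B]
    [IsTestAlg 𝒪 B] (φ : A →ₐ[𝒪] B) (a : A) : resO 𝒪 B (φ a) = resO 𝒪 A a :=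
  congrArg (fun f : A →ₐ[𝒪] ResidueField 𝒪 => f a) (resO_comp 𝒪 φ)

/-- An `𝒪`-algebra hom between test algebras is automatically a local homomorphism. -/
theorem isLocalHom_of_algHom {B : Type} [CommRing B] [IsLocalRing B] [Algebra 𝒪 B]
    [IsTestAlg 𝒪 B] (φ : A →ₐ[𝒪] B) : IsLocalHom (φ : A →+* B) := by
  refine ⟨fun a ha => ?_⟩
  rw [← resO_ne_zero_iff 𝒪] at ha ⊢
  rwa [← resO_algHom_apply 𝒪 φ]

theorem algHom_mem_maximalIdeal {B : Type} [CommRing B] [IsLocalRing B] [Algebra 𝒪 B]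
    [IsTestAlg 𝒪 B] (φ : A →ₐ[𝒪] B) {a : A} (ha : a ∈ maximalIdeal A) :
    φ a ∈ maximalIdeal B := by
  rw [← resO_eq_zero_iff 𝒪] at ha ⊢
  rwa [resO_algHom_apply 𝒪 φ]

end resO

section FP

variable (A B : Type) [CommRing A] [IsLocalRing A] [Algebra 𝒪 A] [IsTestAlg 𝒪 A]
  [CommRing B] [IsLocalRing B] [Algebra 𝒪 B] [IsTestAlg 𝒪 B]

/-- The fibre product `A ×_k B` of two test algebras over the residue field `k` of `𝒪`. -/
@[ext] structure FP where
  /-- first component -/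
  fst' : A
  /-- second component -/
  snd' : B
  compat : resO 𝒪 A fst' = resO 𝒪 B snd'

namespace FP

variable {𝒪 A B}

/-- The inclusion of the fibre product into the product. -/
def toProd (x : FP 𝒪 A B) : A × B := (x.fst', x.snd')

theorem toProd_injective : Function.Injective (toProd : FP 𝒪 A B → A × B) := by
  intro x y h
  exact FP.ext (congrArg Prod.fst h) (congrArg Prod.snd h)

instance : Zero (FP 𝒪 A B) := ⟨⟨0, 0, by rw [map_zero, map_zero]⟩⟩
instance : One (FP 𝒪 A B) := ⟨⟨1, 1, by rw [map_one, map_one]⟩⟩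
instance : Add (FP 𝒪 A B) :=
  ⟨fun x y => ⟨x.fst' + y.fst', x.snd' + y.snd', by rw [map_add, map_add, x.compat, y.compat]⟩⟩
instance : Mul (FP 𝒪 A B) :=
  ⟨fun x y => ⟨x.fst' * y.fst', x.snd' * y.snd', by rw [map_mul, map_mul, x.compat, y.compat]⟩⟩
instance : Neg (FP 𝒪 A B) :=
  ⟨fun x => ⟨-x.fst', -x.snd', by rw [map_neg, map_neg, x.compat]⟩⟩
instance : Sub (FP 𝒪 A B) :=
  ⟨fun x y => ⟨x.fst' - y.fst', x.snd' - y.snd', by rw [map_sub, map_sub, x.compat, y.compat]⟩⟩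
instance : SMul ℕ (FP 𝒪 A B) :=
  ⟨fun n x => ⟨n • x.fst', n • x.snd', by rw [map_nsmul, map_nsmul, x.compat]⟩⟩
instance : SMul ℤ (FP 𝒪 A B) :=
  ⟨fun n x => ⟨n • x.fst', n • x.snd', by rw [map_zsmul, map_zsmul, x.compat]⟩⟩
instance : Pow (FP 𝒪 A B) ℕ :=
  ⟨fun x n => ⟨x.fst' ^ n, x.snd' ^ n, by rw [map_pow, map_pow, x.compat]⟩⟩
instance : NatCast (FP 𝒪 A B) := ⟨fun n => ⟨n, n, by rw [map_natCast, map_natCast]⟩⟩
instance : IntCast (FP 𝒪 A B) := ⟨fun n => ⟨n, n, by rw [map_intCast, map_intCast]⟩⟩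

instance instCommRing : CommRing (FP 𝒪 A B) :=
  toProd_injective.commRing toProd rfl rfl (fun _ _ => rfl) (fun _ _ => rfl) (fun _ => rfl)
    (fun _ _ => rfl) (fun _ _ => rfl) (fun _ _ => rfl) (fun _ _ => rfl) (fun _ => rfl)
    (fun _ => rfl)

variable (𝒪 A B)

/-- First projection of the fibre product, as a ring hom. -/
def fstHom : FP 𝒪 A B →+* A where
  toFun := FP.fst'
  map_one' := rfl
  map_mul' _ _ := rfl
  map_zero' := rfl
  map_add' _ _ := rfl

/-- Second projection of the fibre product, as a ring hom. -/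
def sndHom : FP 𝒪 A B →+* B where
  toFun := FP.snd'
  map_one' := rfl
  map_mul' _ _ := rfl
  map_zero' := rfl
  map_add' _ _ := rfl

/-- The structure map `𝒪 → A ×_k B`. -/
def algebraMapHom : 𝒪 →+* FP 𝒪 A B where
  toFun o := ⟨algebraMap 𝒪 A o, algebraMap 𝒪 B o, by rw [resO_algebraMap, resO_algebraMap]⟩
  map_one' := FP.ext (map_one _) (map_one _)
  map_mul' _ _ := FP.ext (map_mul _ _ _) (map_mul _ _ _)
  map_zero' := FP.ext (map_zero _) (map_zero _)
  map_add' _ _ := FP.ext (map_add _ _ _) (map_add _ _ _)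

instance instAlgebra : Algebra 𝒪 (FP 𝒪 A B) := (algebraMapHom 𝒪 A B).toAlgebra

/-- First projection of the fibre product. -/
def fst : FP 𝒪 A B →ₐ[𝒪] A :=
  { fstHom 𝒪 A B with commutes' := fun _ => rfl }

/-- Second projection of the fibre product. -/
def snd : FP 𝒪 A B →ₐ[𝒪] B :=
  { sndHom 𝒪 A B with commutes' := fun _ => rfl }

end FP

variable {A B}

theorem FP.fst_apply (x : FP 𝒪 A B) : FP.fst 𝒪 A B x = x.fst' := rfl
theorem FP.snd_apply (x : FP 𝒪 A B) : FP.snd 𝒪 A B x = x.snd' := rfl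
@[simp] theorem FP.fst_mk (a : A) (b : B) (h) : FP.fst 𝒪 A B ⟨a, b, h⟩ = a := rfl
@[simp] theorem FP.snd_mk (a : A) (b : B) (h) : FP.snd 𝒪 A B ⟨a, b, h⟩ = b := rfl

theorem FP.resO_fst_eq (x : FP 𝒪 A B) :
    resO 𝒪 A (FP.fst 𝒪 A B x) = resO 𝒪 B (FP.snd 𝒪 A B x) := x.compat

theorem FP.ext' {x y : FP 𝒪 A B} (h1 : FP.fst 𝒪 A B x = FP.fst 𝒪 A B y)
    (h2 : FP.snd 𝒪 A B x = FP.snd 𝒪 A B y) : x = y :=
  FP.ext h1 h2

theorem FP.injective_prod :
    Function.Injective (fun x : FP 𝒪 A B => (FP.fst 𝒪 A B x, FP.snd 𝒪 A B x)) :=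
  FP.toProd_injective

theorem FP.exists_of_resO_eq (a : A) (b : B) (h : resO 𝒪 A a = resO 𝒪 B b) :
    ∃ x : FP 𝒪 A B, FP.fst 𝒪 A B x = a ∧ FP.snd 𝒪 A B x = b :=
  ⟨⟨a, b, h⟩, rfl, rfl⟩

theorem FP.resO_comp_fst_eq :
    (resO 𝒪 A).comp (FP.fst 𝒪 A B) = (resO 𝒪 B).comp (FP.snd 𝒪 A B) :=
  AlgHom.ext fun x => FP.resO_fst_eq 𝒪 x

theorem FP.isUnit_iff (x : FP 𝒪 A B) : IsUnit x ↔ IsUnit (FP.fst 𝒪 A B x) := by
  constructor
  · intro h
    exact h.map (FP.fst 𝒪 A B)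
  · intro h
    have h2 : IsUnit (FP.snd 𝒪 A B x) := by
      rw [← resO_ne_zero_iff 𝒪] at h ⊢
      rwa [← FP.resO_fst_eq]
    obtain ⟨u, hu⟩ := h
    obtain ⟨v, hv⟩ := h2
    have hmem : resO 𝒪 A (↑u⁻¹ : A) = resO 𝒪 B (↑v⁻¹ : B) := by
      have h1 : resO 𝒪 A (↑u⁻¹ : A) * resO 𝒪 A (u : A) = 1 := by
        rw [← map_mul, Units.inv_mul, map_one]
      have h2 : resO 𝒪 B (↑v⁻¹ : B) * resO 𝒪 B (v : B) = 1 := by
        rw [← map_mul, Units.inv_mul, map_one]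
      have h3 : resO 𝒪 A (u : A) = resO 𝒪 B (v : B) := by
        rw [hu, hv]; exact FP.resO_fst_eq 𝒪 x
      have hne : resO 𝒪 A (u : A) ≠ 0 := (resO_ne_zero_iff 𝒪 _).2 u.isUnit
      apply mul_right_cancel₀ hne
      rw [h1, h3, h2]
    refine IsUnit.of_mul_eq_one ⟨↑u⁻¹, ↑v⁻¹, hmem⟩ ?_
    apply FP.ext' 𝒪
    · change x.fst' * ↑u⁻¹ = 1
      have : x.fst' = u := hu.symm
      rw [this, Units.mul_inv]
    · change x.snd' * ↑v⁻¹ = 1
      have : x.snd' = v := hv.symm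
      rw [this, Units.mul_inv]

instance FP.instNontrivial : Nontrivial (FP 𝒪 A B) :=
  ⟨⟨0, 1, fun h => zero_ne_one (congrArg (fun x : FP 𝒪 A B => x.fst') h)⟩⟩

instance FP.instIsLocalRing : IsLocalRing (FP 𝒪 A B) := by
  refine IsLocalRing.of_nonunits_add ?_
  intro x y hx hy
  rw [mem_nonunits_iff, FP.isUnit_iff, ← IsLocalRing.notMem_maximalIdeal, not_not] at hx hy ⊢
  rw [map_add]
  exact Ideal.add_mem _ hx hy

theorem FP.mem_maximalIdeal_iff (x : FP 𝒪 A B) :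
    x ∈ maximalIdeal (FP 𝒪 A B) ↔ FP.fst 𝒪 A B x ∈ maximalIdeal A := by
  rw [← not_iff_not, IsLocalRing.notMem_maximalIdeal, IsLocalRing.notMem_maximalIdeal,
    FP.isUnit_iff]

theorem FP.mem_maximalIdeal_iff' (x : FP 𝒪 A B) :
    x ∈ maximalIdeal (FP 𝒪 A B) ↔ FP.snd 𝒪 A B x ∈ maximalIdeal B := by
  rw [FP.mem_maximalIdeal_iff, ← resO_eq_zero_iff 𝒪, ← resO_eq_zero_iff 𝒪, FP.resO_fst_eq]

instance FP.instIsTestAlg : IsTestAlg 𝒪 (FP 𝒪 A B) where
  isLocalHom := by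
    refine ⟨fun o ho => ?_⟩
    have h1 : IsUnit (FP.fst 𝒪 A B (algebraMap 𝒪 (FP 𝒪 A B) o)) := ho.map _
    rw [AlgHom.commutes] at h1
    have := (IsTestAlg.isLocalHom (𝒪 := 𝒪) (A := A))
    exact isUnit_of_map_unit (algebraMap 𝒪 A) o h1
  residue_surjective := by
    intro x
    obtain ⟨y, rfl⟩ := IsLocalRing.residue_surjective x
    obtain ⟨o, ho⟩ := exists_sub_mem_maximalIdeal 𝒪 (FP.fst 𝒪 A B y)
    refine ⟨o, ?_⟩
    change IsLocalRing.residue _ (algebraMap 𝒪 (FP 𝒪 A B) o) = IsLocalRing.residue _ y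
    rw [eq_comm, ← sub_eq_zero, ← map_sub, IsLocalRing.residue_eq_zero_iff,
      FP.mem_maximalIdeal_iff, map_sub, AlgHom.commutes]
    exact ho

instance FP.instFinite [Finite A] [Finite B] : Finite (FP 𝒪 A B) :=
  Finite.of_injective (FP.toProd : FP 𝒪 A B → A × B) FP.toProd_injective

theorem FP.isLocalHom_fst : IsLocalHom (FP.fst 𝒪 A B : FP 𝒪 A B →+* A) :=
  isLocalHom_of_algHom 𝒪 _

theorem FP.isLocalHom_snd : IsLocalHom (FP.snd 𝒪 A B : FP 𝒪 A B →+* B) :=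
  isLocalHom_of_algHom 𝒪 _

/-- Universal property: a pair of algebra maps with equal residues lifts to the fibre product. -/
def FP.lift {P : Type} [CommRing P] [Algebra 𝒪 P] (f : P →ₐ[𝒪] A) (g : P →ₐ[𝒪] B)
    (h : ∀ p, resO 𝒪 A (f p) = resO 𝒪 B (g p)) : P →ₐ[𝒪] FP 𝒪 A B where
  toFun p := ⟨f p, g p, h p⟩
  map_one' := FP.ext (map_one f) (map_one g)
  map_mul' _ _ := FP.ext (map_mul f _ _) (map_mul g _ _)
  map_zero' := FP.ext (map_zero f) (map_zero g)
  map_add' _ _ := FP.ext (map_add f _ _) (map_add g _ _)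
  commutes' o := FP.ext (f.commutes o) (g.commutes o)

@[simp] theorem FP.fst_lift {P : Type} [CommRing P] [Algebra 𝒪 P] (f : P →ₐ[𝒪] A)
    (g : P →ₐ[𝒪] B) (h : ∀ p, resO 𝒪 A (f p) = resO 𝒪 B (g p)) (p : P) :
    FP.fst 𝒪 A B (FP.lift 𝒪 f g h p) = f p := rfl

@[simp] theorem FP.snd_lift {P : Type} [CommRing P] [Algebra 𝒪 P] (f : P →ₐ[𝒪] A)
    (g : P →ₐ[𝒪] B) (h : ∀ p, resO 𝒪 A (f p) = resO 𝒪 B (g p)) (p : P) :
    FP.snd 𝒪 A B (FP.lift 𝒪 f g h p) = g p := rfl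

theorem FP.ker_lift {P : Type} [CommRing P] [Algebra 𝒪 P] (f : P →ₐ[𝒪] A)
    (g : P →ₐ[𝒪] B) (h : ∀ p, resO 𝒪 A (f p) = resO 𝒪 B (g p)) :
    RingHom.ker (FP.lift 𝒪 f g h : P →+* FP 𝒪 A B) =
      RingHom.ker (f : P →+* A) ⊓ RingHom.ker (g : P →+* B) := by
  ext p
  rw [Ideal.mem_inf, RingHom.mem_ker, RingHom.mem_ker, RingHom.mem_ker]
  constructor
  · intro hp
    exact ⟨congrArg FP.fst' hp, congrArg FP.snd' hp⟩
  · rintro ⟨h1, h2⟩
    exact FP.ext h1 h2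

theorem FP.maximalIdeal_pow_eq_bot {n : ℕ} (hA : maximalIdeal A ^ n = ⊥)
    (hB : maximalIdeal B ^ n = ⊥) : maximalIdeal (FP 𝒪 A B) ^ n = ⊥ := by
  rw [eq_bot_iff]
  intro x hx
  have h1 : FP.fst 𝒪 A B x ∈ maximalIdeal A ^ n := by
    have : Ideal.map (FP.fst 𝒪 A B) (maximalIdeal (FP 𝒪 A B)) ≤ maximalIdeal A := by
      rw [Ideal.map_le_iff_le_comap]
      intro y hy
      exact (FP.mem_maximalIdeal_iff 𝒪 y).1 hy
    have h2 := Ideal.pow_right_mono this n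
    rw [← Ideal.map_pow] at h2
    exact h2 (Ideal.mem_map_of_mem _ hx)
  have h1' : FP.snd 𝒪 A B x ∈ maximalIdeal B ^ n := by
    have : Ideal.map (FP.snd 𝒪 A B) (maximalIdeal (FP 𝒪 A B)) ≤ maximalIdeal B := by
      rw [Ideal.map_le_iff_le_comap]
      intro y hy
      exact (FP.mem_maximalIdeal_iff' 𝒪 y).1 hy
    have h2 := Ideal.pow_right_mono this n
    rw [← Ideal.map_pow] at h2
    exact h2 (Ideal.mem_map_of_mem _ hx)
  rw [hA] at h1
  rw [hB] at h1'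
  rw [Ideal.mem_bot]
  exact FP.ext' 𝒪 ((Ideal.mem_bot.1 h1).trans (map_zero _).symm)
    ((Ideal.mem_bot.1 h1').trans (map_zero _).symm)

end FP

end Fermat.Agent.S53

namespace Fermat.Agent.S53

open IsLocalRing

section Artinian

variable (𝒪 : Type) [CommRing 𝒪] [IsLocalRing 𝒪]

/-- The residue field of `𝒪` is an Artinian test algebra. -/
theorem isArtinianTestAlgebra_residueField :
    GaloisRep.IsArtinianTestAlgebra 𝒪 (ResidueField 𝒪) where
  isLocalHom := by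
    change IsLocalHom (IsLocalRing.residue 𝒪)
    infer_instance
  residue_surjective := by
    intro x
    obtain ⟨y, rfl⟩ := IsLocalRing.residue_surjective x
    obtain ⟨o, rfl⟩ := IsLocalRing.residue_surjective y
    exact ⟨o, rfl⟩
  isArtinian := inferInstance

instance instIsTestAlgResidueField : IsTestAlg 𝒪 (ResidueField 𝒪) :=
  isTestAlg_of_isArtinianTestAlgebra 𝒪 (isArtinianTestAlgebra_residueField 𝒪)

/-- An Artinian test algebra over `𝒪` with finite residue field is a finite ring. -/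
theorem finite_of_isArtinianTestAlgebra [Finite (ResidueField 𝒪)] {A : Type} [CommRing A]
    [IsLocalRing A] [Algebra 𝒪 A] (h : GaloisRep.IsArtinianTestAlgebra 𝒪 A) : Finite A := by
  haveI := isTestAlg_of_isArtinianTestAlgebra 𝒪 h
  haveI := h.isArtinian
  haveI : Finite (ResidueField A) := Finite.of_equiv _ (resEquiv 𝒪 A).toEquiv
  have h1 : Finite (A ⧸ (⊥ : Ideal A)) := by
    rw [IsLocalRing.finite_quotient_iff]
    obtain ⟨n, hn⟩ := IsArtinianRing.isNilpotent_jacobson_bot (R := A)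
    rw [IsLocalRing.jacobson_eq_maximalIdeal _ bot_ne_top] at hn
    exact ⟨n, hn.le⟩
  exact Finite.of_equiv _ (RingEquiv.quotientBot A).toEquiv

/-- A finite test algebra is an Artinian test algebra. -/
theorem isArtinianTestAlgebra_of_finite {A : Type} [CommRing A] [IsLocalRing A] [Algebra 𝒪 A]
    [hA : IsTestAlg 𝒪 A] [Finite A] : GaloisRep.IsArtinianTestAlgebra 𝒪 A where
  isLocalHom := hA.isLocalHom
  residue_surjective := hA.residue_surjective
  isArtinian := isArtinian_of_finite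

variable {𝒪}

/-- The fibre-product axiom of a deformation condition, specialised to `FP 𝒪 A B`. -/
theorem FP.of_fibreProduct
    {𝒟 : ∀ ⦃A : Type⦄ [CommRing A] [IsLocalRing A] [Algebra 𝒪 A], GaloisRepAdic A → Prop}
    (h𝒟 : GaloisRep.IsDeformationCondition 𝒪 𝒟)
    {A B : Type} [CommRing A] [IsLocalRing A] [Algebra 𝒪 A] [IsTestAlg 𝒪 A] [Finite A]
    [CommRing B] [IsLocalRing B] [Algebra 𝒪 B] [IsTestAlg 𝒪 B] [Finite B]
    (ρ : GaloisRepAdic (FP 𝒪 A B))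
    (h1 : 𝒟 (ρ.baseChangeAlong (FP.fst 𝒪 A B : FP 𝒪 A B →+* A) (FP.isLocalHom_fst 𝒪)))
    (h2 : 𝒟 (ρ.baseChangeAlong (FP.snd 𝒪 A B : FP 𝒪 A B →+* B) (FP.isLocalHom_snd 𝒪))) :
    𝒟 ρ :=
  h𝒟.of_fibreProduct (isArtinianTestAlgebra_of_finite 𝒪) (isArtinianTestAlgebra_of_finite 𝒪)
    (isArtinianTestAlgebra_residueField 𝒪) (isArtinianTestAlgebra_of_finite 𝒪)
    (resO 𝒪 A) (resO 𝒪 B) (FP.fst 𝒪 A B) (FP.snd 𝒪 A B) (FP.isLocalHom_fst 𝒪)
    (FP.isLocalHom_snd 𝒪) (FP.resO_comp_fst_eq 𝒪) (FP.injective_prod 𝒪)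
    (fun a b hab => FP.exists_of_resO_eq 𝒪 a b hab) h1 h2

end Artinian

end Fermat.Agent.S53
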