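import Mathlib
import Fermat.Prelude.Def_GaloisRep_Adic
import Fermat.Prelude.Def_GaloisRep_DeformationRingData
import Fermat.Prelude.Def_GaloisRep_DeformationCondition

set_option autoImplicit false

open scoped TensorProduct

namespace Fermat.Agent.S53

/-- The absolute Galois group of `ℚ`. -/
abbrev GQ : Type := AlgebraicClosure ℚ ≃ₐ[ℚ] AlgebraicClosure ℚ

section Basic

variable {A : Type} [CommRing A]

theorem mem_ideal_smul_top_pi (I : Ideal A) (v : Fin 2 → A) :
    v ∈ I • (⊤ : Submodule A (Fin 2 → A)) ↔ ∀ i, v i ∈ I := by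
  constructor
  · intro hv
    refine Submodule.smul_induction_on hv ?_ ?_
    · intro a ha w _ i
      simpa using I.mul_mem_right (w i) ha
    · intro x y hx hy i
      simpa using I.add_mem (hx i) (hy i)
  · intro hv
    have : v = ∑ i, v i • (Pi.single i (1 : A) : Fin 2 → A) := by
      ext j
      simp [Finset.sum_apply, Pi.single_apply]
    rw [this]
    exact Submodule.sum_mem _ fun i _ => Submodule.smul_mem_smul (hv i) Submodule.mem_top

end Basic

section OfMatrix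

variable {A : Type} [CommRing A] [IsLocalRing A]

/-- Adic continuity of a matrix-valued representation. -/
def MatCont (r : GQ →* Matrix (Fin 2) (Fin 2) A) : Prop :=
  ∀ n : ℕ, ∃ L : IntermediateField ℚ (AlgebraicClosure ℚ), FiniteDimensional ℚ L ∧
    ∀ σ : GQ, (∀ x ∈ L, σ x = x) → ∀ i j, (r σ - 1) i j ∈ IsLocalRing.maximalIdeal A ^ n

/-- The linear representation attached to a matrix representation. -/
noncomputable def matHom (r : GQ →* Matrix (Fin 2) (Fin 2) A) :
    GQ →* Module.End A (Fin 2 → A) :=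
  ((Matrix.toLinAlgEquiv' : Matrix (Fin 2) (Fin 2) A ≃ₐ[A] Module.End A (Fin 2 → A)) :
    Matrix (Fin 2) (Fin 2) A →* Module.End A (Fin 2 → A)).comp r

omit [IsLocalRing A] in
@[simp] theorem matHom_apply (r : GQ →* Matrix (Fin 2) (Fin 2) A) (σ : GQ) (v : Fin 2 → A) :
    matHom r σ v = (r σ).mulVec v := by
  simp [matHom]

theorem matHom_isAdicContinuous (r : GQ →* Matrix (Fin 2) (Fin 2) A) (hr : MatCont r) :
    GaloisActionIsAdicContinuous A (matHom r) := by
  intro n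
  obtain ⟨L, hL, h⟩ := hr n
  refine ⟨L, hL, fun σ hσ v => ?_⟩
  rw [mem_ideal_smul_top_pi]
  intro i
  have : matHom r σ v - v = (r σ - 1).mulVec v := by
    rw [matHom_apply, Matrix.sub_mulVec, Matrix.one_mulVec]
  rw [this]
  show ∑ j, (r σ - 1) i j * v j ∈ _
  exact Ideal.sum_mem _ fun j _ => Ideal.mul_mem_right _ _ (h σ hσ i j)

/-- The `GaloisRepAdic` attached to a continuous matrix representation. -/
noncomputable def ofMatrix (r : GQ →* Matrix (Fin 2) (Fin 2) A) (hr : MatCont r) :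
    GaloisRepAdic A where
  V := Fin 2 → A
  finrank_eq := by simp
  ρ := matHom r
  isAdicContinuous := matHom_isAdicContinuous r hr

end OfMatrix


section Dictionary

variable {A : Type} [CommRing A] [IsLocalRing A]

/-- The matrix representation of `ρ` in the basis `b`. -/
noncomputable def matOfBasis (ρ : GaloisRepAdic A) (b : Module.Basis (Fin 2) A ρ.V) :
    GQ →* Matrix (Fin 2) (Fin 2) A :=
  ((LinearMap.toMatrixAlgEquiv b : Module.End A ρ.V ≃ₐ[A] Matrix (Fin 2) (Fin 2) A) :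
    Module.End A ρ.V →* Matrix (Fin 2) (Fin 2) A).comp ρ.ρ

theorem matOfBasis_apply (ρ : GaloisRepAdic A) (b : Module.Basis (Fin 2) A ρ.V) (σ : GQ) :
    matOfBasis ρ b σ = LinearMap.toMatrix b b (ρ.ρ σ) := rfl

theorem matOfBasis_apply_apply (ρ : GaloisRepAdic A) (b : Module.Basis (Fin 2) A ρ.V) (σ : GQ)
    (i j : Fin 2) : matOfBasis ρ b σ i j = b.repr (ρ.ρ σ (b j)) i := by
  rw [matOfBasis_apply, LinearMap.toMatrix_apply]

omit [IsLocalRing A] in
theorem repr_mem_of_mem_smul_top {V : Type} [AddCommGroup V] [Module A V]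
    (b : Module.Basis (Fin 2) A V) (I : Ideal A) {x : V}
    (hx : x ∈ I • (⊤ : Submodule A V)) (i : Fin 2) : b.repr x i ∈ I := by
  refine Submodule.smul_induction_on hx ?_ ?_
  · intro a ha w _
    simpa using I.mul_mem_right (b.repr w i) ha
  · intro x y hx hy
    simpa using I.add_mem hx hy

theorem matCont_matOfBasis (ρ : GaloisRepAdic A) (b : Module.Basis (Fin 2) A ρ.V) :
    MatCont (matOfBasis ρ b) := by
  intro n
  obtain ⟨L, hL, h⟩ := ρ.isAdicContinuous n
  refine ⟨L, hL, fun σ hσ i j => ?_⟩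
  have h1 := repr_mem_of_mem_smul_top b _ (h σ hσ (b j)) i
  have h2 : (matOfBasis ρ b σ - 1) i j = b.repr (ρ.ρ σ (b j) - b j) i := by
    rw [Matrix.sub_apply, matOfBasis_apply_apply, map_sub, Finsupp.sub_apply,
      Module.Basis.repr_self, Matrix.one_apply, Finsupp.single_apply]
    congr 1
    by_cases hij : i = j
    · simp [hij]
    · simp [hij, Ne.symm hij]
  rw [h2]
  exact h1

theorem isEquiv_ofMatrix_left {r : GQ →* Matrix (Fin 2) (Fin 2) A} (hr : MatCont r)
    {ρ : GaloisRepAdic A} (e : (Fin 2 → A) ≃ₗ[A] ρ.V)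
    (h : ∀ (σ : GQ) (x : Fin 2 → A), e ((r σ).mulVec x) = ρ.ρ σ (e x)) :
    (ofMatrix r hr).IsEquiv ρ :=
  ⟨⟨e, fun σ x => (congrArg e (matHom_apply r σ x)).trans (h σ x)⟩⟩

theorem isEquiv_ofMatrix_right {r : GQ →* Matrix (Fin 2) (Fin 2) A} (hr : MatCont r)
    {ρ : GaloisRepAdic A} (e : ρ.V ≃ₗ[A] (Fin 2 → A))
    (h : ∀ (σ : GQ) (x : ρ.V), e (ρ.ρ σ x) = (r σ).mulVec (e x)) :
    ρ.IsEquiv (ofMatrix r hr) :=
  ⟨⟨e, fun σ x => (h σ x).trans (matHom_apply r σ (e x)).symm⟩⟩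

theorem ofMatrix_matOfBasis_isEquiv (ρ : GaloisRepAdic A) (b : Module.Basis (Fin 2) A ρ.V) :
    (ofMatrix (matOfBasis ρ b) (matCont_matOfBasis ρ b)).IsEquiv ρ := by
  refine isEquiv_ofMatrix_left _ b.equivFun.symm fun σ x => ?_
  rw [matOfBasis_apply]
  have h := LinearMap.toMatrix_mulVec_repr b b (ρ.ρ σ) (b.equivFun.symm x)
  have hx : (b.repr (b.equivFun.symm x) : Fin 2 → A) = x := by
    have := b.equivFun.apply_symm_apply x
    simpa [Module.Basis.equivFun_apply] using this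
  rw [hx] at h
  rw [h]
  have := b.equivFun.symm_apply_apply (ρ.ρ σ (b.equivFun.symm x))
  simpa [Module.Basis.equivFun_apply] using this

/-- Every `GaloisRepAdic` is equivalent to a matrix one. -/
theorem exists_ofMatrix_isEquiv (ρ : GaloisRepAdic A) :
    ∃ (r : GQ →* Matrix (Fin 2) (Fin 2) A) (hr : MatCont r), (ofMatrix r hr).IsEquiv ρ :=
  ⟨_, _, ofMatrix_matOfBasis_isEquiv ρ (Module.finBasisOfFinrankEq A ρ.V ρ.finrank_eq)⟩

/-- Conjugate matrix representations give equivalent `GaloisRepAdic`s. -/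
theorem ofMatrix_isEquiv_of_conj {r r' : GQ →* Matrix (Fin 2) (Fin 2) A} (hr : MatCont r)
    (hr' : MatCont r') (P : Matrix (Fin 2) (Fin 2) A) (hP : IsUnit P)
    (h : ∀ σ, P * r σ = r' σ * P) : (ofMatrix r hr).IsEquiv (ofMatrix r' hr') := by
  obtain ⟨u, rfl⟩ := hP
  have hdet : IsUnit (u : Matrix (Fin 2) (Fin 2) A).det :=
    (Matrix.isUnit_iff_isUnit_det _).mp u.isUnit
  let _ := Matrix.invertibleOfIsUnitDet _ hdet
  refine isEquiv_ofMatrix_left hr (ρ := ofMatrix r' hr')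
    (Matrix.toLinearEquiv' (u : Matrix (Fin 2) (Fin 2) A) inferInstance) fun σ x => ?_
  show Matrix.toLin' (u : Matrix (Fin 2) (Fin 2) A) ((r σ).mulVec x)
    = matHom r' σ (Matrix.toLin' (u : Matrix (Fin 2) (Fin 2) A) x)
  rw [matHom_apply, Matrix.toLin'_apply, Matrix.toLin'_apply, Matrix.mulVec_mulVec,
    Matrix.mulVec_mulVec, h σ]

/-- Equivalent matrix representations are conjugate. -/
theorem exists_conj_of_ofMatrix_isEquiv {r r' : GQ →* Matrix (Fin 2) (Fin 2) A} (hr : MatCont r)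
    (hr' : MatCont r') (h : (ofMatrix r hr).IsEquiv (ofMatrix r' hr')) :
    ∃ P : Matrix (Fin 2) (Fin 2) A, IsUnit P ∧ ∀ σ, P * r σ = r' σ * P := by
  obtain ⟨e⟩ := h
  let E : (Fin 2 → A) ≃ₗ[A] (Fin 2 → A) := e.toLinearEquiv
  refine ⟨LinearMap.toMatrix' (E : (Fin 2 → A) →ₗ[A] (Fin 2 → A)), ?_, fun σ => ?_⟩
  · refine ⟨⟨LinearMap.toMatrix' (E : (Fin 2 → A) →ₗ[A] (Fin 2 → A)),
      LinearMap.toMatrix' (E.symm : (Fin 2 → A) →ₗ[A] (Fin 2 → A)), ?_, ?_⟩, rfl⟩
    · rw [← LinearMap.toMatrix'_comp]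
      simp
    · rw [← LinearMap.toMatrix'_comp]
      simp
  · have h1 : (E : (Fin 2 → A) →ₗ[A] (Fin 2 → A)) ∘ₗ Matrix.toLin' (r σ)
        = Matrix.toLin' (r' σ) ∘ₗ (E : (Fin 2 → A) →ₗ[A] (Fin 2 → A)) := by
      refine LinearMap.ext fun x => ?_
      have h0 : E ((r σ).mulVec x) = (r' σ).mulVec (E x) := e.map_apply σ x
      exact h0
    have h2 := congrArg LinearMap.toMatrix' h1
    rw [LinearMap.toMatrix'_comp, LinearMap.toMatrix'_comp, LinearMap.toMatrix'_toLin',
      LinearMap.toMatrix'_toLin'] at h2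
    exact h2

end Dictionary


section BaseChange

variable {A B : Type} [CommRing A] [CommRing B]

/-- Entrywise image of a matrix representation under a ring homomorphism. -/
noncomputable def mapMat (φ : A →+* B) (r : GQ →* Matrix (Fin 2) (Fin 2) A) :
    GQ →* Matrix (Fin 2) (Fin 2) B :=
  ((φ.mapMatrix : Matrix (Fin 2) (Fin 2) A →+* Matrix (Fin 2) (Fin 2) B) :
    Matrix (Fin 2) (Fin 2) A →* Matrix (Fin 2) (Fin 2) B).comp r

@[simp] theorem mapMat_apply (φ : A →+* B) (r : GQ →* Matrix (Fin 2) (Fin 2) A) (σ : GQ)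
    (i j : Fin 2) : mapMat φ r σ i j = φ (r σ i j) := rfl

theorem mapMat_apply' (φ : A →+* B) (r : GQ →* Matrix (Fin 2) (Fin 2) A) (σ : GQ) :
    mapMat φ r σ = (r σ).map φ := rfl

theorem mapMat_id (r : GQ →* Matrix (Fin 2) (Fin 2) A) : mapMat (RingHom.id A) r = r := by
  ext σ i j; rfl

theorem mapMat_comp {C : Type} [CommRing C] (ψ : B →+* C) (φ : A →+* B)
    (r : GQ →* Matrix (Fin 2) (Fin 2) A) : mapMat (ψ.comp φ) r = mapMat ψ (mapMat φ r) := by
  ext σ i j; rfl

variable [IsLocalRing A] [IsLocalRing B]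

theorem map_maximalIdeal_pow_le (φ : A →+* B) (hφ : IsLocalHom φ) (n : ℕ) {a : A}
    (ha : a ∈ IsLocalRing.maximalIdeal A ^ n) : φ a ∈ IsLocalRing.maximalIdeal B ^ n := by
  have hmap : (IsLocalRing.maximalIdeal A ^ n).map φ ≤ IsLocalRing.maximalIdeal B ^ n := by
    rw [Ideal.map_pow]
    exact Ideal.pow_right_mono (Ideal.map_le_iff_le_comap.mpr fun a ha =>
      Ideal.mem_comap.mpr (haveI := hφ; map_nonunit φ a ha)) n
  exact hmap (Ideal.mem_map_of_mem φ ha)

theorem matCont_mapMat (φ : A →+* B) (hφ : IsLocalHom φ) {r : GQ →* Matrix (Fin 2) (Fin 2) A}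
    (hr : MatCont r) : MatCont (mapMat φ r) := by
  intro n
  obtain ⟨L, hL, h⟩ := hr n
  refine ⟨L, hL, fun σ hσ i j => ?_⟩
  have h1 : (mapMat φ r σ - 1) i j = φ ((r σ - 1) i j) := by
    simp only [Matrix.sub_apply, mapMat_apply, map_sub, Matrix.one_apply]
    split_ifs <;> simp
  rw [h1]
  exact map_maximalIdeal_pow_le φ hφ n (h σ hσ i j)

omit [IsLocalRing A] [IsLocalRing B] in
theorem piScalarRight_baseChange_toLin' [Algebra A B] (M : Matrix (Fin 2) (Fin 2) A)
    (x : B ⊗[A] (Fin 2 → A)) :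
    TensorProduct.piScalarRight A B B (Fin 2) ((Matrix.toLin' M).baseChange B x) =
      (M.map (algebraMap A B)).mulVec (TensorProduct.piScalarRight A B B (Fin 2) x) := by
  induction x using TensorProduct.induction_on with
  | zero => simp
  | tmul b v =>
    rw [LinearMap.baseChange_tmul, Matrix.toLin'_apply, TensorProduct.piScalarRight_apply,
      TensorProduct.piScalarRightHom_tmul, TensorProduct.piScalarRight_apply,
      TensorProduct.piScalarRightHom_tmul]
    ext i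
    simp only [Matrix.mulVec, dotProduct, Matrix.map_apply, Algebra.smul_def]
    rw [map_sum, Finset.sum_mul]
    refine Finset.sum_congr rfl fun j _ => ?_
    rw [map_mul]; ring
  | add x y hx hy =>
    rw [map_add, map_add, hx, hy, map_add, Matrix.mulVec_add]

theorem baseChangeAlong_ofMatrix_isEquiv (φ : A →+* B) (hφ : IsLocalHom φ)
    {r : GQ →* Matrix (Fin 2) (Fin 2) A} (hr : MatCont r) :
    ((ofMatrix r hr).baseChangeAlong φ hφ).IsEquiv
      (ofMatrix (mapMat φ r) (matCont_mapMat φ hφ hr)) := by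
  let _ : Algebra A B := φ.toAlgebra
  exact isEquiv_ofMatrix_right (ρ := (ofMatrix r hr).baseChangeAlong φ hφ) _
    (TensorProduct.piScalarRight A B B (Fin 2)) fun σ x =>
      piScalarRight_baseChange_toLin' (r σ) x

end BaseChange


section Residual

variable {k : Type} [Field k]

theorem matHom_finiteLevel (r : GQ →* Matrix (Fin 2) (Fin 2) k)
    (hr : GaloisFactorsThroughFiniteLevel r) : GaloisFactorsThroughFiniteLevel (matHom r) := by
  obtain ⟨L, hL, h⟩ := hr
  refine ⟨L, hL, fun σ hσ => ?_⟩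
  refine LinearMap.ext fun v => ?_
  rw [matHom_apply, h σ hσ, Matrix.one_mulVec]
  rfl

/-- The residual representation attached to a matrix representation over a field. -/
noncomputable def ofMatrixRes (r : GQ →* Matrix (Fin 2) (Fin 2) k)
    (hr : GaloisFactorsThroughFiniteLevel r) : ResidualGaloisRep k where
  V := Fin 2 → k
  finrank_eq := by simp
  ρ := matHom r
  factorsThroughFiniteLevel := matHom_finiteLevel r hr

theorem isEquivRes_ofMatrixRes_left {r : GQ →* Matrix (Fin 2) (Fin 2) k}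
    (hr : GaloisFactorsThroughFiniteLevel r)
    {ρ : ResidualGaloisRep k} (e : (Fin 2 → k) ≃ₗ[k] ρ.V)
    (h : ∀ (σ : GQ) (x : Fin 2 → k), e ((r σ).mulVec x) = ρ.ρ σ (e x)) :
    (ofMatrixRes r hr).IsEquiv ρ :=
  ⟨⟨e, fun σ x => (congrArg e (matHom_apply r σ x)).trans (h σ x)⟩⟩

theorem isEquivRes_ofMatrixRes_right {r : GQ →* Matrix (Fin 2) (Fin 2) k}
    (hr : GaloisFactorsThroughFiniteLevel r)
    {ρ : ResidualGaloisRep k} (e : ρ.V ≃ₗ[k] (Fin 2 → k))
    (h : ∀ (σ : GQ) (x : ρ.V), e (ρ.ρ σ x) = (r σ).mulVec (e x)) :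
    ρ.IsEquiv (ofMatrixRes r hr) :=
  ⟨⟨e, fun σ x => (h σ x).trans (matHom_apply r σ (e x)).symm⟩⟩

/-- The matrix representation of a residual representation in a basis. -/
noncomputable def matOfBasisRes (ρ : ResidualGaloisRep k) (b : Module.Basis (Fin 2) k ρ.V) :
    GQ →* Matrix (Fin 2) (Fin 2) k :=
  ((LinearMap.toMatrixAlgEquiv b : Module.End k ρ.V ≃ₐ[k] Matrix (Fin 2) (Fin 2) k) :
    Module.End k ρ.V →* Matrix (Fin 2) (Fin 2) k).comp ρ.ρ

theorem matOfBasisRes_apply (ρ : ResidualGaloisRep k) (b : Module.Basis (Fin 2) k ρ.V) (σ : GQ) :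
    matOfBasisRes ρ b σ = LinearMap.toMatrix b b (ρ.ρ σ) := rfl

theorem matOfBasisRes_apply_apply (ρ : ResidualGaloisRep k) (b : Module.Basis (Fin 2) k ρ.V)
    (σ : GQ) (i j : Fin 2) : matOfBasisRes ρ b σ i j = b.repr (ρ.ρ σ (b j)) i := by
  rw [matOfBasisRes_apply, LinearMap.toMatrix_apply]

theorem matOfBasisRes_finiteLevel (ρ : ResidualGaloisRep k) (b : Module.Basis (Fin 2) k ρ.V) :
    GaloisFactorsThroughFiniteLevel (matOfBasisRes ρ b) := by
  obtain ⟨L, hL, h⟩ := ρ.factorsThroughFiniteLevel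
  refine ⟨L, hL, fun σ hσ => ?_⟩
  rw [matOfBasisRes_apply, h σ hσ]
  exact LinearMap.toMatrix_one b

theorem ofMatrixRes_matOfBasisRes_isEquiv (ρ : ResidualGaloisRep k)
    (b : Module.Basis (Fin 2) k ρ.V) :
    (ofMatrixRes (matOfBasisRes ρ b) (matOfBasisRes_finiteLevel ρ b)).IsEquiv ρ := by
  refine isEquivRes_ofMatrixRes_left _ b.equivFun.symm fun σ x => ?_
  rw [matOfBasisRes_apply]
  have h := LinearMap.toMatrix_mulVec_repr b b (ρ.ρ σ) (b.equivFun.symm x)
  have hx : (b.repr (b.equivFun.symm x) : Fin 2 → k) = x := by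
    have := b.equivFun.apply_symm_apply x
    simpa [Module.Basis.equivFun_apply] using this
  rw [hx] at h
  rw [h]
  have := b.equivFun.symm_apply_apply (ρ.ρ σ (b.equivFun.symm x))
  simpa [Module.Basis.equivFun_apply] using this

theorem ofMatrixRes_isEquiv_of_conj {r r' : GQ →* Matrix (Fin 2) (Fin 2) k}
    (hr : GaloisFactorsThroughFiniteLevel r) (hr' : GaloisFactorsThroughFiniteLevel r')
    (P : Matrix (Fin 2) (Fin 2) k) (hP : IsUnit P)
    (h : ∀ σ, P * r σ = r' σ * P) : (ofMatrixRes r hr).IsEquiv (ofMatrixRes r' hr') := by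
  obtain ⟨u, rfl⟩ := hP
  have hdet : IsUnit (u : Matrix (Fin 2) (Fin 2) k).det :=
    (Matrix.isUnit_iff_isUnit_det _).mp u.isUnit
  let _ := Matrix.invertibleOfIsUnitDet _ hdet
  refine isEquivRes_ofMatrixRes_left hr (ρ := ofMatrixRes r' hr')
    (Matrix.toLinearEquiv' (u : Matrix (Fin 2) (Fin 2) k) inferInstance) fun σ x => ?_
  show Matrix.toLin' (u : Matrix (Fin 2) (Fin 2) k) ((r σ).mulVec x)
    = matHom r' σ (Matrix.toLin' (u : Matrix (Fin 2) (Fin 2) k) x)
  rw [matHom_apply, Matrix.toLin'_apply, Matrix.toLin'_apply, Matrix.mulVec_mulVec,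
    Matrix.mulVec_mulVec, h σ]

theorem exists_conj_of_ofMatrixRes_isEquiv {r r' : GQ →* Matrix (Fin 2) (Fin 2) k}
    (hr : GaloisFactorsThroughFiniteLevel r) (hr' : GaloisFactorsThroughFiniteLevel r')
    (h : (ofMatrixRes r hr).IsEquiv (ofMatrixRes r' hr')) :
    ∃ P : Matrix (Fin 2) (Fin 2) k, IsUnit P ∧ ∀ σ, P * r σ = r' σ * P := by
  obtain ⟨e⟩ := h
  let E : (Fin 2 → k) ≃ₗ[k] (Fin 2 → k) := e.toLinearEquiv
  refine ⟨LinearMap.toMatrix' (E : (Fin 2 → k) →ₗ[k] (Fin 2 → k)), ?_, fun σ => ?_⟩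
  · refine ⟨⟨LinearMap.toMatrix' (E : (Fin 2 → k) →ₗ[k] (Fin 2 → k)),
      LinearMap.toMatrix' (E.symm : (Fin 2 → k) →ₗ[k] (Fin 2 → k)), ?_, ?_⟩, rfl⟩
    · rw [← LinearMap.toMatrix'_comp]
      simp
    · rw [← LinearMap.toMatrix'_comp]
      simp
  · have h1 : (E : (Fin 2 → k) →ₗ[k] (Fin 2 → k)) ∘ₗ Matrix.toLin' (r σ)
        = Matrix.toLin' (r' σ) ∘ₗ (E : (Fin 2 → k) →ₗ[k] (Fin 2 → k)) := by
      refine LinearMap.ext fun x => ?_
      have h0 : E ((r σ).mulVec x) = (r' σ).mulVec (E x) := e.map_apply σ x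
      exact h0
    have h2 := congrArg LinearMap.toMatrix' h1
    rw [LinearMap.toMatrix'_comp, LinearMap.toMatrix'_comp, LinearMap.toMatrix'_toLin',
      LinearMap.toMatrix'_toLin'] at h2
    exact h2

theorem mapMat_finiteLevel {k' : Type} [Field k'] (ψ : k →+* k')
    {r : GQ →* Matrix (Fin 2) (Fin 2) k} (hr : GaloisFactorsThroughFiniteLevel r) :
    GaloisFactorsThroughFiniteLevel (mapMat ψ r) := by
  obtain ⟨L, hL, h⟩ := hr
  refine ⟨L, hL, fun σ hσ => ?_⟩
  rw [mapMat_apply', h σ hσ]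
  simp

theorem baseChangeAlong_ofMatrixRes_isEquiv {k' : Type} [Field k'] (ψ : k →+* k')
    {r : GQ →* Matrix (Fin 2) (Fin 2) k} (hr : GaloisFactorsThroughFiniteLevel r) :
    ((ofMatrixRes r hr).baseChangeAlong ψ).IsEquiv
      (ofMatrixRes (mapMat ψ r) (mapMat_finiteLevel ψ hr)) := by
  let _ : Algebra k k' := ψ.toAlgebra
  exact isEquivRes_ofMatrixRes_right (ρ := (ofMatrixRes r hr).baseChangeAlong ψ) _
    (TensorProduct.piScalarRight k k' k' (Fin 2)) fun σ x =>
      piScalarRight_baseChange_toLin' (r σ) x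

end Residual

section ResidualOfAdic

variable {A : Type} [CommRing A] [IsLocalRing A]

theorem residue_mapMat_finiteLevel {r : GQ →* Matrix (Fin 2) (Fin 2) A} (hr : MatCont r) :
    GaloisFactorsThroughFiniteLevel (mapMat (IsLocalRing.residue A) r) := by
  obtain ⟨L, hL, h⟩ := hr 1
  refine ⟨L, hL, fun σ hσ => ?_⟩
  ext i j
  have := h σ hσ i j
  rw [pow_one, ← IsLocalRing.residue_eq_zero_iff, Matrix.sub_apply, map_sub, sub_eq_zero] at this
  rw [mapMat_apply, this, Matrix.one_apply, Matrix.one_apply]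
  split_ifs <;> simp

theorem residual_ofMatrix_isEquiv {r : GQ →* Matrix (Fin 2) (Fin 2) A} (hr : MatCont r) :
    (ofMatrix r hr).residual.IsEquiv
      (ofMatrixRes (mapMat (IsLocalRing.residue A) r) (residue_mapMat_finiteLevel hr)) :=
  isEquivRes_ofMatrixRes_right (ρ := (ofMatrix r hr).residual) _
    (TensorProduct.piScalarRight A (IsLocalRing.ResidueField A) (IsLocalRing.ResidueField A) (Fin 2))
    fun σ x => piScalarRight_baseChange_toLin' (r σ) x

end ResidualOfAdic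

end Fermat.Agent.S53
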