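import Mathlib
import Fermat.Agent.S53.MatrixLayer
import Fermat.Agent.S53.FibreProduct

/-!
# S53 support: gluing two matrix representations over the fibre product `A ×_k B`
-/

set_option autoImplicit false

open IsLocalRing

namespace Fermat.Agent.S53

section FiniteLevel

variable {A : Type} [CommRing A] [IsLocalRing A]

/-- A matrix representation trivial on an open subgroup is adically continuous. -/
theorem matCont_of_finiteLevel {r : GQ →* Matrix (Fin 2) (Fin 2) A}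
    (hr : GaloisFactorsThroughFiniteLevel r) : MatCont r := by
  obtain ⟨L, hL, h⟩ := hr
  intro n
  refine ⟨L, hL, fun σ hσ i j => ?_⟩
  rw [h σ hσ, sub_self]
  exact Ideal.zero_mem _

/-- Over a ring with nilpotent maximal ideal, adic continuity means trivial on an open subgroup. -/
theorem finiteLevel_of_matCont {r : GQ →* Matrix (Fin 2) (Fin 2) A} (hr : MatCont r) {n : ℕ}
    (hn : maximalIdeal A ^ n = ⊥) : GaloisFactorsThroughFiniteLevel r := by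
  obtain ⟨L, hL, h⟩ := hr n
  refine ⟨L, hL, fun σ hσ => ?_⟩
  ext i j
  have := h σ hσ i j
  rw [hn, Ideal.mem_bot] at this
  have h2 : (r σ - 1) i j = r σ i j - (1 : Matrix (Fin 2) (Fin 2) A) i j := rfl
  rw [h2, sub_eq_zero] at this
  exact this

theorem ofMatrix_isEquiv_of_eq {r r' : GQ →* Matrix (Fin 2) (Fin 2) A} (hr : MatCont r)
    (hr' : MatCont r') (h : r = r') : (ofMatrix r hr).IsEquiv (ofMatrix r' hr') := by
  subst h
  exact ⟨GaloisRepAdic.Equiv.refl _⟩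

theorem isEquiv_symm {ρ ρ' : GaloisRepAdic A} (h : ρ.IsEquiv ρ') : ρ'.IsEquiv ρ := by
  obtain ⟨e⟩ := h
  exact ⟨e.symm⟩

theorem isEquiv_trans {ρ ρ' ρ'' : GaloisRepAdic A} (h : ρ.IsEquiv ρ') (h' : ρ'.IsEquiv ρ'') :
    ρ.IsEquiv ρ'' := by
  obtain ⟨e⟩ := h
  obtain ⟨e'⟩ := h'
  exact ⟨e.trans e'⟩

end FiniteLevel

section Glue

variable (𝒪 : Type) [CommRing 𝒪] [IsLocalRing 𝒪]
variable {A B : Type} [CommRing A] [IsLocalRing A] [Algebra 𝒪 A] [IsTestAlg 𝒪 A]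
  [CommRing B] [IsLocalRing B] [Algebra 𝒪 B] [IsTestAlg 𝒪 B]

/-- The matrix over `A ×_k B` with prescribed projections. -/
noncomputable def glueMatrix (M : Matrix (Fin 2) (Fin 2) A) (M' : Matrix (Fin 2) (Fin 2) B)
    (h : ∀ i j, resO 𝒪 A (M i j) = resO 𝒪 B (M' i j)) : Matrix (Fin 2) (Fin 2) (FP 𝒪 A B) :=
  Matrix.of fun i j => ⟨M i j, M' i j, h i j⟩

theorem glueMatrix_map_fst (M : Matrix (Fin 2) (Fin 2) A) (M' : Matrix (Fin 2) (Fin 2) B)
    (h : ∀ i j, resO 𝒪 A (M i j) = resO 𝒪 B (M' i j)) :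
    (glueMatrix 𝒪 M M' h).map (FP.fst 𝒪 A B) = M := by
  ext i j; rfl

theorem glueMatrix_map_snd (M : Matrix (Fin 2) (Fin 2) A) (M' : Matrix (Fin 2) (Fin 2) B)
    (h : ∀ i j, resO 𝒪 A (M i j) = resO 𝒪 B (M' i j)) :
    (glueMatrix 𝒪 M M' h).map (FP.snd 𝒪 A B) = M' := by
  ext i j; rfl

/-- A matrix over the fibre product is determined by its two projections. -/
theorem FP.matrix_ext {M N : Matrix (Fin 2) (Fin 2) (FP 𝒪 A B)}
    (h1 : M.map (FP.fst 𝒪 A B) = N.map (FP.fst 𝒪 A B))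
    (h2 : M.map (FP.snd 𝒪 A B) = N.map (FP.snd 𝒪 A B)) : M = N := by
  refine Matrix.ext fun i j => ?_
  apply FP.ext' 𝒪
  · exact congrFun (congrFun h1 i) j
  · exact congrFun (congrFun h2 i) j

/-- Glue two matrix representations with equal residual matrices. -/
noncomputable def glue (r : GQ →* Matrix (Fin 2) (Fin 2) A) (r' : GQ →* Matrix (Fin 2) (Fin 2) B)
    (h : ∀ σ i j, resO 𝒪 A (r σ i j) = resO 𝒪 B (r' σ i j)) :
    GQ →* Matrix (Fin 2) (Fin 2) (FP 𝒪 A B) where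
  toFun σ := glueMatrix 𝒪 (r σ) (r' σ) (h σ)
  map_one' := by
    apply FP.matrix_ext 𝒪
    · rw [glueMatrix_map_fst, map_one]
      exact (RingHom.map_one (FP.fst 𝒪 A B : FP 𝒪 A B →+* A).mapMatrix).symm
    · rw [glueMatrix_map_snd, map_one]
      exact (RingHom.map_one (FP.snd 𝒪 A B : FP 𝒪 A B →+* B).mapMatrix).symm
  map_mul' σ τ := by
    apply FP.matrix_ext 𝒪
    · rw [glueMatrix_map_fst, map_mul]
      have := RingHom.map_mul (FP.fst 𝒪 A B : FP 𝒪 A B →+* A).mapMatrix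
        (glueMatrix 𝒪 (r σ) (r' σ) (h σ)) (glueMatrix 𝒪 (r τ) (r' τ) (h τ))
      rw [RingHom.mapMatrix_apply, RingHom.mapMatrix_apply, RingHom.mapMatrix_apply] at this
      rw [show (⇑(FP.fst 𝒪 A B) : FP 𝒪 A B → A) = ⇑(FP.fst 𝒪 A B : FP 𝒪 A B →+* A) from rfl, this]
      congr 1
    · rw [glueMatrix_map_snd, map_mul]
      have := RingHom.map_mul (FP.snd 𝒪 A B : FP 𝒪 A B →+* B).mapMatrix
        (glueMatrix 𝒪 (r σ) (r' σ) (h σ)) (glueMatrix 𝒪 (r τ) (r' τ) (h τ))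
      rw [RingHom.mapMatrix_apply, RingHom.mapMatrix_apply, RingHom.mapMatrix_apply] at this
      rw [show (⇑(FP.snd 𝒪 A B) : FP 𝒪 A B → B) = ⇑(FP.snd 𝒪 A B : FP 𝒪 A B →+* B) from rfl, this]
      congr 1

variable {𝒪}

@[simp] theorem glue_apply_fst (r : GQ →* Matrix (Fin 2) (Fin 2) A)
    (r' : GQ →* Matrix (Fin 2) (Fin 2) B)
    (h : ∀ σ i j, resO 𝒪 A (r σ i j) = resO 𝒪 B (r' σ i j)) (σ : GQ) (i j : Fin 2) :
    FP.fst 𝒪 A B (glue 𝒪 r r' h σ i j) = r σ i j := rfl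

@[simp] theorem glue_apply_snd (r : GQ →* Matrix (Fin 2) (Fin 2) A)
    (r' : GQ →* Matrix (Fin 2) (Fin 2) B)
    (h : ∀ σ i j, resO 𝒪 A (r σ i j) = resO 𝒪 B (r' σ i j)) (σ : GQ) (i j : Fin 2) :
    FP.snd 𝒪 A B (glue 𝒪 r r' h σ i j) = r' σ i j := rfl

theorem mapMat_fst_glue (r : GQ →* Matrix (Fin 2) (Fin 2) A)
    (r' : GQ →* Matrix (Fin 2) (Fin 2) B)
    (h : ∀ σ i j, resO 𝒪 A (r σ i j) = resO 𝒪 B (r' σ i j)) :
    mapMat (FP.fst 𝒪 A B : FP 𝒪 A B →+* A) (glue 𝒪 r r' h) = r := by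
  ext σ i j; rfl

theorem mapMat_snd_glue (r : GQ →* Matrix (Fin 2) (Fin 2) A)
    (r' : GQ →* Matrix (Fin 2) (Fin 2) B)
    (h : ∀ σ i j, resO 𝒪 A (r σ i j) = resO 𝒪 B (r' σ i j)) :
    mapMat (FP.snd 𝒪 A B : FP 𝒪 A B →+* B) (glue 𝒪 r r' h) = r' := by
  ext σ i j; rfl

theorem glue_finiteLevel {r : GQ →* Matrix (Fin 2) (Fin 2) A}
    {r' : GQ →* Matrix (Fin 2) (Fin 2) B}
    (h : ∀ σ i j, resO 𝒪 A (r σ i j) = resO 𝒪 B (r' σ i j))
    (hr : GaloisFactorsThroughFiniteLevel r) (hr' : GaloisFactorsThroughFiniteLevel r') :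
    GaloisFactorsThroughFiniteLevel (glue 𝒪 r r' h) := by
  obtain ⟨L, hL, h1⟩ := hr
  obtain ⟨L', hL', h1'⟩ := hr'
  haveI := hL; haveI := hL'
  refine ⟨L ⊔ L', IntermediateField.finiteDimensional_sup L L', fun σ hσ => ?_⟩
  have e1 : r σ = 1 := h1 σ fun x hx => hσ x ((le_sup_left : L ≤ L ⊔ L') hx)
  have e2 : r' σ = 1 := h1' σ fun x hx => hσ x ((le_sup_right : L' ≤ L ⊔ L') hx)
  refine Matrix.ext fun i j => ?_
  apply FP.ext' 𝒪
  · rw [glue_apply_fst, e1, Matrix.one_apply, Matrix.one_apply]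
    split_ifs
    · exact (map_one _).symm
    · exact (map_zero _).symm
  · rw [glue_apply_snd, e2, Matrix.one_apply, Matrix.one_apply]
    split_ifs
    · exact (map_one _).symm
    · exact (map_zero _).symm

set_option maxHeartbeats 800000 in
/-- The deformation condition for a matrix representation over `A ×_k B` follows from the
deformation condition for its two projections. -/
theorem D_of_fibreProduct_mat
    {𝒟 : ∀ ⦃A : Type⦄ [CommRing A] [IsLocalRing A] [Algebra 𝒪 A], GaloisRepAdic A → Prop}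
    (h𝒟 : GaloisRep.IsDeformationCondition 𝒪 𝒟) [Finite A] [Finite B]
    {r : GQ →* Matrix (Fin 2) (Fin 2) A} {r' : GQ →* Matrix (Fin 2) (Fin 2) B}
    (g : GQ →* Matrix (Fin 2) (Fin 2) (FP 𝒪 A B))
    (h1 : mapMat (FP.fst 𝒪 A B : FP 𝒪 A B →+* A) g = r)
    (h2 : mapMat (FP.snd 𝒪 A B : FP 𝒪 A B →+* B) g = r')
    (hr : MatCont r) (hr' : MatCont r') (hg : MatCont g)
    (hD : 𝒟 (ofMatrix r hr)) (hD' : 𝒟 (ofMatrix r' hr')) :
    𝒟 (ofMatrix g hg) := by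
  have e1 : (ofMatrix r hr).IsEquiv
      ((ofMatrix g hg).baseChangeAlong (FP.fst 𝒪 A B : FP 𝒪 A B →+* A)
        (FP.isLocalHom_fst 𝒪)) :=
    isEquiv_symm (isEquiv_trans
      (baseChangeAlong_ofMatrix_isEquiv (FP.fst 𝒪 A B : FP 𝒪 A B →+* A) (FP.isLocalHom_fst 𝒪) hg)
      (ofMatrix_isEquiv_of_eq _ hr h1))
  have e2 : (ofMatrix r' hr').IsEquiv
      ((ofMatrix g hg).baseChangeAlong (FP.snd 𝒪 A B : FP 𝒪 A B →+* B)
        (FP.isLocalHom_snd 𝒪)) :=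
    isEquiv_symm (isEquiv_trans
      (baseChangeAlong_ofMatrix_isEquiv (FP.snd 𝒪 A B : FP 𝒪 A B →+* B) (FP.isLocalHom_snd 𝒪) hg)
      (ofMatrix_isEquiv_of_eq _ hr' h2))
  have d1 := h𝒟.of_isEquiv (isArtinianTestAlgebra_of_finite 𝒪) e1 hD
  have d2 := h𝒟.of_isEquiv (isArtinianTestAlgebra_of_finite 𝒪) e2 hD'
  exact FP.of_fibreProduct h𝒟 (ofMatrix g hg) d1 d2

/-- The deformation condition passes to the glued representation. -/
theorem D_glue
    {𝒟 : ∀ ⦃A : Type⦄ [CommRing A] [IsLocalRing A] [Algebra 𝒪 A], GaloisRepAdic A → Prop}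
    (h𝒟 : GaloisRep.IsDeformationCondition 𝒪 𝒟) [Finite A] [Finite B]
    {r : GQ →* Matrix (Fin 2) (Fin 2) A} {r' : GQ →* Matrix (Fin 2) (Fin 2) B}
    (h : ∀ σ i j, resO 𝒪 A (r σ i j) = resO 𝒪 B (r' σ i j))
    (hr : MatCont r) (hr' : MatCont r') (hg : MatCont (glue 𝒪 r r' h))
    (hD : 𝒟 (ofMatrix r hr)) (hD' : 𝒟 (ofMatrix r' hr')) :
    𝒟 (ofMatrix (glue 𝒪 r r' h) hg) :=
  D_of_fibreProduct_mat h𝒟 (glue 𝒪 r r' h) (mapMat_fst_glue r r' h) (mapMat_snd_glue r r' h) hr hr'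
    hg hD hD'

end Glue

end Fermat.Agent.S53
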