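import Mathlib
import Fermat.Agent.S53.Glue

/-!
# S53 support (M2): the polynomial ring `Θ`, test objects and good ideals

`Θ = 𝒪[x_{σ,i,j}]`.  A *test object* is a finite local test algebra `A` with a matrix
representation `r : GQ →* M₂(A)` which is in "normal form" (an abstract predicate `N` here),
continuous and of type `𝒟`.  An ideal of `Θ` is *good* if it is the kernel of the evaluation map
`Θ → A` of a test object.  We show that good ideals are closed under intersection, upward closed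
(below `⊤`), and that `Θ ⧸ 𝔞` with its tautological matrices is again a test object.
-/

set_option autoImplicit false
set_option linter.style.haveILetI false
set_option linter.unusedSectionVars false

open IsLocalRing

namespace Fermat.Agent.S53

section Theta

variable (𝒪 : Type) [CommRing 𝒪]

/-- The polynomial ring on the matrix entries of all Galois elements. -/
abbrev Theta : Type := MvPolynomial (GQ × Fin 2 × Fin 2) 𝒪

variable {A B : Type} [CommRing A] [Algebra 𝒪 A] [CommRing B] [Algebra 𝒪 B]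

/-- Evaluation of `Θ` at the matrix entries of `r`. -/
noncomputable def evalHom (r : GQ →* Matrix (Fin 2) (Fin 2) A) : Theta 𝒪 →ₐ[𝒪] A :=
  MvPolynomial.aeval fun p : GQ × Fin 2 × Fin 2 => r p.1 p.2.1 p.2.2

@[simp] theorem evalHom_X (r : GQ →* Matrix (Fin 2) (Fin 2) A) (σ : GQ) (i j : Fin 2) :
    evalHom 𝒪 r (MvPolynomial.X (σ, i, j)) = r σ i j := by
  simp [evalHom]

theorem evalHom_comp (φ : A →ₐ[𝒪] B) (r : GQ →* Matrix (Fin 2) (Fin 2) A) :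
    φ.comp (evalHom 𝒪 r) = evalHom 𝒪 (mapMat (φ : A →+* B) r) := by
  apply MvPolynomial.algHom_ext
  rintro ⟨σ, i, j⟩
  simp

theorem evalHom_comp_apply (φ : A →ₐ[𝒪] B) (r : GQ →* Matrix (Fin 2) (Fin 2) A)
    (x : Theta 𝒪) : φ (evalHom 𝒪 r x) = evalHom 𝒪 (mapMat (φ : A →+* B) r) x := by
  rw [← evalHom_comp]; rfl

/-- Two algebra homs out of `Θ` agreeing on the variables are equal. -/
theorem theta_algHom_ext {f g : Theta 𝒪 →ₐ[𝒪] A}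
    (h : ∀ σ i j, f (MvPolynomial.X (σ, i, j)) = g (MvPolynomial.X (σ, i, j))) : f = g := by
  apply MvPolynomial.algHom_ext
  rintro ⟨σ, i, j⟩
  exact h σ i j

end Theta

section FiniteSub

variable {𝒪 : Type} [CommRing 𝒪] [IsLocalRing 𝒪]
variable {S A : Type} [CommRing S] [Algebra 𝒪 S] [CommRing A] [IsLocalRing A] [Algebra 𝒪 A]

omit [Algebra 𝒪 S] [IsLocalRing A] [Algebra 𝒪 A] in
/-- An injective ring hom from a finite ring to a local ring is local. -/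
theorem isLocalHom_of_injective_of_finite [Finite S] (ι : S →+* A)
    (hι : Function.Injective ι) : IsLocalHom ι := by
  refine ⟨fun x hx => ?_⟩
  have hinj : Function.Injective fun y : S => x * y := by
    intro y z hyz
    apply hι
    have : ι x * ι y = ι x * ι z := by rw [← map_mul, ← map_mul]; exact congrArg ι hyz
    exact hx.mul_left_cancel this
  obtain ⟨y, hy⟩ := Finite.injective_iff_surjective.mp hinj 1
  exact IsUnit.of_mul_eq_one y hy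

theorem isLocalRing_of_injective_of_finite [Finite S] (ι : S →+* A)
    (hι : Function.Injective ι) : IsLocalRing S :=
  have := isLocalHom_of_injective_of_finite ι hι
  RingHom.domain_isLocalRing ι

omit [Algebra 𝒪 S] [Algebra 𝒪 A] in
theorem mem_maximalIdeal_of_map_mem [IsLocalRing S] (ι : S →+* A) {x : S}
    (h : ι x ∈ maximalIdeal A) : x ∈ maximalIdeal S := by
  rw [IsLocalRing.mem_maximalIdeal, mem_nonunits_iff] at h ⊢
  exact fun hu => h (hu.map ι)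

theorem isTestAlg_of_injective [IsTestAlg 𝒪 A] [IsLocalRing S] (ι : S →ₐ[𝒪] A) :
    IsTestAlg 𝒪 S where
  isLocalHom := by
    refine ⟨fun c hc => ?_⟩
    have h1 : IsUnit (ι (algebraMap 𝒪 S c)) := hc.map ι
    rw [AlgHom.commutes] at h1
    have := IsTestAlg.isLocalHom (𝒪 := 𝒪) (A := A)
    exact IsUnit.of_map (algebraMap 𝒪 A) c h1
  residue_surjective := by
    intro y
    obtain ⟨s, rfl⟩ := IsLocalRing.residue_surjective y
    obtain ⟨c, hc⟩ := exists_sub_mem_maximalIdeal 𝒪 (ι s)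
    refine ⟨c, ?_⟩
    have h2 : s - algebraMap 𝒪 S c ∈ maximalIdeal S := by
      apply mem_maximalIdeal_of_map_mem (ι : S →+* A)
      rw [map_sub]
      change ι s - ι (algebraMap 𝒪 S c) ∈ _
      rw [AlgHom.commutes]
      exact hc
    rw [Function.comp_apply]
    symm
    rw [← sub_eq_zero, ← map_sub, IsLocalRing.residue_eq_zero_iff]
    exact h2

/-- A surjective image of a test algebra is a test algebra. -/
theorem isTestAlg_of_surjective {B : Type} [CommRing B] [IsLocalRing B] [Algebra 𝒪 B]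
    [IsTestAlg 𝒪 A] (φ : A →ₐ[𝒪] B) (hφ : Function.Surjective φ) : IsTestAlg 𝒪 B where
  isLocalHom := by
    refine ⟨fun c hc => ?_⟩
    have : IsLocalHom (φ : A →+* B) := IsLocalHom.of_surjective _ hφ
    rw [← AlgHom.commutes φ] at hc
    have h1 : IsUnit (algebraMap 𝒪 A c) := IsUnit.of_map (φ : A →+* B) _ hc
    have := IsTestAlg.isLocalHom (𝒪 := 𝒪) (A := A)
    exact IsUnit.of_map (algebraMap 𝒪 A) c h1
  residue_surjective := by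
    intro y
    obtain ⟨b, rfl⟩ := IsLocalRing.residue_surjective y
    obtain ⟨a, rfl⟩ := hφ b
    obtain ⟨c, hc⟩ := exists_sub_mem_maximalIdeal 𝒪 a
    refine ⟨c, ?_⟩
    have : IsLocalHom (φ : A →+* B) := IsLocalHom.of_surjective _ hφ
    have h2 : φ a - algebraMap 𝒪 B c ∈ maximalIdeal B := by
      rw [← AlgHom.commutes φ, ← map_sub]
      exact map_nonunit (φ : A →+* B) _ hc
    rw [Function.comp_apply]
    symm
    rw [← sub_eq_zero, ← map_sub, IsLocalRing.residue_eq_zero_iff]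
    exact h2

theorem exists_maximalIdeal_pow_eq_bot_of_finite [Finite A] : ∃ n : ℕ, maximalIdeal A ^ n = ⊥ := by
  have h := IsArtinianRing.isNilpotent_jacobson_bot (R := A)
  rw [IsLocalRing.jacobson_eq_maximalIdeal ⊥ bot_ne_top] at h
  obtain ⟨n, hn⟩ := h
  exact ⟨n, hn⟩

end FiniteSub

section Taut

variable {𝒪 : Type} [CommRing 𝒪]

/-- The tautological matrix of `σ` over `Θ ⧸ 𝔞`. -/
noncomputable def tautFun (𝔞 : Ideal (Theta 𝒪)) (σ : GQ) :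
    Matrix (Fin 2) (Fin 2) (Theta 𝒪 ⧸ 𝔞) :=
  Matrix.of fun i j => Ideal.Quotient.mk 𝔞 (MvPolynomial.X (σ, i, j))

/-- The tautological matrices over `Θ ⧸ 𝔞` form a monoid homomorphism. -/
def IsTautHom (𝔞 : Ideal (Theta 𝒪)) : Prop :=
  tautFun 𝔞 1 = 1 ∧ ∀ σ τ, tautFun 𝔞 (σ * τ) = tautFun 𝔞 σ * tautFun 𝔞 τ

/-- The tautological matrix representation over `Θ ⧸ 𝔞`. -/
noncomputable def taut (𝔞 : Ideal (Theta 𝒪)) (h : IsTautHom 𝔞) :
    GQ →* Matrix (Fin 2) (Fin 2) (Theta 𝒪 ⧸ 𝔞) where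
  toFun := tautFun 𝔞
  map_one' := h.1
  map_mul' := h.2

@[simp] theorem taut_apply (𝔞 : Ideal (Theta 𝒪)) (h : IsTautHom 𝔞) (σ : GQ) (i j : Fin 2) :
    taut 𝔞 h σ i j = Ideal.Quotient.mk 𝔞 (MvPolynomial.X (σ, i, j)) := rfl

theorem evalHom_taut (𝔞 : Ideal (Theta 𝒪)) (h : IsTautHom 𝔞) :
    evalHom 𝒪 (taut 𝔞 h) = Ideal.Quotient.mkₐ 𝒪 𝔞 := by
  apply theta_algHom_ext
  intro σ i j
  simp

theorem ker_evalHom_taut (𝔞 : Ideal (Theta 𝒪)) (h : IsTautHom 𝔞) :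
    RingHom.ker (evalHom 𝒪 (taut 𝔞 h)) = 𝔞 := by
  rw [evalHom_taut]
  exact Ideal.Quotient.mkₐ_ker 𝒪 𝔞

variable {A : Type} [CommRing A] [Algebra 𝒪 A]

/-- The map `Θ ⧸ 𝔞 → A` induced by `evalHom r` when `𝔞 ≤ ker`. -/
noncomputable def quotLift (𝔞 : Ideal (Theta 𝒪)) (r : GQ →* Matrix (Fin 2) (Fin 2) A)
    (h : 𝔞 ≤ RingHom.ker (evalHom 𝒪 r)) : Theta 𝒪 ⧸ 𝔞 →ₐ[𝒪] A :=
  Ideal.Quotient.liftₐ 𝔞 (evalHom 𝒪 r) fun _ ha => h ha

@[simp] theorem quotLift_mk (𝔞 : Ideal (Theta 𝒪)) (r : GQ →* Matrix (Fin 2) (Fin 2) A)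
    (h : 𝔞 ≤ RingHom.ker (evalHom 𝒪 r)) (x : Theta 𝒪) :
    quotLift 𝔞 r h (Ideal.Quotient.mk 𝔞 x) = evalHom 𝒪 r x := rfl

theorem quotLift_injective (𝔞 : Ideal (Theta 𝒪)) (r : GQ →* Matrix (Fin 2) (Fin 2) A)
    (h : RingHom.ker (evalHom 𝒪 r) = 𝔞) : Function.Injective (quotLift 𝔞 r h.ge) := by
  rw [injective_iff_map_eq_zero]
  intro y hy
  obtain ⟨x, rfl⟩ := Ideal.Quotient.mk_surjective y
  rw [quotLift_mk] at hy
  rw [Ideal.Quotient.eq_zero_iff_mem, ← h]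
  exact hy

theorem map_quotLift_tautFun (𝔞 : Ideal (Theta 𝒪)) (r : GQ →* Matrix (Fin 2) (Fin 2) A)
    (h : 𝔞 ≤ RingHom.ker (evalHom 𝒪 r)) (σ : GQ) :
    (tautFun 𝔞 σ).map (quotLift 𝔞 r h) = r σ := by
  ext i j
  simp [tautFun]

/-- If `𝔞` is the kernel of an evaluation map, the tautological matrices are multiplicative. -/
theorem isTautHom_of_ker_eq (𝔞 : Ideal (Theta 𝒪)) (r : GQ →* Matrix (Fin 2) (Fin 2) A)
    (h : RingHom.ker (evalHom 𝒪 r) = 𝔞) : IsTautHom 𝔞 := by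
  have hinj := Matrix.map_injective (m := Fin 2) (n := Fin 2) (quotLift_injective 𝔞 r h)
  constructor
  · apply hinj
    simp only
    rw [map_quotLift_tautFun, map_one, Matrix.map_one _ (map_zero _) (map_one _)]
  · intro σ τ
    apply hinj
    simp only
    rw [map_quotLift_tautFun, Matrix.map_mul, map_quotLift_tautFun, map_quotLift_tautFun, map_mul]

theorem mapMat_quotLift_taut (𝔞 : Ideal (Theta 𝒪)) (r : GQ →* Matrix (Fin 2) (Fin 2) A)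
    (h : 𝔞 ≤ RingHom.ker (evalHom 𝒪 r)) (ht : IsTautHom 𝔞) :
    mapMat (quotLift 𝔞 r h : Theta 𝒪 ⧸ 𝔞 →+* A) (taut 𝔞 ht) = r := by
  ext σ i j
  simp

/-- The entries of the tautological matrices generate `Θ ⧸ 𝔞`. -/
theorem adjoin_taut_eq_top (𝔞 : Ideal (Theta 𝒪)) (ht : IsTautHom 𝔞) :
    Algebra.adjoin 𝒪 {x | ∃ σ i j, x = taut 𝔞 ht σ i j} = ⊤ := by
  have h1 : (Algebra.adjoin 𝒪 (Set.range (MvPolynomial.X :
      GQ × Fin 2 × Fin 2 → Theta 𝒪))).map (Ideal.Quotient.mkₐ 𝒪 𝔞) = ⊤ := by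
    rw [MvPolynomial.adjoin_range_X, Algebra.map_top, AlgHom.range_eq_top]
    exact Ideal.Quotient.mkₐ_surjective 𝒪 𝔞
  rw [← h1, AlgHom.map_adjoin]
  congr 1
  ext x
  constructor
  · rintro ⟨σ, i, j, rfl⟩
    exact ⟨_, ⟨(σ, i, j), rfl⟩, rfl⟩
  · rintro ⟨_, ⟨⟨σ, i, j⟩, rfl⟩, rfl⟩
    exact ⟨σ, i, j, rfl⟩

/-- Two algebra homs out of `Θ ⧸ 𝔞` agreeing on the tautological entries are equal. -/
theorem quot_algHom_ext (𝔞 : Ideal (Theta 𝒪)) {f g : Theta 𝒪 ⧸ 𝔞 →ₐ[𝒪] A}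
    (h : ∀ σ i j, f (Ideal.Quotient.mk 𝔞 (MvPolynomial.X (σ, i, j))) =
      g (Ideal.Quotient.mk 𝔞 (MvPolynomial.X (σ, i, j)))) : f = g := by
  have : f.comp (Ideal.Quotient.mkₐ 𝒪 𝔞) = g.comp (Ideal.Quotient.mkₐ 𝒪 𝔞) :=
    theta_algHom_ext 𝒪 h
  ext y
  obtain ⟨x, rfl⟩ := Ideal.Quotient.mk_surjective y
  exact DFunLike.congr_fun this x

end Taut

section TestObj

variable {𝒪 : Type} [CommRing 𝒪] [IsLocalRing 𝒪]

/-- Abstract stability properties of a normal-form predicate `N` on matrix representations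
over test algebras, with fixed residual matrices `rbar`. -/
structure NFAxioms
    (N : ∀ ⦃A : Type⦄ [CommRing A] [IsLocalRing A] [Algebra 𝒪 A] [IsTestAlg 𝒪 A],
      (GQ →* Matrix (Fin 2) (Fin 2) A) → Prop)
    (rbar : GQ →* Matrix (Fin 2) (Fin 2) (ResidueField 𝒪)) : Prop where
  /-- normal forms are preserved by `𝒪`-algebra maps -/
  map : ∀ ⦃A B : Type⦄ [CommRing A] [IsLocalRing A] [Algebra 𝒪 A] [IsTestAlg 𝒪 A]
    [CommRing B] [IsLocalRing B] [Algebra 𝒪 B] [IsTestAlg 𝒪 B] (φ : A →ₐ[𝒪] B)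
    ⦃r : GQ →* Matrix (Fin 2) (Fin 2) A⦄, N r → N (mapMat (φ : A →+* B) r)
  /-- normal forms are reflected by jointly injective pairs of `𝒪`-algebra maps -/
  of_map_pair : ∀ ⦃P A B : Type⦄ [CommRing P] [IsLocalRing P] [Algebra 𝒪 P] [IsTestAlg 𝒪 P]
    [CommRing A] [IsLocalRing A] [Algebra 𝒪 A] [IsTestAlg 𝒪 A]
    [CommRing B] [IsLocalRing B] [Algebra 𝒪 B] [IsTestAlg 𝒪 B] (φ : P →ₐ[𝒪] A) (ψ : P →ₐ[𝒪] B),
    Function.Injective (fun x => (φ x, ψ x)) →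
    ∀ ⦃r : GQ →* Matrix (Fin 2) (Fin 2) P⦄,
      N (mapMat (φ : P →+* A) r) → N (mapMat (ψ : P →+* B) r) → N r
  /-- normal forms have residual matrices `rbar` -/
  res : ∀ ⦃A : Type⦄ [CommRing A] [IsLocalRing A] [Algebra 𝒪 A] [IsTestAlg 𝒪 A]
    ⦃r : GQ →* Matrix (Fin 2) (Fin 2) A⦄, N r → ∀ σ i j, resO 𝒪 A (r σ i j) = rbar σ i j

variable {N : ∀ ⦃A : Type⦄ [CommRing A] [IsLocalRing A] [Algebra 𝒪 A] [IsTestAlg 𝒪 A],
      (GQ →* Matrix (Fin 2) (Fin 2) A) → Prop}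
  {rbar : GQ →* Matrix (Fin 2) (Fin 2) (ResidueField 𝒪)}

theorem NFAxioms.of_map_injective (hN : NFAxioms N rbar)
    {A B : Type} [CommRing A] [IsLocalRing A] [Algebra 𝒪 A] [IsTestAlg 𝒪 A]
    [CommRing B] [IsLocalRing B] [Algebra 𝒪 B] [IsTestAlg 𝒪 B] (φ : A →ₐ[𝒪] B)
    (hφ : Function.Injective φ) {r : GQ →* Matrix (Fin 2) (Fin 2) A}
    (h : N (mapMat (φ : A →+* B) r)) : N r :=
  hN.of_map_pair φ φ (fun _ _ hxy => hφ (congrArg Prod.fst hxy)) h h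

theorem NFAxioms.glue (hN : NFAxioms N rbar)
    {A B : Type} [CommRing A] [IsLocalRing A] [Algebra 𝒪 A] [IsTestAlg 𝒪 A]
    [CommRing B] [IsLocalRing B] [Algebra 𝒪 B] [IsTestAlg 𝒪 B]
    {r : GQ →* Matrix (Fin 2) (Fin 2) A} {r' : GQ →* Matrix (Fin 2) (Fin 2) B}
    (h : ∀ σ i j, resO 𝒪 A (r σ i j) = resO 𝒪 B (r' σ i j)) (h1 : N r) (h2 : N r') :
    N (glue 𝒪 r r' h) := by
  refine hN.of_map_pair (FP.fst 𝒪 A B) (FP.snd 𝒪 A B) (FP.injective_prod 𝒪) ?_ ?_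
  · rw [mapMat_fst_glue]; exact h1
  · rw [mapMat_snd_glue]; exact h2

variable (N)
variable (𝒟 : ∀ ⦃A : Type⦄ [CommRing A] [IsLocalRing A] [Algebra 𝒪 A], GaloisRepAdic A → Prop)

/-- A test object: a finite test algebra with a matrix representation in normal form, continuous
and of type `𝒟`. -/
structure IsTestObj {A : Type} [CommRing A] [IsLocalRing A] [Algebra 𝒪 A] [IsTestAlg 𝒪 A]
    (r : GQ →* Matrix (Fin 2) (Fin 2) A) : Prop where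
  finite : Finite A
  nf : N r
  cont : MatCont r
  isD : 𝒟 (ofMatrix r cont)

variable {N 𝒟}

theorem IsTestObj.finiteLevel {A : Type} [CommRing A] [IsLocalRing A] [Algebra 𝒪 A]
    [IsTestAlg 𝒪 A] {r : GQ →* Matrix (Fin 2) (Fin 2) A} (h : IsTestObj N 𝒟 r) :
    GaloisFactorsThroughFiniteLevel r := by
  haveI := h.finite
  obtain ⟨n, hn⟩ := exists_maximalIdeal_pow_eq_bot_of_finite (A := A)
  exact finiteLevel_of_matCont h.cont hn

/-- Test objects push forward along `𝒪`-algebra maps to finite test algebras. -/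
theorem IsTestObj.map (hN : NFAxioms N rbar) (h𝒟 : GaloisRep.IsDeformationCondition 𝒪 𝒟)
    {A B : Type} [CommRing A] [IsLocalRing A] [Algebra 𝒪 A] [IsTestAlg 𝒪 A]
    [CommRing B] [IsLocalRing B] [Algebra 𝒪 B] [IsTestAlg 𝒪 B] [Finite B] (φ : A →ₐ[𝒪] B)
    {r : GQ →* Matrix (Fin 2) (Fin 2) A} (h : IsTestObj N 𝒟 r) :
    IsTestObj N 𝒟 (mapMat (φ : A →+* B) r) := by
  haveI := h.finite
  have hφ : IsLocalHom (φ : A →+* B) := isLocalHom_of_algHom 𝒪 φ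
  refine ⟨inferInstance, hN.map φ h.nf, matCont_mapMat _ hφ h.cont, ?_⟩
  exact h𝒟.of_isEquiv (isArtinianTestAlgebra_of_finite 𝒪)
    (baseChangeAlong_ofMatrix_isEquiv (φ : A →+* B) hφ h.cont)
    (h𝒟.baseChangeAlong (isArtinianTestAlgebra_of_finite 𝒪) (isArtinianTestAlgebra_of_finite 𝒪)
      φ hφ h.isD)

/-- Test objects descend along injective `𝒪`-algebra maps. -/
theorem IsTestObj.of_map_injective (hN : NFAxioms N rbar)
    (h𝒟 : GaloisRep.IsDeformationCondition 𝒪 𝒟)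
    {A B : Type} [CommRing A] [IsLocalRing A] [Algebra 𝒪 A] [IsTestAlg 𝒪 A]
    [CommRing B] [IsLocalRing B] [Algebra 𝒪 B] [IsTestAlg 𝒪 B] (φ : A →ₐ[𝒪] B)
    (hinj : Function.Injective φ)
    {r : GQ →* Matrix (Fin 2) (Fin 2) A} (h : IsTestObj N 𝒟 (mapMat (φ : A →+* B) r)) :
    IsTestObj N 𝒟 r := by
  haveI := h.finite
  haveI : Finite A := Finite.of_injective φ hinj
  have hφ : IsLocalHom (φ : A →+* B) := isLocalHom_of_algHom 𝒪 φ
  have hfl : GaloisFactorsThroughFiniteLevel r := by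
    obtain ⟨L, hL, hL'⟩ := h.finiteLevel
    refine ⟨L, hL, fun σ hσ => ?_⟩
    apply Matrix.map_injective (m := Fin 2) (n := Fin 2) hinj
    simp only
    have := hL' σ hσ
    rw [mapMat_apply'] at this
    rw [Matrix.map_one _ (map_zero _) (map_one _)]
    exact this
  have hcont : MatCont r := matCont_of_finiteLevel hfl
  refine ⟨inferInstance, hN.of_map_injective φ hinj h.nf, hcont, ?_⟩
  exact h𝒟.of_baseChangeAlong_injective (isArtinianTestAlgebra_of_finite 𝒪)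
    (isArtinianTestAlgebra_of_finite 𝒪) φ hφ hinj
    (h𝒟.of_isEquiv (isArtinianTestAlgebra_of_finite 𝒪)
      (isEquiv_symm (baseChangeAlong_ofMatrix_isEquiv (φ : A →+* B) hφ hcont)) h.isD)

/-- Two test objects glue to a test object over the fibre product. -/
theorem IsTestObj.glue (hN : NFAxioms N rbar) (h𝒟 : GaloisRep.IsDeformationCondition 𝒪 𝒟)
    {A B : Type} [CommRing A] [IsLocalRing A] [Algebra 𝒪 A] [IsTestAlg 𝒪 A]
    [CommRing B] [IsLocalRing B] [Algebra 𝒪 B] [IsTestAlg 𝒪 B]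
    {r : GQ →* Matrix (Fin 2) (Fin 2) A} {r' : GQ →* Matrix (Fin 2) (Fin 2) B}
    (h : ∀ σ i j, resO 𝒪 A (r σ i j) = resO 𝒪 B (r' σ i j))
    (h1 : IsTestObj N 𝒟 r) (h2 : IsTestObj N 𝒟 r') : IsTestObj N 𝒟 (glue 𝒪 r r' h) := by
  haveI := h1.finite
  haveI := h2.finite
  have hcont : MatCont (Fermat.Agent.S53.glue 𝒪 r r' h) :=
    matCont_of_finiteLevel (glue_finiteLevel h h1.finiteLevel h2.finiteLevel)
  exact ⟨inferInstance, hN.glue h h1.nf h2.nf, hcont, D_glue h𝒟 h h1.cont h2.cont hcont h1.isD h2.isD⟩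

theorem IsTestObj.res_eq (hN : NFAxioms N rbar)
    {A B : Type} [CommRing A] [IsLocalRing A] [Algebra 𝒪 A] [IsTestAlg 𝒪 A]
    [CommRing B] [IsLocalRing B] [Algebra 𝒪 B] [IsTestAlg 𝒪 B]
    {r : GQ →* Matrix (Fin 2) (Fin 2) A} {r' : GQ →* Matrix (Fin 2) (Fin 2) B}
    (h1 : IsTestObj N 𝒟 r) (h2 : IsTestObj N 𝒟 r') (σ : GQ) (i j : Fin 2) :
    resO 𝒪 A (r σ i j) = resO 𝒪 B (r' σ i j) := by
  rw [hN.res h1.nf, hN.res h2.nf]

end TestObj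

section Good

variable {𝒪 : Type} [CommRing 𝒪] [IsLocalRing 𝒪]
variable (N : ∀ ⦃A : Type⦄ [CommRing A] [IsLocalRing A] [Algebra 𝒪 A] [IsTestAlg 𝒪 A],
      (GQ →* Matrix (Fin 2) (Fin 2) A) → Prop)
  (𝒟 : ∀ ⦃A : Type⦄ [CommRing A] [IsLocalRing A] [Algebra 𝒪 A], GaloisRepAdic A → Prop)
  {rbar : GQ →* Matrix (Fin 2) (Fin 2) (ResidueField 𝒪)}

/-- An ideal of `Θ` is good if it is the kernel of the evaluation map of a test object. -/
def IsGood (𝔞 : Ideal (Theta 𝒪)) : Prop :=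
  ∃ (A : Type) (_ : CommRing A) (_ : IsLocalRing A) (_ : Algebra 𝒪 A) (_ : IsTestAlg 𝒪 A)
    (r : GQ →* Matrix (Fin 2) (Fin 2) A), IsTestObj N 𝒟 r ∧ RingHom.ker (evalHom 𝒪 r) = 𝔞

variable {N 𝒟}

theorem IsTestObj.isGood {A : Type} [CommRing A] [IsLocalRing A] [Algebra 𝒪 A] [IsTestAlg 𝒪 A]
    {r : GQ →* Matrix (Fin 2) (Fin 2) A} (h : IsTestObj N 𝒟 r) :
    IsGood N 𝒟 (RingHom.ker (evalHom 𝒪 r)) :=
  ⟨A, _, _, _, _, r, h, rfl⟩

/-- Good ideals are closed under intersection. -/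
theorem IsGood.inf (hN : NFAxioms N rbar) (h𝒟 : GaloisRep.IsDeformationCondition 𝒪 𝒟)
    {𝔞 𝔟 : Ideal (Theta 𝒪)} (h1 : IsGood N 𝒟 𝔞) (h2 : IsGood N 𝒟 𝔟) : IsGood N 𝒟 (𝔞 ⊓ 𝔟) := by
  obtain ⟨A, _, _, _, _, r, hr, rfl⟩ := h1
  obtain ⟨B, _, _, _, _, r', hr', rfl⟩ := h2
  have h := fun σ i j => hr.res_eq hN hr' σ i j
  refine ⟨FP 𝒪 A B, inferInstance, inferInstance, inferInstance, inferInstance, glue 𝒪 r r' h,
    hr.glue hN h𝒟 h hr', ?_⟩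
  ext x
  have e1 := evalHom_comp_apply 𝒪 (FP.fst 𝒪 A B) (glue 𝒪 r r' h) x
  have e2 := evalHom_comp_apply 𝒪 (FP.snd 𝒪 A B) (glue 𝒪 r r' h) x
  rw [mapMat_fst_glue] at e1
  rw [mapMat_snd_glue] at e2
  rw [Ideal.mem_inf, RingHom.mem_ker, RingHom.mem_ker, RingHom.mem_ker, ← e1, ← e2]
  constructor
  · intro hx
    rw [hx, map_zero, map_zero]
    exact ⟨rfl, rfl⟩
  · rintro ⟨h1, h2⟩
    apply FP.ext' 𝒪
    · rw [h1, map_zero]
    · rw [h2, map_zero]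

theorem IsGood.finite {𝔞 : Ideal (Theta 𝒪)} (h : IsGood N 𝒟 𝔞) : Finite (Theta 𝒪 ⧸ 𝔞) := by
  obtain ⟨A, _, _, _, _, r, hr, hker⟩ := h
  haveI := hr.finite
  exact Finite.of_injective _ (quotLift_injective 𝔞 r hker)

theorem IsGood.isLocalRing {𝔞 : Ideal (Theta 𝒪)} (h : IsGood N 𝒟 𝔞) :
    IsLocalRing (Theta 𝒪 ⧸ 𝔞) := by
  haveI := h.finite
  obtain ⟨A, _, _, _, _, r, hr, hker⟩ := h
  exact isLocalRing_of_injective_of_finite (quotLift 𝔞 r hker.ge : Theta 𝒪 ⧸ 𝔞 →+* A)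
    (quotLift_injective 𝔞 r hker)

theorem IsGood.isTestAlg {𝔞 : Ideal (Theta 𝒪)} (h : IsGood N 𝒟 𝔞) [IsLocalRing (Theta 𝒪 ⧸ 𝔞)] :
    IsTestAlg 𝒪 (Theta 𝒪 ⧸ 𝔞) := by
  obtain ⟨A, _, _, _, _, r, hr, hker⟩ := h
  exact isTestAlg_of_injective (quotLift 𝔞 r hker.ge)

theorem IsGood.isTautHom {𝔞 : Ideal (Theta 𝒪)} (h : IsGood N 𝒟 𝔞) : IsTautHom 𝔞 := by
  obtain ⟨A, _, _, _, _, r, hr, hker⟩ := h
  exact isTautHom_of_ker_eq 𝔞 r hker

/-- For a good ideal `𝔞`, the quotient `Θ ⧸ 𝔞` with its tautological matrices is a test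
object. -/
theorem IsGood.isTestObj_taut (hN : NFAxioms N rbar) (h𝒟 : GaloisRep.IsDeformationCondition 𝒪 𝒟)
    {𝔞 : Ideal (Theta 𝒪)} (h : IsGood N 𝒟 𝔞) [IsLocalRing (Theta 𝒪 ⧸ 𝔞)]
    [IsTestAlg 𝒪 (Theta 𝒪 ⧸ 𝔞)] : IsTestObj N 𝒟 (taut 𝔞 h.isTautHom) := by
  have ht := h.isTautHom
  obtain ⟨A, _, _, _, _, r, hr, hker⟩ := h
  refine IsTestObj.of_map_injective hN h𝒟 (quotLift 𝔞 r hker.ge) (quotLift_injective 𝔞 r hker) ?_
  rw [mapMat_quotLift_taut]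
  exact hr

section ThetaM

variable (rbar)

/-- The maximal ideal of `Θ` cut out by the residual matrices `rbar`. -/
noncomputable def thetaM : Ideal (Theta 𝒪) := RingHom.ker (evalHom 𝒪 rbar)

variable {rbar}

theorem mem_thetaM {x : Theta 𝒪} : x ∈ thetaM rbar ↔ evalHom 𝒪 rbar x = 0 := RingHom.mem_ker

theorem evalHom_rbar_surjective : Function.Surjective (evalHom 𝒪 rbar) := by
  intro y
  obtain ⟨c, rfl⟩ := IsLocalRing.residue_surjective y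
  exact ⟨algebraMap 𝒪 (Theta 𝒪) c, (evalHom 𝒪 rbar).commutes c⟩

instance thetaM_isMaximal : (thetaM rbar).IsMaximal :=
  RingHom.ker_isMaximal_of_surjective _ evalHom_rbar_surjective

theorem thetaM_ne_top : thetaM rbar ≠ ⊤ := Ideal.IsMaximal.ne_top inferInstance

theorem resO_comp_evalHom (hN : NFAxioms N rbar)
    {A : Type} [CommRing A] [IsLocalRing A] [Algebra 𝒪 A] [IsTestAlg 𝒪 A]
    {r : GQ →* Matrix (Fin 2) (Fin 2) A} (h : N r) :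
    (resO 𝒪 A).comp (evalHom 𝒪 r) = evalHom 𝒪 rbar := by
  apply theta_algHom_ext
  intro σ i j
  simp [hN.res h]

theorem resO_evalHom (hN : NFAxioms N rbar)
    {A : Type} [CommRing A] [IsLocalRing A] [Algebra 𝒪 A] [IsTestAlg 𝒪 A]
    {r : GQ →* Matrix (Fin 2) (Fin 2) A} (h : N r) (x : Theta 𝒪) :
    resO 𝒪 A (evalHom 𝒪 r x) = evalHom 𝒪 rbar x := by
  rw [← resO_comp_evalHom hN h]; rfl

/-- `evalHom r x` lies in the maximal ideal iff `x ∈ thetaM`. -/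
theorem evalHom_mem_maximalIdeal_iff (hN : NFAxioms N rbar)
    {A : Type} [CommRing A] [IsLocalRing A] [Algebra 𝒪 A] [IsTestAlg 𝒪 A]
    {r : GQ →* Matrix (Fin 2) (Fin 2) A} (h : N r) (x : Theta 𝒪) :
    evalHom 𝒪 r x ∈ maximalIdeal A ↔ x ∈ thetaM rbar := by
  rw [← resO_eq_zero_iff 𝒪, resO_evalHom hN h, mem_thetaM]

theorem ker_evalHom_le_thetaM (hN : NFAxioms N rbar)
    {A : Type} [CommRing A] [IsLocalRing A] [Algebra 𝒪 A] [IsTestAlg 𝒪 A]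
    {r : GQ →* Matrix (Fin 2) (Fin 2) A} (h : N r) :
    RingHom.ker (evalHom 𝒪 r) ≤ thetaM rbar := by
  intro x hx
  rw [← evalHom_mem_maximalIdeal_iff hN h, RingHom.mem_ker.mp hx]
  exact Ideal.zero_mem _

theorem thetaM_pow_le_ker (hN : NFAxioms N rbar)
    {A : Type} [CommRing A] [IsLocalRing A] [Algebra 𝒪 A] [IsTestAlg 𝒪 A]
    {r : GQ →* Matrix (Fin 2) (Fin 2) A} (h : N r) {n : ℕ} (hn : maximalIdeal A ^ n = ⊥) :
    thetaM rbar ^ n ≤ RingHom.ker (evalHom 𝒪 r) := by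
  have h1 : (thetaM rbar).map (evalHom 𝒪 r) ≤ maximalIdeal A := by
    rw [Ideal.map_le_iff_le_comap]
    intro x hx
    exact (evalHom_mem_maximalIdeal_iff hN h x).mpr hx
  intro x hx
  have h2 : evalHom 𝒪 r x ∈ ((thetaM rbar) ^ n).map (evalHom 𝒪 r) := Ideal.mem_map_of_mem _ hx
  rw [Ideal.map_pow] at h2
  have h3 := Ideal.pow_right_mono h1 n h2
  rw [hn, Ideal.mem_bot] at h3
  exact h3

theorem IsGood.le_thetaM (hN : NFAxioms N rbar) {𝔞 : Ideal (Theta 𝒪)} (h : IsGood N 𝒟 𝔞) :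
    𝔞 ≤ thetaM rbar := by
  obtain ⟨A, _, _, _, _, r, hr, rfl⟩ := h
  exact ker_evalHom_le_thetaM hN hr.nf

theorem IsGood.ne_top (hN : NFAxioms N rbar) {𝔞 : Ideal (Theta 𝒪)} (h : IsGood N 𝒟 𝔞) :
    𝔞 ≠ ⊤ := fun e => thetaM_ne_top (rbar := rbar) (top_le_iff.mp (e ▸ h.le_thetaM hN))

/-- The maximal ideal of `Θ ⧸ 𝔞` for a good ideal `𝔞` is the image of `thetaM`. -/
theorem IsGood.maximalIdeal_eq (hN : NFAxioms N rbar) {𝔞 : Ideal (Theta 𝒪)}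
    (h : IsGood N 𝒟 𝔞) [IsLocalRing (Theta 𝒪 ⧸ 𝔞)] :
    maximalIdeal (Theta 𝒪 ⧸ 𝔞) = (thetaM rbar).map (Ideal.Quotient.mk 𝔞) := by
  haveI : ((thetaM rbar).map (Ideal.Quotient.mk 𝔞)).IsMaximal := by
    apply Ideal.IsMaximal.map_of_surjective_of_ker_le Ideal.Quotient.mk_surjective
    rw [Ideal.mk_ker]
    exact h.le_thetaM hN
  exact (IsLocalRing.eq_maximalIdeal inferInstance).symm

theorem IsGood.maximalIdeal_pow_eq_bot (hN : NFAxioms N rbar) {𝔞 : Ideal (Theta 𝒪)}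
    (h : IsGood N 𝒟 𝔞) [IsLocalRing (Theta 𝒪 ⧸ 𝔞)] {n : ℕ} (hn : thetaM rbar ^ n ≤ 𝔞) :
    maximalIdeal (Theta 𝒪 ⧸ 𝔞) ^ n = ⊥ := by
  rw [h.maximalIdeal_eq hN, ← Ideal.map_pow, eq_bot_iff]
  refine (Ideal.map_mono hn).trans ?_
  rw [Ideal.map_quotient_self]

/-- The residual matrices themselves give the largest good ideal. -/
theorem isGood_thetaM [Finite (ResidueField 𝒪)] (hbarN : N rbar) (hc : MatCont rbar)
    (hbarD : 𝒟 (ofMatrix rbar hc)) : IsGood N 𝒟 (thetaM rbar) :=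
  ⟨ResidueField 𝒪, _, _, _, _, rbar, ⟨inferInstance, hbarN, hc, hbarD⟩, rfl⟩

/-- Good ideals are upward closed among proper ideals. -/
theorem IsGood.of_le (hN : NFAxioms N rbar) (h𝒟 : GaloisRep.IsDeformationCondition 𝒪 𝒟)
    {𝔞 𝔟 : Ideal (Theta 𝒪)} (h : IsGood N 𝒟 𝔞) (hle : 𝔞 ≤ 𝔟) (hne : 𝔟 ≠ ⊤) :
    IsGood N 𝒟 𝔟 := by
  haveI := h.isLocalRing
  haveI := h.isTestAlg
  haveI := h.finite
  have hobj := h.isTestObj_taut hN h𝒟
  haveI : Nontrivial (Theta 𝒪 ⧸ 𝔟) := Ideal.Quotient.nontrivial_iff.mpr hne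
  have hsurj : Function.Surjective (Ideal.Quotient.factorₐ 𝒪 hle) :=
    Ideal.Quotient.factor_surjective hle
  haveI : IsLocalRing (Theta 𝒪 ⧸ 𝔟) :=
    IsLocalRing.of_surjective' (Ideal.Quotient.factorₐ 𝒪 hle : Theta 𝒪 ⧸ 𝔞 →+* Theta 𝒪 ⧸ 𝔟) hsurj
  haveI : IsTestAlg 𝒪 (Theta 𝒪 ⧸ 𝔟) := isTestAlg_of_surjective (Ideal.Quotient.factorₐ 𝒪 hle) hsurj
  haveI : Finite (Theta 𝒪 ⧸ 𝔟) := Finite.of_surjective _ hsurj
  have hobj' := hobj.map hN h𝒟 (Ideal.Quotient.factorₐ 𝒪 hle)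
  refine ⟨Theta 𝒪 ⧸ 𝔟, _, _, _, _, _, hobj', ?_⟩
  have : evalHom 𝒪 (mapMat (Ideal.Quotient.factorₐ 𝒪 hle : Theta 𝒪 ⧸ 𝔞 →+* Theta 𝒪 ⧸ 𝔟)
      (taut 𝔞 h.isTautHom)) = Ideal.Quotient.mkₐ 𝒪 𝔟 := by
    apply theta_algHom_ext
    intro σ i j
    simp
  rw [this]
  exact Ideal.Quotient.mkₐ_ker 𝒪 𝔟

end ThetaM

section Levels

variable (N 𝒟 rbar)

/-- The good ideals of level `n`, i.e. those containing `thetaM ^ (n+1)`. -/
def goodLevel (n : ℕ) : Set (Ideal (Theta 𝒪)) :=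
  {𝔞 | IsGood N 𝒟 𝔞 ∧ thetaM rbar ^ (n + 1) ≤ 𝔞}

variable {N 𝒟 rbar}

theorem goodLevel_nonempty [Finite (ResidueField 𝒪)] (hbarN : N rbar) (hc : MatCont rbar)
    (hbarD : 𝒟 (ofMatrix rbar hc)) (n : ℕ) : (goodLevel N 𝒟 rbar n).Nonempty :=
  ⟨thetaM rbar, isGood_thetaM hbarN hc hbarD, Ideal.pow_le_self n.succ_ne_zero⟩

theorem goodLevel_inf (hN : NFAxioms N rbar) (h𝒟 : GaloisRep.IsDeformationCondition 𝒪 𝒟) {n : ℕ}
    {𝔞 𝔟 : Ideal (Theta 𝒪)} (h1 : 𝔞 ∈ goodLevel N 𝒟 rbar n) (h2 : 𝔟 ∈ goodLevel N 𝒟 rbar n) :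
    𝔞 ⊓ 𝔟 ∈ goodLevel N 𝒟 rbar n :=
  ⟨h1.1.inf hN h𝒟 h2.1, le_inf h1.2 h2.2⟩

theorem goodLevel_finite {n : ℕ} {𝔞 : Ideal (Theta 𝒪)} (h : 𝔞 ∈ goodLevel N 𝒟 rbar n) :
    Finite (Theta 𝒪 ⧸ 𝔞) := h.1.finite

theorem goodLevel_pow_le {n : ℕ} {𝔞 : Ideal (Theta 𝒪)} (h : 𝔞 ∈ goodLevel N 𝒟 rbar n) :
    thetaM rbar ^ (n + 1) ≤ 𝔞 := h.2

theorem goodLevel_mono (n : ℕ) : goodLevel N 𝒟 rbar n ⊆ goodLevel N 𝒟 rbar (n + 1) :=
  fun _ h => ⟨h.1, (Ideal.pow_le_pow_right (Nat.le_succ _)).trans h.2⟩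

theorem goodLevel_sup (hN : NFAxioms N rbar) (h𝒟 : GaloisRep.IsDeformationCondition 𝒪 𝒟) {n : ℕ}
    {𝔞 : Ideal (Theta 𝒪)} (h : 𝔞 ∈ goodLevel N 𝒟 rbar (n + 1)) :
    𝔞 ⊔ thetaM rbar ^ (n + 1) ∈ goodLevel N 𝒟 rbar n := by
  refine ⟨h.1.of_le hN h𝒟 le_sup_left ?_, le_sup_right⟩
  intro e
  have h1 : 𝔞 ⊔ thetaM rbar ^ (n + 1) ≤ thetaM rbar :=
    sup_le (h.1.le_thetaM hN) (Ideal.pow_le_self n.succ_ne_zero)
  exact thetaM_ne_top (rbar := rbar) (top_le_iff.mp (e ▸ h1))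

/-- The kernel of the evaluation map of a test object of level `n` is a good ideal of
level `n`. -/
theorem IsTestObj.ker_mem_goodLevel (hN : NFAxioms N rbar)
    {A : Type} [CommRing A] [IsLocalRing A] [Algebra 𝒪 A] [IsTestAlg 𝒪 A]
    {r : GQ →* Matrix (Fin 2) (Fin 2) A} (h : IsTestObj N 𝒟 r) {n : ℕ}
    (hn : maximalIdeal A ^ (n + 1) = ⊥) :
    RingHom.ker (evalHom 𝒪 r) ∈ goodLevel N 𝒟 rbar n :=
  ⟨h.isGood, thetaM_pow_le_ker hN h.nf hn⟩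

theorem goodLevel_maximalIdeal_pow (hN : NFAxioms N rbar) {n : ℕ} {𝔞 : Ideal (Theta 𝒪)}
    (h : 𝔞 ∈ goodLevel N 𝒟 rbar n) [IsLocalRing (Theta 𝒪 ⧸ 𝔞)] :
    maximalIdeal (Theta 𝒪 ⧸ 𝔞) ^ (n + 1) = ⊥ :=
  h.1.maximalIdeal_pow_eq_bot hN h.2

end Levels

end Good

end Fermat.Agent.S53
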