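import Mathlib
import Fermat.Agent.S53.MatrixLayer

set_option autoImplicit false

open scoped TensorProduct
open IsLocalRing

namespace Fermat.Agent.S53

/-! ## Pure 2×2 matrix lemmas -/

section Mat

variable {A : Type} [CommRing A]

/-- A matrix commuting with a matrix `X` whose first column is `(0,1)` is `x + yX`. -/
theorem eq_add_smul_of_commute_companion (X P : Matrix (Fin 2) (Fin 2) A)
    (hX0 : X 0 0 = 0) (hX1 : X 1 0 = 1) (h : P * X = X * P) :
    P = P 0 0 • (1 : Matrix (Fin 2) (Fin 2) A) + P 1 0 • X := by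
  have h00 := congrFun (congrFun h 0) 0
  have h10 := congrFun (congrFun h 1) 0
  simp only [Matrix.mul_apply, Fin.sum_univ_two, hX0, hX1] at h00 h10
  ext i j
  fin_cases i <;> fin_cases j
  · simp [Matrix.add_apply, Matrix.smul_apply, hX0]
  · simp only [Fin.zero_eta, Fin.mk_one, Matrix.add_apply, Matrix.smul_apply, Matrix.one_apply,
      smul_eq_mul]
    simp only [Fin.isValue, zero_ne_one, if_false, mul_zero, zero_add]
    linear_combination h00
  · simp [Matrix.add_apply, Matrix.smul_apply, hX1]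
  · simp only [Fin.mk_one, Matrix.add_apply, Matrix.smul_apply, Matrix.one_apply, smul_eq_mul]
    simp only [Fin.isValue, if_true, mul_one]
    linear_combination h10

/-- Two matrices with first column `(0,1)` which are conjugate are equal. -/
theorem eq_of_conj_companion (X X' P : Matrix (Fin 2) (Fin 2) A)
    (hX0 : X 0 0 = 0) (hX1 : X 1 0 = 1) (hX0' : X' 0 0 = 0) (hX1' : X' 1 0 = 1)
    (hP : IsUnit P.det) (h : P * X = X' * P) : X = X' := by
  have h00 := congrFun (congrFun h 0) 0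
  have h01 := congrFun (congrFun h 0) 1
  have h10 := congrFun (congrFun h 1) 0
  have h11 := congrFun (congrFun h 1) 1
  simp only [Matrix.mul_apply, Fin.sum_univ_two, hX0, hX1, hX0', hX1'] at h00 h01 h10 h11
  have hdet : P.det = P 0 0 * P 1 1 - P 0 1 * P 1 0 := Matrix.det_fin_two P
  have e1 : P.det * (X 0 1 - X' 0 1) = 0 := by
    rw [hdet]
    linear_combination P 1 1 * (h01 - X 1 1 * h00 + X' 0 1 * h10)
      - X' 0 1 * P 1 0 * (h11 + h00) - P 1 0 * (X 0 1 - X' 0 1) * h00
  have e2 : P.det * (X' 1 1 - X 1 1) = 0 := by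
    rw [hdet]
    linear_combination P 1 0 * (h01 - X 1 1 * h00 + X' 0 1 * h10)
      - P 0 0 * (h11 + h00) - P 1 0 * (X' 1 1 - X 1 1) * h00
  have e1' := (hP.mul_right_eq_zero).mp e1
  have e2' := (hP.mul_right_eq_zero).mp e2
  ext i j
  fin_cases i <;> fin_cases j
  · simp [hX0, hX0']
  · simpa using sub_eq_zero.mp e1'
  · simp [hX1, hX1']
  · simpa using (sub_eq_zero.mp e2').symm

end Mat


/-! ## Normal form data -/

section NFDef

variable (𝒪 : Type) [CommRing 𝒪] [IsLocalRing 𝒪]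

/-- Rigidifying data attached to an absolutely irreducible residual representation. -/
structure NFData (ρbar : ResidualGaloisRep (ResidueField 𝒪)) where
  rbar : GQ →* Matrix (Fin 2) (Fin 2) (ResidueField 𝒪)
  rbar_fin : GaloisFactorsThroughFiniteLevel rbar
  equiv : (ofMatrixRes rbar rbar_fin).IsEquiv ρbar
  g1 : GQ
  g2 : GQ
  g1_00 : rbar g1 0 0 = 0
  g1_10 : rbar g1 1 0 = 1
  a : Fin 2
  b : Fin 2
  comm_ne : (rbar g1 * rbar g2 - rbar g2 * rbar g1) a b ≠ 0
  ctil : 𝒪
  ctil_spec : residue 𝒪 ctil = rbar g2 a b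

variable {𝒪} {ρbar : ResidualGaloisRep (ResidueField 𝒪)}

/-- A matrix lift in rigid normal form. -/
def IsNF (D : NFData 𝒪 ρbar) (A : Type) [CommRing A] [IsLocalRing A] [Algebra 𝒪 A]
    [IsLocalHom (algebraMap 𝒪 A)] (r : GQ →* Matrix (Fin 2) (Fin 2) A) : Prop :=
  mapMat (residue A) r = mapMat (ResidueField.map (algebraMap 𝒪 A)) D.rbar ∧
    r D.g1 0 0 = 0 ∧ r D.g1 1 0 = 1 ∧ r D.g2 D.a D.b = algebraMap 𝒪 A D.ctil

end NFDef

section NFUnique

variable {𝒪 : Type} [CommRing 𝒪] [IsLocalRing 𝒪] {ρbar : ResidualGaloisRep (ResidueField 𝒪)}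
  (D : NFData 𝒪 ρbar) {A : Type} [CommRing A] [IsLocalRing A] [Algebra 𝒪 A]
  [IsLocalHom (algebraMap 𝒪 A)]

theorem residue_apply_of_mapMat_eq {r : GQ →* Matrix (Fin 2) (Fin 2) A}
    (h : mapMat (residue A) r = mapMat (ResidueField.map (algebraMap 𝒪 A)) D.rbar) (g : GQ)
    (i j : Fin 2) :
    residue A (r g i j) = ResidueField.map (algebraMap 𝒪 A) (D.rbar g i j) := by
  have := congrArg (fun f : GQ →* Matrix (Fin 2) (Fin 2) (ResidueField A) => f g i j) h
  simpa using this

theorem IsNF.residue_apply {r : GQ →* Matrix (Fin 2) (Fin 2) A} (h : IsNF D A r) (g : GQ)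
    (i j : Fin 2) :
    residue A (r g i j) = ResidueField.map (algebraMap 𝒪 A) (D.rbar g i j) :=
  residue_apply_of_mapMat_eq D h.1 g i j

theorem IsNF.map_residue {r : GQ →* Matrix (Fin 2) (Fin 2) A} (h : IsNF D A r) (g : GQ) :
    (r g).map (residue A) = (D.rbar g).map (ResidueField.map (algebraMap 𝒪 A)) := by
  ext i j
  simpa using h.residue_apply D g i j

/-- The commutator entry is a unit for a lift with the right residual representation. -/
theorem isUnit_comm_of_mapMat_eq {r : GQ →* Matrix (Fin 2) (Fin 2) A}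
    (h : mapMat (residue A) r = mapMat (ResidueField.map (algebraMap 𝒪 A)) D.rbar) :
    IsUnit ((r D.g1 * r D.g2 - r D.g2 * r D.g1) D.a D.b) := by
  have h1 : residue A ((r D.g1 * r D.g2 - r D.g2 * r D.g1) D.a D.b) =
      ResidueField.map (algebraMap 𝒪 A)
        ((D.rbar D.g1 * D.rbar D.g2 - D.rbar D.g2 * D.rbar D.g1) D.a D.b) := by
    simp only [Matrix.sub_apply, Matrix.mul_apply, map_sub, map_sum, map_mul,
      residue_apply_of_mapMat_eq D h]
  have h2 : residue A ((r D.g1 * r D.g2 - r D.g2 * r D.g1) D.a D.b) ≠ 0 := by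
    rw [h1]
    exact (map_ne_zero _).mpr D.comm_ne
  by_contra hu
  exact h2 ((residue_eq_zero_iff _).mpr hu)

/-- The commutator entry is a unit for a lift in normal form. -/
theorem IsNF.isUnit_comm {r : GQ →* Matrix (Fin 2) (Fin 2) A} (h : IsNF D A r) :
    IsUnit ((r D.g1 * r D.g2 - r D.g2 * r D.g1) D.a D.b) :=
  isUnit_comm_of_mapMat_eq D h.1

omit [IsLocalRing A] in
theorem adjugate_add_smul (X : Matrix (Fin 2) (Fin 2) A) (x y : A) :
    (x • (1 : Matrix (Fin 2) (Fin 2) A) + y • X).adjugate =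
      x • (1 : Matrix (Fin 2) (Fin 2) A) + y • X.adjugate := by
  rw [Matrix.adjugate_fin_two, Matrix.adjugate_fin_two]
  ext i j
  fin_cases i <;> fin_cases j <;> simp

/-- Uniqueness of the normal form inside an equivalence class. -/
theorem IsNF.unique {r r' : GQ →* Matrix (Fin 2) (Fin 2) A} (h : IsNF D A r) (h' : IsNF D A r')
    (P : Matrix (Fin 2) (Fin 2) A) (hP : IsUnit P) (hc : ∀ g, P * r g = r' g * P) : r = r' := by
  have hdet : IsUnit P.det := (Matrix.isUnit_iff_isUnit_det _).mp hP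
  set ψ := ResidueField.map (algebraMap 𝒪 A) with hψ
  -- Step 1: reduce `P` modulo the maximal ideal
  have hbar : ∀ g, P.map (residue A) * (D.rbar g).map ψ = (D.rbar g).map ψ * P.map (residue A) := by
    intro g
    have := congrArg (fun M : Matrix (Fin 2) (Fin 2) A => M.map (residue A)) (hc g)
    simp only [Matrix.map_mul] at this
    rw [h.map_residue D g, h'.map_residue D g] at this
    exact this
  have hX0 : ((D.rbar D.g1).map ψ) 0 0 = 0 := by simp [D.g1_00]
  have hX1 : ((D.rbar D.g1).map ψ) 1 0 = 1 := by simp [D.g1_10]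
  have hPbar := eq_add_smul_of_commute_companion _ _ hX0 hX1 (hbar D.g1)
  have hy : P 1 0 ∈ maximalIdeal A := by
    rw [← residue_eq_zero_iff]
    have h2 := hbar D.g2
    rw [hPbar] at h2
    have h3 : (P.map (residue A)) 1 0 • ((D.rbar D.g1).map ψ * (D.rbar D.g2).map ψ
        - (D.rbar D.g2).map ψ * (D.rbar D.g1).map ψ) = 0 := by
      have : ((P.map (residue A)) 0 0 • (1 : Matrix (Fin 2) (Fin 2) (ResidueField A))
          + (P.map (residue A)) 1 0 • (D.rbar D.g1).map ψ) * (D.rbar D.g2).map ψ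
          - (D.rbar D.g2).map ψ * ((P.map (residue A)) 0 0 • (1 : Matrix (Fin 2) (Fin 2) (ResidueField A))
          + (P.map (residue A)) 1 0 • (D.rbar D.g1).map ψ) = 0 := sub_eq_zero.mpr h2
      rw [← this]
      simp only [Matrix.add_mul, Matrix.mul_add, Matrix.smul_mul, Matrix.mul_smul, Matrix.one_mul,
        Matrix.mul_one, smul_sub]
      abel
    have h4 := congrFun (congrFun h3 D.a) D.b
    simp only [Matrix.smul_apply, smul_eq_mul, Matrix.zero_apply] at h4
    have h5 : ((D.rbar D.g1).map ψ * (D.rbar D.g2).map ψ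
        - (D.rbar D.g2).map ψ * (D.rbar D.g1).map ψ) D.a D.b ≠ 0 := by
      have : ((D.rbar D.g1).map ψ * (D.rbar D.g2).map ψ
        - (D.rbar D.g2).map ψ * (D.rbar D.g1).map ψ) D.a D.b
          = ψ ((D.rbar D.g1 * D.rbar D.g2 - D.rbar D.g2 * D.rbar D.g1) D.a D.b) := by
        simp only [Matrix.sub_apply, Matrix.mul_apply, Matrix.map_apply, map_sub, map_sum, map_mul]
      rw [this]
      exact (map_ne_zero _).mpr D.comm_ne
    have h6 := (mul_eq_zero.mp h4).resolve_right h5
    simpa using h6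
  -- Step 2: `P 0 0` is a unit
  have hx : IsUnit (P 0 0) := by
    have hd : P.det = P 0 0 * P 1 1 - P 0 1 * P 1 0 := Matrix.det_fin_two P
    by_contra hx
    have hx' : P 0 0 ∈ maximalIdeal A := hx
    have : P.det ∈ maximalIdeal A := by
      rw [hd]
      exact Ideal.sub_mem _ (Ideal.mul_mem_right _ _ hx') (Ideal.mul_mem_left _ _ hy)
    exact this hdet
  -- Step 3: `r g1 = r' g1`
  have hXX : r D.g1 = r' D.g1 :=
    eq_of_conj_companion _ _ P h.2.1 h.2.2.1 h'.2.1 h'.2.2.1 hdet (hc D.g1)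
  have hPX : P * r D.g1 = r D.g1 * P := by
    have := hc D.g1
    rwa [← hXX] at this
  have hPeq := eq_add_smul_of_commute_companion _ _ h.2.1 h.2.2.1 hPX
  -- Step 4: the commutator computation
  have hcomm : (r' D.g2 - r D.g2) * P = P 1 0 • (r D.g1 * r D.g2 - r D.g2 * r D.g1) := by
    have h2 := hc D.g2
    rw [Matrix.sub_mul, ← h2]
    conv_lhs => rw [hPeq]
    simp only [Matrix.add_mul, Matrix.mul_add, Matrix.smul_mul, Matrix.mul_smul, Matrix.one_mul,
      Matrix.mul_one, smul_sub]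
    abel
  have hadj : P.det • (r' D.g2 - r D.g2)
      = P 1 0 • ((r D.g1 * r D.g2 - r D.g2 * r D.g1) * P.adjugate) := by
    have := congrArg (fun M => M * P.adjugate) hcomm
    simp only [Matrix.mul_assoc, Matrix.mul_adjugate, Matrix.smul_mul] at this
    rw [Matrix.mul_smul, Matrix.mul_one] at this
    exact this
  have hentry := congrFun (congrFun hadj D.a) D.b
  simp only [Matrix.smul_apply, smul_eq_mul, Matrix.sub_apply, h.2.2.2, h'.2.2.2, sub_self,
    mul_zero] at hentry
  have hcunit : IsUnit (((r D.g1 * r D.g2 - r D.g2 * r D.g1) * P.adjugate) D.a D.b) := by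
    have hadjP : P.adjugate = P 0 0 • (1 : Matrix (Fin 2) (Fin 2) A) + P 1 0 • (r D.g1).adjugate := by
      conv_lhs => rw [hPeq]
      exact adjugate_add_smul _ _ _
    rw [hadjP, Matrix.mul_add, Matrix.mul_smul, Matrix.mul_one, Matrix.mul_smul]
    simp only [Matrix.add_apply, Matrix.smul_apply, smul_eq_mul]
    by_contra hnu
    have hnu' : P 0 0 * (r D.g1 * r D.g2 - r D.g2 * r D.g1) D.a D.b +
        P 1 0 * ((r D.g1 * r D.g2 - r D.g2 * r D.g1) * (r D.g1).adjugate) D.a D.b
          ∈ maximalIdeal A := hnu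
    have hm : P 0 0 * (r D.g1 * r D.g2 - r D.g2 * r D.g1) D.a D.b ∈ maximalIdeal A := by
      have := Ideal.sub_mem _ hnu' (Ideal.mul_mem_right
        (((r D.g1 * r D.g2 - r D.g2 * r D.g1) * (r D.g1).adjugate) D.a D.b) _ hy)
      simpa using this
    exact hm (hx.mul (h.isUnit_comm D))
  have hy0 : P 1 0 = 0 := (hcunit.mul_left_eq_zero).mp hentry.symm
  -- Step 5: conclude
  have hPs : P = P 0 0 • (1 : Matrix (Fin 2) (Fin 2) A) := by
    conv_lhs => rw [hPeq]
    rw [hy0, zero_smul, add_zero]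
  refine MonoidHom.ext fun g => ?_
  have := hc g
  rw [hPs, Matrix.smul_mul, Matrix.one_mul, Matrix.mul_smul, Matrix.mul_one] at this
  obtain ⟨u, hu⟩ := hx
  rw [← hu] at this
  have h7 := congrArg (fun M : Matrix (Fin 2) (Fin 2) A => (↑u⁻¹ : A) • M) this
  simpa [smul_smul] using h7

end NFUnique


/-! ## Conjugation of matrix representations -/

section Conj

variable {A : Type} [CommRing A]

/-- Conjugate of a matrix representation by a unit: `g ↦ u⁻¹ * r g * u`. -/
noncomputable def conjRep (u : (Matrix (Fin 2) (Fin 2) A)ˣ) (r : GQ →* Matrix (Fin 2) (Fin 2) A) :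
    GQ →* Matrix (Fin 2) (Fin 2) A where
  toFun g := (↑u⁻¹ : Matrix (Fin 2) (Fin 2) A) * r g * (↑u : Matrix (Fin 2) (Fin 2) A)
  map_one' := by rw [map_one, mul_one, Units.inv_mul]
  map_mul' g g' := by
    rw [map_mul]
    calc (↑u⁻¹ : Matrix (Fin 2) (Fin 2) A) * (r g * r g') * ↑u
        = ↑u⁻¹ * r g * ((↑u : Matrix (Fin 2) (Fin 2) A) * ↑u⁻¹) * r g' * ↑u := by
          rw [Units.mul_inv, mul_one]; simp only [mul_assoc]
      _ = ↑u⁻¹ * r g * ↑u * (↑u⁻¹ * r g' * ↑u) := by simp only [mul_assoc]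

theorem conjRep_apply (u : (Matrix (Fin 2) (Fin 2) A)ˣ) (r : GQ →* Matrix (Fin 2) (Fin 2) A)
    (g : GQ) : conjRep u r g = (↑u⁻¹ : Matrix (Fin 2) (Fin 2) A) * r g * (↑u : Matrix (Fin 2) (Fin 2) A) := rfl

theorem conjRep_intertwine (u : (Matrix (Fin 2) (Fin 2) A)ˣ) (r : GQ →* Matrix (Fin 2) (Fin 2) A)
    (g : GQ) : (↑u : Matrix (Fin 2) (Fin 2) A) * conjRep u r g = r g * (↑u : Matrix (Fin 2) (Fin 2) A) := by
  rw [conjRep_apply, ← mul_assoc, ← mul_assoc, Units.mul_inv, one_mul]

variable [IsLocalRing A]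

theorem matCont_conjRep (u : (Matrix (Fin 2) (Fin 2) A)ˣ) {r : GQ →* Matrix (Fin 2) (Fin 2) A}
    (hr : MatCont r) : MatCont (conjRep u r) := by
  intro n
  obtain ⟨L, hL, h⟩ := hr n
  refine ⟨L, hL, fun σ hσ i j => ?_⟩
  have h1 : conjRep u r σ - 1 = (↑u⁻¹ : Matrix (Fin 2) (Fin 2) A) * (r σ - 1) * (↑u : Matrix (Fin 2) (Fin 2) A) := by
    rw [conjRep_apply, mul_sub, sub_mul, mul_one, Units.inv_mul]
  rw [h1]
  simp only [Matrix.mul_apply]
  refine Ideal.sum_mem _ fun l _ => Ideal.mul_mem_right _ _ ?_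
  exact Ideal.sum_mem _ fun l' _ => Ideal.mul_mem_left _ _ (h σ hσ l' l)

theorem conjRep_isEquiv (u : (Matrix (Fin 2) (Fin 2) A)ˣ) {r : GQ →* Matrix (Fin 2) (Fin 2) A}
    (hr : MatCont r) : (ofMatrix (conjRep u r) (matCont_conjRep u hr)).IsEquiv (ofMatrix r hr) :=
  ofMatrix_isEquiv_of_conj _ _ (↑u : Matrix (Fin 2) (Fin 2) A) u.isUnit
    (conjRep_intertwine u r)

theorem mapMat_residue_conjRep_of_map_eq_one (u : (Matrix (Fin 2) (Fin 2) A)ˣ)
    (hu : (↑u : Matrix (Fin 2) (Fin 2) A).map (residue A) = 1)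
    (r : GQ →* Matrix (Fin 2) (Fin 2) A) :
    mapMat (residue A) (conjRep u r) = mapMat (residue A) r := by
  refine MonoidHom.ext fun g => ?_
  have h1 := congrArg (fun M : Matrix (Fin 2) (Fin 2) A => M.map (residue A))
    (conjRep_intertwine u r g)
  simp only [Matrix.map_mul, hu, one_mul, mul_one] at h1
  rw [mapMat_apply', mapMat_apply']
  exact h1

end Conj


/-! ## A quadratic Hensel lemma -/

section Hensel

open Polynomial

variable {A : Type} [CommRing A] [IsLocalRing A] [HenselianRing A (maximalIdeal A)]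

theorem exists_root_quadratic (a0 a1 a2 : A) (h0 : a0 ∈ maximalIdeal A) (h1 : IsUnit a1) :
    ∃ y ∈ maximalIdeal A, a0 + a1 * y + a2 * y ^ 2 = 0 := by
  set f : A[X] := X ^ 2 + C a1 * X + C (a0 * a2) with hf
  have hmonic : f.Monic := by
    rw [hf]
    monicity!
  have heval : f.eval (-a1) ∈ maximalIdeal A := by
    have : f.eval (-a1) = a0 * a2 := by
      simp [hf]; ring
    rw [this]
    exact Ideal.mul_mem_right _ _ h0
  have hder : IsUnit (Ideal.Quotient.mk (maximalIdeal A) (f.derivative.eval (-a1))) := by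
    have : f.derivative.eval (-a1) = -a1 := by
      simp [hf]; ring
    rw [this]
    exact (h1.neg).map _
  obtain ⟨w, hw, hw'⟩ := HenselianRing.is_henselian (I := maximalIdeal A) f hmonic (-a1) heval hder
  have hwu : IsUnit w := by
    by_contra hnu
    have hwm : w ∈ maximalIdeal A := hnu
    have : a1 ∈ maximalIdeal A := by
      have := Ideal.sub_mem _ hw' hwm
      simpa using this
    exact this h1
  obtain ⟨u, rfl⟩ := hwu
  refine ⟨a0 * ↑u⁻¹, Ideal.mul_mem_right _ _ h0, ?_⟩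
  have hroot : (u : A) ^ 2 + a1 * u + a0 * a2 = 0 := by
    have := hw
    simp [hf, Polynomial.IsRoot] at this
    exact this
  have hinv : (u : A) * ↑u⁻¹ = 1 := Units.mul_inv u
  have : a0 + a1 * (a0 * ↑u⁻¹) + a2 * (a0 * ↑u⁻¹) ^ 2
      = a0 * (↑u⁻¹) ^ 2 * ((u : A) ^ 2 + a1 * u + a0 * a2)
        + a0 * (1 - ((u : A) * ↑u⁻¹) ^ 2) + a1 * a0 * ↑u⁻¹ * (1 - (u : A) * ↑u⁻¹) := by
    ring
  rw [this, hroot, hinv]
  ring

end Hensel


/-! ## Existence of the normal form -/

section ResEquivHelpers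

variable {k : Type} [Field k]

theorem resIsEquiv_symm {ρ₁ ρ₂ : ResidualGaloisRep k} (h : ρ₁.IsEquiv ρ₂) : ρ₂.IsEquiv ρ₁ := by
  obtain ⟨e⟩ := h; exact ⟨e.symm⟩

theorem resIsEquiv_trans {ρ₁ ρ₂ ρ₃ : ResidualGaloisRep k} (h : ρ₁.IsEquiv ρ₂)
    (h' : ρ₂.IsEquiv ρ₃) : ρ₁.IsEquiv ρ₃ := by
  obtain ⟨e⟩ := h; obtain ⟨e'⟩ := h'; exact ⟨e.trans e'⟩

end ResEquivHelpers

section AdicEquivHelpers

variable {A : Type} [CommRing A] [IsLocalRing A]

theorem adicIsEquiv_symm {ρ₁ ρ₂ : GaloisRepAdic A} (h : ρ₁.IsEquiv ρ₂) : ρ₂.IsEquiv ρ₁ := by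
  obtain ⟨e⟩ := h; exact ⟨e.symm⟩

theorem adicIsEquiv_trans {ρ₁ ρ₂ ρ₃ : GaloisRepAdic A} (h : ρ₁.IsEquiv ρ₂)
    (h' : ρ₂.IsEquiv ρ₃) : ρ₁.IsEquiv ρ₃ := by
  obtain ⟨e⟩ := h; obtain ⟨e'⟩ := h'; exact ⟨e.trans e'⟩

theorem adicIsEquiv_refl (ρ : GaloisRepAdic A) : ρ.IsEquiv ρ := ⟨GaloisRepAdic.Equiv.refl ρ⟩

/-- Lift an invertible matrix over the residue field to an invertible matrix. -/
theorem exists_unit_map_residue_eq (Pbar : Matrix (Fin 2) (Fin 2) (ResidueField A))
    (hP : IsUnit Pbar) :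
    ∃ u : (Matrix (Fin 2) (Fin 2) A)ˣ, (↑u : Matrix (Fin 2) (Fin 2) A).map (residue A) = Pbar := by
  have hsurj : ∀ x : ResidueField A, ∃ a : A, residue A a = x := residue_surjective
  choose lift hlift using hsurj
  let P : Matrix (Fin 2) (Fin 2) A := fun i j => lift (Pbar i j)
  have hmap : P.map (residue A) = Pbar := by
    ext i j
    exact hlift (Pbar i j)
  have hdet : IsUnit P.det := by
    have h1 : residue A P.det = Pbar.det := by
      rw [RingHom.map_det, RingHom.mapMatrix_apply, hmap]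
    have h2 : Pbar.det ≠ 0 := ((Matrix.isUnit_iff_isUnit_det _).mp hP).ne_zero
    by_contra hnu
    exact h2 (h1 ▸ (residue_eq_zero_iff _).mpr hnu)
  obtain ⟨u, hu⟩ := (Matrix.isUnit_iff_isUnit_det _).mpr hdet
  exact ⟨u, by rw [hu]; exact hmap⟩

end AdicEquivHelpers

section ConjMore

variable {A : Type} [CommRing A]

theorem conjRep_eq_of_intertwine (u : (Matrix (Fin 2) (Fin 2) A)ˣ)
    (r r' : GQ →* Matrix (Fin 2) (Fin 2) A)
    (h : ∀ g, (↑u : Matrix (Fin 2) (Fin 2) A) * r' g = r g * (↑u : Matrix (Fin 2) (Fin 2) A)) :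
    conjRep u r = r' := by
  refine MonoidHom.ext fun g => ?_
  rw [conjRep_apply, mul_assoc, ← h g, ← mul_assoc, Units.inv_mul, one_mul]

theorem conjRep_finiteLevel (u : (Matrix (Fin 2) (Fin 2) A)ˣ)
    {r : GQ →* Matrix (Fin 2) (Fin 2) A} (hr : GaloisFactorsThroughFiniteLevel r) :
    GaloisFactorsThroughFiniteLevel (conjRep u r) := by
  obtain ⟨L, hL, h⟩ := hr
  refine ⟨L, hL, fun σ hσ => ?_⟩
  rw [conjRep_apply, h σ hσ, mul_one, Units.inv_mul]

/-- Conjugating so that the first column of `r g` becomes `(0,1)`. -/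
theorem exists_unit_companion (X : Matrix (Fin 2) (Fin 2) A) (hX : IsUnit (X 1 0)) :
    ∃ u : (Matrix (Fin 2) (Fin 2) A)ˣ,
      (↑u : Matrix (Fin 2) (Fin 2) A) = !![1, X 0 0; 0, X 1 0] ∧
      ((↑u⁻¹ : Matrix (Fin 2) (Fin 2) A) * X * (↑u : Matrix (Fin 2) (Fin 2) A)) 0 0 = 0 ∧
      ((↑u⁻¹ : Matrix (Fin 2) (Fin 2) A) * X * (↑u : Matrix (Fin 2) (Fin 2) A)) 1 0 = 1 := by
  obtain ⟨v, hv⟩ := hX
  have hv1 : X 1 0 * (↑v⁻¹ : A) = 1 := by rw [← hv]; exact Units.mul_inv v
  have hv2 : (↑v⁻¹ : A) * X 1 0 = 1 := by rw [← hv]; exact Units.inv_mul v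
  refine ⟨⟨!![1, X 0 0; 0, X 1 0], !![1, -(X 0 0) * ↑v⁻¹; 0, ↑v⁻¹], ?_, ?_⟩, rfl, ?_, ?_⟩
  · ext i j
    fin_cases i <;> fin_cases j <;> simp [Matrix.mul_apply, Fin.sum_univ_two, hv1]
  · ext i j
    fin_cases i <;> fin_cases j <;> simp [Matrix.mul_apply, Fin.sum_univ_two, hv2]
    linear_combination (-(X 0 0)) * hv2
  · simp only [Units.inv_mk, Matrix.mul_apply, Fin.sum_univ_two]
    simp
    linear_combination (-(X 0 0)) * hv2
  · simp only [Units.inv_mk, Matrix.mul_apply, Fin.sum_univ_two]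
    simp
    exact hv

end ConjMore

section HenselStep

variable {A : Type} [CommRing A]

theorem adjugate_mul_add_mul_apply (X Y : Matrix (Fin 2) (Fin 2) A) (a b : Fin 2) :
    (X.adjugate * Y + Y * X) a b = X.trace * Y a b - (X * Y - Y * X) a b := by
  rw [Matrix.adjugate_fin_two, Matrix.trace_fin_two]
  fin_cases a <;> fin_cases b <;>
    simp [Matrix.mul_apply, Fin.sum_univ_two, Matrix.vecMul, dotProduct] <;> ring

theorem conj_expand (X Y : Matrix (Fin 2) (Fin 2) A) (y : A) (a b : Fin 2) :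
    (((1 : Matrix (Fin 2) (Fin 2) A) + y • X).adjugate * Y * (1 + y • X)) a b =
      Y a b + y * (X.adjugate * Y + Y * X) a b + y ^ 2 * (X.adjugate * Y * X) a b := by
  have h1 : ((1 : Matrix (Fin 2) (Fin 2) A) + y • X).adjugate = 1 + y • X.adjugate := by
    have := adjugate_add_smul X 1 y
    simpa using this
  rw [h1]
  have h2 : ((1 : Matrix (Fin 2) (Fin 2) A) + y • X.adjugate) * Y * (1 + y • X)
      = Y + y • (X.adjugate * Y + Y * X) + y ^ 2 • (X.adjugate * Y * X) := by
    simp only [add_mul, mul_add, one_mul, mul_one, smul_mul_assoc, mul_smul_comm, smul_add,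
      smul_smul, pow_two]
    abel
  rw [h2]
  simp only [Matrix.add_apply, Matrix.smul_apply, smul_eq_mul]

theorem det_one_add_smul (X : Matrix (Fin 2) (Fin 2) A) (y : A) :
    ((1 : Matrix (Fin 2) (Fin 2) A) + y • X).det = 1 + y * X.trace + y ^ 2 * X.det := by
  rw [Matrix.det_fin_two, Matrix.det_fin_two, Matrix.trace_fin_two]
  simp
  ring

variable [IsLocalRing A] [HenselianRing A (maximalIdeal A)]

/-- The Hensel step: conjugating by some `1 + yX` (with `y` in the maximal ideal) one can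
prescribe the `(a,b)` entry of `Y`, provided the commutator entry is a unit. -/
theorem exists_unit_hensel (X Y : Matrix (Fin 2) (Fin 2) A) (a b : Fin 2) (c : A)
    (h0 : Y a b - c ∈ maximalIdeal A) (hcomm : IsUnit ((X * Y - Y * X) a b)) :
    ∃ u : (Matrix (Fin 2) (Fin 2) A)ˣ,
      (↑u : Matrix (Fin 2) (Fin 2) A).map (residue A) = 1 ∧
      (↑u : Matrix (Fin 2) (Fin 2) A) * X = X * (↑u : Matrix (Fin 2) (Fin 2) A) ∧
      ((↑u⁻¹ : Matrix (Fin 2) (Fin 2) A) * Y * (↑u : Matrix (Fin 2) (Fin 2) A)) a b = c := by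
  set a0 : A := Y a b - c with ha0
  set a1 : A := (X.adjugate * Y + Y * X) a b - c * X.trace with ha1
  set a2 : A := (X.adjugate * Y * X) a b - c * X.det with ha2
  have ha1u : IsUnit a1 := by
    have e : a1 = X.trace * a0 - (X * Y - Y * X) a b := by
      rw [ha1, adjugate_mul_add_mul_apply, ha0]; ring
    by_contra hnu
    have hm : a1 ∈ maximalIdeal A := hnu
    have : (X * Y - Y * X) a b ∈ maximalIdeal A := by
      have h3 : (X * Y - Y * X) a b = X.trace * a0 - a1 := by rw [e]; ring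
      rw [h3]
      exact Ideal.sub_mem _ (Ideal.mul_mem_left _ _ h0) hm
    exact this hcomm
  obtain ⟨y, hy, hroot⟩ := exists_root_quadratic a0 a1 a2 h0 ha1u
  set Q : Matrix (Fin 2) (Fin 2) A := 1 + y • X with hQ
  have hdetQ : Q.det = 1 + y * X.trace + y ^ 2 * X.det := det_one_add_smul X y
  have hdetu : IsUnit Q.det := by
    by_contra hnu
    have hm : Q.det ∈ maximalIdeal A := hnu
    have h1m : (1 : A) ∈ maximalIdeal A := by
      have h3 : (1 : A) = Q.det - y * (X.trace + y * X.det) := by rw [hdetQ]; ring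
      rw [h3]
      exact Ideal.sub_mem _ hm (Ideal.mul_mem_right _ _ hy)
    exact (Ideal.ne_top_iff_one _).mp (maximalIdeal.isMaximal A).ne_top h1m
  obtain ⟨u, hu⟩ := (Matrix.isUnit_iff_isUnit_det _).mpr hdetu
  refine ⟨u, ?_, ?_, ?_⟩
  · rw [hu, hQ]
    ext i j
    have hy0 : residue A y = 0 := (residue_eq_zero_iff _).mpr hy
    simp only [Matrix.map_apply, Matrix.add_apply, Matrix.smul_apply, smul_eq_mul, map_add,
      map_mul, hy0, zero_mul, add_zero, Matrix.one_apply]
    split_ifs <;> simp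
  · rw [hu, hQ]
    simp only [add_mul, mul_add, one_mul, mul_one, smul_mul_assoc, mul_smul_comm]
  · set Z : Matrix (Fin 2) (Fin 2) A := (↑u⁻¹ : Matrix (Fin 2) (Fin 2) A) * Y * (↑u : Matrix (Fin 2) (Fin 2) A) with hZ
    have h1 : Q * Z = Y * Q := by
      rw [hZ, ← hu, ← mul_assoc, ← mul_assoc, Units.mul_inv, one_mul]
    have h2 : Q.det • Z = Q.adjugate * Y * Q := by
      have := congrArg (fun M => Q.adjugate * M) h1
      simp only [← mul_assoc, Matrix.adjugate_mul, Matrix.smul_mul, one_mul] at this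
      exact this
    have h3 := congrFun (congrFun h2 a) b
    rw [Matrix.smul_apply, smul_eq_mul, hQ, conj_expand, ← hQ] at h3
    have h4 : Q.det * (Z a b - c) = 0 := by
      rw [mul_sub, h3, hdetQ]
      linear_combination hroot
    have h5 := (hdetu.mul_right_eq_zero).mp h4
    exact sub_eq_zero.mp h5

end HenselStep

section NFExists

variable {𝒪 : Type} [CommRing 𝒪] [IsLocalRing 𝒪] {ρbar : ResidualGaloisRep (ResidueField 𝒪)}
  (D : NFData 𝒪 ρbar) {A : Type} [CommRing A] [IsLocalRing A] [Algebra 𝒪 A]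
  [IsLocalHom (algebraMap 𝒪 A)]

theorem ofMatrixRes_congr {k : Type} [Field k] {r r' : GQ →* Matrix (Fin 2) (Fin 2) k}
    (hr : GaloisFactorsThroughFiniteLevel r) (hr' : GaloisFactorsThroughFiniteLevel r')
    (h : r = r') : (ofMatrixRes r hr).IsEquiv (ofMatrixRes r' hr') := by
  subst h
  exact ⟨ResidualGaloisRep.Equiv.refl _⟩

/-- The base change of `ρbar` to the residue field of `A` in matrix form. -/
theorem baseChangeAlong_isEquiv_ofMatrixRes :
    (ρbar.baseChangeAlong (ResidueField.map (algebraMap 𝒪 A))).IsEquiv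
      (ofMatrixRes (mapMat (ResidueField.map (algebraMap 𝒪 A)) D.rbar)
        (mapMat_finiteLevel _ D.rbar_fin)) := by
  obtain ⟨e⟩ := D.equiv
  exact resIsEquiv_trans ⟨e.symm.baseChangeAlong (ResidueField.map (algebraMap 𝒪 A))⟩
    (baseChangeAlong_ofMatrixRes_isEquiv _ D.rbar_fin)

/-- A matrix representation with the right residual representation is residually
conjugate to `rbar`. -/
theorem exists_conj_residue {r0 : GQ →* Matrix (Fin 2) (Fin 2) A} (hr0 : MatCont r0)
    {ρA : GaloisRepAdic A} (he : (ofMatrix r0 hr0).IsEquiv ρA)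
    (h : ρA.residual.IsEquiv (ρbar.baseChangeAlong (ResidueField.map (algebraMap 𝒪 A)))) :
    ∃ P : Matrix (Fin 2) (Fin 2) (ResidueField A), IsUnit P ∧
      ∀ σ, P * mapMat (ResidueField.map (algebraMap 𝒪 A)) D.rbar σ
        = mapMat (residue A) r0 σ * P := by
  obtain ⟨e⟩ := he
  have h1 : (ofMatrix r0 hr0).residual.IsEquiv
      (ofMatrixRes (mapMat (ResidueField.map (algebraMap 𝒪 A)) D.rbar)
        (mapMat_finiteLevel _ D.rbar_fin)) :=
    resIsEquiv_trans (resIsEquiv_trans ⟨e.residual⟩ h) (baseChangeAlong_isEquiv_ofMatrixRes D)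
  have h2 := resIsEquiv_trans (resIsEquiv_symm h1) (residual_ofMatrix_isEquiv hr0)
  exact exists_conj_of_ofMatrixRes_isEquiv _ _ h2

/-- A lift in normal form has the right residual representation. -/
theorem IsNF.residual_isEquiv {r : GQ →* Matrix (Fin 2) (Fin 2) A} (h : IsNF D A r)
    (hr : MatCont r) :
    (ofMatrix r hr).residual.IsEquiv
      (ρbar.baseChangeAlong (ResidueField.map (algebraMap 𝒪 A))) :=
  resIsEquiv_trans (residual_ofMatrix_isEquiv hr)
    (resIsEquiv_trans (ofMatrixRes_congr _ (mapMat_finiteLevel _ D.rbar_fin) h.1)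
      (resIsEquiv_symm (baseChangeAlong_isEquiv_ofMatrixRes D)))

/-- Existence of the normal form in the equivalence class of a lift of `ρbar`. -/
theorem exists_isNF [HenselianRing A (maximalIdeal A)] (ρA : GaloisRepAdic A)
    (h : ρA.residual.IsEquiv (ρbar.baseChangeAlong (ResidueField.map (algebraMap 𝒪 A)))) :
    ∃ (r : GQ →* Matrix (Fin 2) (Fin 2) A) (hr : MatCont r),
      IsNF D A r ∧ (ofMatrix r hr).IsEquiv ρA := by
  obtain ⟨r0, hr0, he0⟩ := exists_ofMatrix_isEquiv ρA
  -- Step 1: make the residual representation equal to `rbar`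
  obtain ⟨Pbar, hPbar, hconj⟩ := exists_conj_residue D hr0 he0 h
  obtain ⟨u0, hu0⟩ := exists_unit_map_residue_eq Pbar hPbar
  set r1 := conjRep u0 r0 with hr1def
  have hr1 : MatCont r1 := matCont_conjRep u0 hr0
  have he1 : (ofMatrix r1 hr1).IsEquiv ρA := adicIsEquiv_trans (conjRep_isEquiv u0 hr0) he0
  have hres1 : mapMat (residue A) r1 = mapMat (ResidueField.map (algebraMap 𝒪 A)) D.rbar := by
    refine MonoidHom.ext fun g => ?_
    have h1 := congrArg (fun M : Matrix (Fin 2) (Fin 2) A => M.map (residue A))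
      (conjRep_intertwine u0 r0 g)
    simp only [Matrix.map_mul, hu0] at h1
    rw [mapMat_apply']
    have h2 : Pbar * (conjRep u0 r0 g).map (residue A)
        = Pbar * mapMat (ResidueField.map (algebraMap 𝒪 A)) D.rbar g := by
      rw [h1, hconj g, mapMat_apply']
    exact (hPbar.mul_right_inj).mp h2
  -- Step 2: make the first column of `r g1` equal to `(0,1)`
  have hX10 : IsUnit (r1 D.g1 1 0) := by
    by_contra hnu
    have h1 := residue_apply_of_mapMat_eq D hres1 D.g1 1 0
    rw [(residue_eq_zero_iff _).mpr hnu, D.g1_10, map_one] at h1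
    exact zero_ne_one h1
  obtain ⟨u1, hu1, h100, h110⟩ := exists_unit_companion (r1 D.g1) hX10
  set r2 := conjRep u1 r1 with hr2def
  have hr2 : MatCont r2 := matCont_conjRep u1 hr1
  have he2 : (ofMatrix r2 hr2).IsEquiv ρA := adicIsEquiv_trans (conjRep_isEquiv u1 hr1) he1
  have hu1res : (↑u1 : Matrix (Fin 2) (Fin 2) A).map (residue A) = 1 := by
    rw [hu1]
    have e00 := residue_apply_of_mapMat_eq D hres1 D.g1 0 0
    have e10 := residue_apply_of_mapMat_eq D hres1 D.g1 1 0
    rw [D.g1_00, map_zero] at e00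
    rw [D.g1_10, map_one] at e10
    ext i j
    fin_cases i <;> fin_cases j <;> simp [e00, e10]
  have hres2 : mapMat (residue A) r2 = mapMat (ResidueField.map (algebraMap 𝒪 A)) D.rbar := by
    rw [hr2def, mapMat_residue_conjRep_of_map_eq_one u1 hu1res, hres1]
  have h200 : r2 D.g1 0 0 = 0 := h100
  have h210 : r2 D.g1 1 0 = 1 := h110
  -- Step 3: the Hensel step
  have h0 : r2 D.g2 D.a D.b - algebraMap 𝒪 A D.ctil ∈ maximalIdeal A := by
    rw [← residue_eq_zero_iff, map_sub, residue_apply_of_mapMat_eq D hres2, ← D.ctil_spec,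
      ResidueField.map_residue, sub_self]
  obtain ⟨u2, hu2res, hu2comm, hu2ab⟩ := exists_unit_hensel (r2 D.g1) (r2 D.g2) D.a D.b
    (algebraMap 𝒪 A D.ctil) h0 (isUnit_comm_of_mapMat_eq D hres2)
  set r3 := conjRep u2 r2 with hr3def
  have hr3 : MatCont r3 := matCont_conjRep u2 hr2
  have he3 : (ofMatrix r3 hr3).IsEquiv ρA := adicIsEquiv_trans (conjRep_isEquiv u2 hr2) he2
  have hres3 : mapMat (residue A) r3 = mapMat (ResidueField.map (algebraMap 𝒪 A)) D.rbar := by
    rw [hr3def, mapMat_residue_conjRep_of_map_eq_one u2 hu2res, hres2]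
  have hg1 : r3 D.g1 = r2 D.g1 := by
    rw [hr3def, conjRep_apply, mul_assoc, ← hu2comm, ← mul_assoc, Units.inv_mul, one_mul]
  refine ⟨r3, hr3, ⟨hres3, ?_, ?_, hu2ab⟩, he3⟩
  · rw [hg1]; exact h200
  · rw [hg1]; exact h210

end NFExists


instance instIsLocalHomAlgebraMapResidueField (𝒪 : Type) [CommRing 𝒪] [IsLocalRing 𝒪] :
    IsLocalHom (algebraMap 𝒪 (ResidueField 𝒪)) := by
  change IsLocalHom (residue 𝒪)
  infer_instance

section NFMap

variable {𝒪 : Type} [CommRing 𝒪] [IsLocalRing 𝒪] {ρbar : ResidualGaloisRep (ResidueField 𝒪)}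
  (D : NFData 𝒪 ρbar) {A B : Type} [CommRing A] [IsLocalRing A] [Algebra 𝒪 A]
  [IsLocalHom (algebraMap 𝒪 A)] [CommRing B] [IsLocalRing B] [Algebra 𝒪 B]
  [IsLocalHom (algebraMap 𝒪 B)]

omit [IsLocalRing 𝒪] [IsLocalHom (algebraMap 𝒪 A)] [IsLocalHom (algebraMap 𝒪 B)] in
theorem residueFieldMap_residue (f : A →+* B) [IsLocalHom f] (x : A) :
    ResidueField.map f (residue A x) = residue B (f x) := rfl

theorem residueFieldMap_comp_algebraMap (f : A →+* B) [IsLocalHom f]
    (hcomp : f.comp (algebraMap 𝒪 A) = algebraMap 𝒪 B) (x : ResidueField 𝒪) :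
    ResidueField.map f (ResidueField.map (algebraMap 𝒪 A) x)
      = ResidueField.map (algebraMap 𝒪 B) x := by
  obtain ⟨o, rfl⟩ := residue_surjective x
  rw [ResidueField.map_residue, ResidueField.map_residue, ResidueField.map_residue, ← hcomp]
  rfl

/-- Normal forms are preserved by local homomorphisms of `𝒪`-algebras (ring hom version). -/
theorem IsNF.map_ringHom {r : GQ →* Matrix (Fin 2) (Fin 2) A} (h : IsNF D A r) (f : A →+* B)
    (hf : IsLocalHom f) (hcomp : f.comp (algebraMap 𝒪 A) = algebraMap 𝒪 B) :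
    IsNF D B (mapMat f r) := by
  have hc : ∀ o : 𝒪, f (algebraMap 𝒪 A o) = algebraMap 𝒪 B o := fun o => by
    rw [← hcomp]; rfl
  refine ⟨?_, ?_, ?_, ?_⟩
  · refine MonoidHom.ext fun g => ?_
    ext i j
    rw [mapMat_apply, mapMat_apply, mapMat_apply, ← ResidueField.map_residue, h.residue_apply D,
      residueFieldMap_comp_algebraMap f hcomp]
  · rw [mapMat_apply, h.2.1, map_zero]
  · rw [mapMat_apply, h.2.2.1, map_one]
  · rw [mapMat_apply, h.2.2.2, hc]

/-- Normal forms are preserved by local homomorphisms of `𝒪`-algebras. -/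
theorem IsNF.map {r : GQ →* Matrix (Fin 2) (Fin 2) A} (h : IsNF D A r) (f : A →ₐ[𝒪] B)
    (hf : IsLocalHom (f : A →+* B)) : IsNF D B (mapMat (f : A →+* B) r) :=
  h.map_ringHom D (f : A →+* B) hf f.comp_algebraMap

/-- Normal forms are reflected by injective local homomorphisms (ring hom version). -/
theorem IsNF.of_map_ringHom_injective {r : GQ →* Matrix (Fin 2) (Fin 2) A} (f : A →+* B)
    (hf : IsLocalHom f) (hcomp : f.comp (algebraMap 𝒪 A) = algebraMap 𝒪 B)
    (hinj : Function.Injective f) (h : IsNF D B (mapMat f r)) : IsNF D A r := by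
  have hc : ∀ o : 𝒪, f (algebraMap 𝒪 A o) = algebraMap 𝒪 B o := fun o => by
    rw [← hcomp]; rfl
  refine ⟨?_, ?_, ?_, ?_⟩
  · refine MonoidHom.ext fun g => ?_
    ext i j
    rw [mapMat_apply, mapMat_apply]
    apply (ResidueField.map f).injective
    rw [residueFieldMap_comp_algebraMap f hcomp, ResidueField.map_residue]
    have := h.residue_apply D g i j
    rwa [mapMat_apply] at this
  · apply hinj
    have := h.2.1
    rwa [mapMat_apply, ← map_zero f] at this
  · apply hinj
    have := h.2.2.1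
    rwa [mapMat_apply, ← map_one f] at this
  · apply hinj
    have := h.2.2.2
    rwa [mapMat_apply, ← hc] at this

/-- Normal forms are reflected by injective local homomorphisms of `𝒪`-algebras. -/
theorem IsNF.of_map_injective {r : GQ →* Matrix (Fin 2) (Fin 2) A} (f : A →ₐ[𝒪] B)
    (hf : IsLocalHom (f : A →+* B)) (hinj : Function.Injective f)
    (h : IsNF D B (mapMat (f : A →+* B) r)) : IsNF D A r :=
  IsNF.of_map_ringHom_injective D (f : A →+* B) hf f.comp_algebraMap hinj h

/-- Two normal forms giving equivalent representations are equal. -/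
theorem IsNF.eq_of_isEquiv {r r' : GQ →* Matrix (Fin 2) (Fin 2) A} (h : IsNF D A r)
    (h' : IsNF D A r') (hr : MatCont r) (hr' : MatCont r')
    (he : (ofMatrix r hr).IsEquiv (ofMatrix r' hr')) : r = r' := by
  obtain ⟨P, hP, hc⟩ := exists_conj_of_ofMatrix_isEquiv hr hr' he
  exact h.unique D h' P hP hc

/-- `rbar` itself is in normal form over the residue field. -/
theorem isNF_rbar : IsNF D (ResidueField 𝒪) D.rbar := by
  refine ⟨?_, D.g1_00, D.g1_10, ?_⟩
  · refine MonoidHom.ext fun g => ?_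
    ext i j
    rw [mapMat_apply, mapMat_apply]
    obtain ⟨o, ho⟩ := residue_surjective (D.rbar g i j)
    rw [← ho, ResidueField.map_residue]
    rfl
  · rw [← D.ctil_spec]
    rfl

end NFMap


section AbsIrr

variable {k : Type} [Field k] (ρbar : ResidualGaloisRep k)

theorem not_common_eigenvector (habs : ρbar.IsAbsolutelyIrreducible)
    (b : Module.Basis (Fin 2) k ρbar.V)
    (w : Fin 2 → AlgebraicClosure k) (hw : w ≠ 0) :
    ∃ g : GQ, ∀ μ : AlgebraicClosure k,
      ((matOfBasisRes ρbar b g).map (algebraMap k (AlgebraicClosure k))).mulVec w ≠ μ • w := by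
  by_contra hcon
  push Not at hcon
  let b' : Module.Basis (Fin 2) (AlgebraicClosure k) (AlgebraicClosure k ⊗[k] ρbar.V) :=
    Algebra.TensorProduct.basis (AlgebraicClosure k) b
  let x : AlgebraicClosure k ⊗[k] ρbar.V := b'.equivFun.symm w
  have hxw : (b'.repr x : Fin 2 → AlgebraicClosure k) = w := by
    have := b'.equivFun.apply_symm_apply w
    rwa [Module.Basis.equivFun_apply] at this
  have hx0 : x ≠ 0 := by
    intro h0
    apply hw
    rw [← hxw, h0]
    simp
  have hact : ∀ σ : GQ, ∃ μ : AlgebraicClosure k,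
      (ρbar.ρ σ).baseChange (AlgebraicClosure k) x = μ • x := by
    intro σ
    obtain ⟨μ, hμ⟩ := hcon σ
    refine ⟨μ, ?_⟩
    apply b'.repr.injective
    apply DFunLike.coe_injective
    have h1 := LinearMap.toMatrix_mulVec_repr b' b'
      ((ρbar.ρ σ).baseChange (AlgebraicClosure k)) x
    rw [LinearMap.toMatrix_baseChange, hxw] at h1
    rw [matOfBasisRes_apply, h1] at hμ
    rw [hμ, map_smul, Finsupp.coe_smul, hxw]
  let W : Submodule (AlgebraicClosure k) (AlgebraicClosure k ⊗[k] ρbar.V) :=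
    Submodule.span (AlgebraicClosure k) {x}
  have hstab : ∀ σ : GQ, ∀ y ∈ W, (ρbar.baseChange (AlgebraicClosure k)).ρ σ y ∈ W := by
    intro σ y hy
    obtain ⟨c, rfl⟩ := Submodule.mem_span_singleton.mp hy
    obtain ⟨μ, hμ⟩ := hact σ
    show (ρbar.ρ σ).baseChange (AlgebraicClosure k) (c • x) ∈ W
    rw [map_smul, hμ]
    exact Submodule.smul_mem _ _ (Submodule.smul_mem _ _ (Submodule.mem_span_singleton_self x))
  rcases habs W hstab with h | h
  · apply hx0
    have : x ∈ W := Submodule.mem_span_singleton_self x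
    rw [h] at this
    exact (Submodule.mem_bot (AlgebraicClosure k)).mp this
  · have h1 : Module.finrank (AlgebraicClosure k) W = 1 := finrank_span_singleton hx0
    have h2 : Module.finrank (AlgebraicClosure k) (AlgebraicClosure k ⊗[k] ρbar.V) = 2 := by
      rw [Module.finrank_eq_card_basis b']; simp
    rw [h, finrank_top, h2] at h1
    omega

theorem exists_basis_matOfBasisRes_eq {r : GQ →* Matrix (Fin 2) (Fin 2) k}
    (hr : GaloisFactorsThroughFiniteLevel r) (he : (ofMatrixRes r hr).IsEquiv ρbar) :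
    ∃ b : Module.Basis (Fin 2) k ρbar.V, matOfBasisRes ρbar b = r := by
  obtain ⟨e⟩ := he
  let E : (Fin 2 → k) ≃ₗ[k] ρbar.V := e.toLinearEquiv
  have hE : ∀ (σ : GQ) (x : Fin 2 → k), E ((r σ).mulVec x) = ρbar.ρ σ (E x) := fun σ x => by
    have := e.map_apply σ x
    exact this
  refine ⟨(Pi.basisFun k (Fin 2)).map E, ?_⟩
  refine MonoidHom.ext fun σ => ?_
  ext i j
  rw [matOfBasisRes_apply_apply, Module.Basis.map_apply, Pi.basisFun_apply, ← hE,
    Module.Basis.map_repr, LinearEquiv.trans_apply, LinearEquiv.symm_apply_apply,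
    Pi.basisFun_repr, Matrix.mulVec_single_one]
  rfl

/-- A companion matrix has an eigenvector over the algebraic closure. -/
theorem exists_eigenvector_companion (X : Matrix (Fin 2) (Fin 2) k) (h00 : X 0 0 = 0)
    (h10 : X 1 0 = 1) :
    ∃ (w : Fin 2 → AlgebraicClosure k) (lam : AlgebraicClosure k), w ≠ 0 ∧
      ∀ p q : k, ((p • (1 : Matrix (Fin 2) (Fin 2) k) + q • X).map
        (algebraMap k (AlgebraicClosure k))).mulVec w
          = (algebraMap k (AlgebraicClosure k) p + algebraMap k (AlgebraicClosure k) q * lam) • w := by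
  let ι := algebraMap k (AlgebraicClosure k)
  let f : Polynomial (AlgebraicClosure k) :=
    Polynomial.X ^ 2 - Polynomial.C (ι (X 1 1)) * Polynomial.X - Polynomial.C (ι (X 0 1))
  have hdeg : f.degree ≠ 0 := by
    have : f.degree = 2 := by
      simp only [f]
      compute_degree!
    rw [this]; norm_num
  obtain ⟨lam, hlam⟩ := IsAlgClosed.exists_root f hdeg
  have hlam' : lam ^ 2 - ι (X 1 1) * lam - ι (X 0 1) = 0 := by
    simpa [f, Polynomial.IsRoot] using hlam
  refine ⟨![lam - ι (X 1 1), 1], lam, ?_, fun p q => ?_⟩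
  · intro h
    have := congrFun h 1
    simp at this
  · ext i
    fin_cases i
    · simp [Matrix.mulVec, dotProduct, Fin.sum_univ_two, h00]
      linear_combination (-(ι q)) * hlam'
    · simp [Matrix.mulVec, dotProduct, Fin.sum_univ_two, h10]
      ring

end AbsIrr

section ExistsData

variable (𝒪 : Type) [CommRing 𝒪] [IsLocalRing 𝒪] (ρbar : ResidualGaloisRep (ResidueField 𝒪))

/-- Rigidifying data exist for an absolutely irreducible residual representation. -/
theorem exists_nfData (habs : ρbar.IsAbsolutelyIrreducible) : Nonempty (NFData 𝒪 ρbar) := by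
  classical
  let b0 := Module.finBasisOfFinrankEq (ResidueField 𝒪) ρbar.V ρbar.finrank_eq
  have hr0 := matOfBasisRes_finiteLevel ρbar b0
  -- choice of `g1`
  obtain ⟨g1, hg1⟩ := not_common_eigenvector ρbar habs b0 (Pi.single 0 1) (by
    intro h
    have := congrFun h 0
    simp at this)
  have hM10 : matOfBasisRes ρbar b0 g1 1 0 ≠ 0 := by
    intro h0
    apply hg1 (algebraMap _ _ (matOfBasisRes ρbar b0 g1 0 0))
    rw [Matrix.mulVec_single_one]
    ext i
    fin_cases i <;> simp [h0]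
  obtain ⟨u1, -, h00, h10⟩ :=
    exists_unit_companion (matOfBasisRes ρbar b0 g1) (isUnit_iff_ne_zero.mpr hM10)
  have hrbar_fin := conjRep_finiteLevel u1 hr0
  have hequiv : (ofMatrixRes (conjRep u1 (matOfBasisRes ρbar b0)) hrbar_fin).IsEquiv ρbar :=
    resIsEquiv_trans (ofMatrixRes_isEquiv_of_conj _ _ (↑u1 : Matrix (Fin 2) (Fin 2) _) u1.isUnit
      (conjRep_intertwine u1 _)) (ofMatrixRes_matOfBasisRes_isEquiv ρbar b0)
  obtain ⟨b1, hb1⟩ := exists_basis_matOfBasisRes_eq ρbar hrbar_fin hequiv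
  have h00' : conjRep u1 (matOfBasisRes ρbar b0) g1 0 0 = 0 := h00
  have h10' : conjRep u1 (matOfBasisRes ρbar b0) g1 1 0 = 1 := h10
  generalize conjRep u1 (matOfBasisRes ρbar b0) = rbar at *
  -- choice of `g2`
  have hg2 : ∃ g2, rbar g1 * rbar g2 ≠ rbar g2 * rbar g1 := by
    by_contra hcon
    push Not at hcon
    obtain ⟨w, lam, hw, hwe⟩ := exists_eigenvector_companion (rbar g1) h00' h10'
    obtain ⟨g, hg⟩ := not_common_eigenvector ρbar habs b1 w hw
    rw [hb1] at hg
    have hP := eq_add_smul_of_commute_companion (rbar g1) (rbar g) h00' h10' (hcon g).symm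
    apply hg (algebraMap _ _ (rbar g 0 0) + algebraMap _ _ (rbar g 1 0) * lam)
    rw [← hwe, ← hP]
  obtain ⟨g2, hg2⟩ := hg2
  have hab : ∃ a b, (rbar g1 * rbar g2 - rbar g2 * rbar g1) a b ≠ 0 := by
    by_contra hcon
    push Not at hcon
    apply hg2
    have : rbar g1 * rbar g2 - rbar g2 * rbar g1 = 0 := by
      ext a b
      exact hcon a b
    exact sub_eq_zero.mp this
  obtain ⟨a, b, hab⟩ := hab
  obtain ⟨ctil, hctil⟩ := residue_surjective (rbar g2 a b)
  exact ⟨⟨rbar, hrbar_fin, hequiv, g1, g2, h00', h10', a, b, hab, ctil, hctil⟩⟩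

end ExistsData


section Nilp

variable {A : Type} [CommRing A]

/-- A ring is adically complete with respect to a nilpotent ideal. -/
theorem isAdicComplete_of_pow_eq_bot (I : Ideal A) (n : ℕ) (h : I ^ n = ⊥) :
    IsAdicComplete I A := by
  have hbot : ∀ m, n ≤ m → (I ^ m • ⊤ : Submodule A A) = ⊥ := by
    intro m hm
    have : I ^ m = ⊥ := le_bot_iff.mp (h ▸ Ideal.pow_le_pow_right hm)
    rw [this, Submodule.bot_smul]
  refine { toIsHausdorff := ⟨fun x hx => ?_⟩, toIsPrecomplete := ⟨fun f hf => ⟨f n, fun m => ?_⟩⟩ }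
  · have := hx n
    rw [hbot n le_rfl, SModEq.bot] at this
    exact this
  · rcases le_total m n with hmn | hmn
    · exact hf hmn
    · have := hf hmn
      rw [hbot n le_rfl, SModEq.bot] at this
      rw [this]

variable [IsLocalRing A]

theorem isAdicComplete_of_isArtinianRing [IsArtinianRing A] :
    IsAdicComplete (maximalIdeal A) A := by
  obtain ⟨n, hn⟩ := IsArtinianRing.isNilpotent_jacobson_bot (R := A)
  rw [IsLocalRing.jacobson_eq_maximalIdeal _ bot_ne_top] at hn
  exact isAdicComplete_of_pow_eq_bot _ n hn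

theorem henselianRing_of_isArtinianRing [IsArtinianRing A] :
    HenselianRing A (maximalIdeal A) :=
  haveI := isAdicComplete_of_isArtinianRing (A := A)
  inferInstance

end Nilp


section NFFamily

variable {𝒪 : Type} [CommRing 𝒪] [IsLocalRing 𝒪] {ρbar : ResidualGaloisRep (ResidueField 𝒪)}
  (D : NFData 𝒪 ρbar) {A : Type} [CommRing A] [IsLocalRing A] [Algebra 𝒪 A]
  [IsLocalHom (algebraMap 𝒪 A)]

/-- The residual condition of a normal form is reflected by any local homomorphism. -/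
theorem mapMat_residue_eq_of_map {B : Type} [CommRing B] [IsLocalRing B] [Algebra 𝒪 B]
    [IsLocalHom (algebraMap 𝒪 B)] {r : GQ →* Matrix (Fin 2) (Fin 2) A} (f : A →+* B)
    (hf : IsLocalHom f) (hcomp : f.comp (algebraMap 𝒪 A) = algebraMap 𝒪 B)
    (h : mapMat (residue B) (mapMat f r) = mapMat (ResidueField.map (algebraMap 𝒪 B)) D.rbar) :
    mapMat (residue A) r = mapMat (ResidueField.map (algebraMap 𝒪 A)) D.rbar := by
  refine MonoidHom.ext fun g => ?_
  ext i j
  rw [mapMat_apply, mapMat_apply]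
  apply (ResidueField.map f).injective
  rw [residueFieldMap_comp_algebraMap f hcomp, ResidueField.map_residue]
  have := residue_apply_of_mapMat_eq D h g i j
  rwa [mapMat_apply] at this

/-- Normal forms are reflected by jointly injective families of local homomorphisms
(e.g. the projections of an inverse limit). -/
theorem IsNF.of_forall_map {ι : Type} [Nonempty ι] {B : ι → Type} [∀ i, CommRing (B i)]
    [∀ i, IsLocalRing (B i)] [∀ i, Algebra 𝒪 (B i)] [∀ i, IsLocalHom (algebraMap 𝒪 (B i))]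
    {r : GQ →* Matrix (Fin 2) (Fin 2) A} (f : ∀ i, A →ₐ[𝒪] B i)
    (hf : ∀ i, IsLocalHom ((f i : A →ₐ[𝒪] B i) : A →+* B i))
    (hinj : ∀ x y : A, (∀ i, f i x = f i y) → x = y)
    (h : ∀ i, IsNF D (B i) (mapMat ((f i : A →ₐ[𝒪] B i) : A →+* B i) r)) : IsNF D A r := by
  obtain ⟨i0⟩ := ‹Nonempty ι›
  refine ⟨mapMat_residue_eq_of_map D _ (hf i0) (f i0).comp_algebraMap (h i0).1, ?_, ?_, ?_⟩
  · refine hinj _ _ fun i => ?_
    have := (h i).2.1
    rw [mapMat_apply] at this
    rw [map_zero]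
    exact this
  · refine hinj _ _ fun i => ?_
    have := (h i).2.2.1
    rw [mapMat_apply] at this
    rw [map_one]
    exact this
  · refine hinj _ _ fun i => ?_
    have := (h i).2.2.2
    rw [mapMat_apply] at this
    rw [AlgHom.commutes]
    exact this

end NFFamily

end Fermat.Agent.S53
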