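import Mathlib
import Fermat.Agent.S53.GoodIdeals
import Fermat.Agent.S53.NF

/-!
# S53 support (M2): good ideals for the normal form predicate `IsNF D`

Instantiates the abstract development of `GoodIdeals.lean` with helper3's `IsNF D`.
-/

set_option autoImplicit false
set_option linter.style.haveILetI false
set_option linter.unusedSectionVars false

open IsLocalRing

namespace Fermat.Agent.S53

section

variable {𝒪 : Type} [CommRing 𝒪] [IsLocalRing 𝒪]

/-- The structure map of a test algebra is local (as an instance). -/
instance (priority := 100) isLocalHom_algebraMap_of_isTestAlg {A : Type} [CommRing A]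
    [IsLocalRing A] [Algebra 𝒪 A] [IsTestAlg 𝒪 A] : IsLocalHom (algebraMap 𝒪 A) :=
  IsTestAlg.isLocalHom

variable {ρbar : ResidualGaloisRep (ResidueField 𝒪)} (D : NFData 𝒪 ρbar)

/-- The normal form predicate, as a predicate on matrix representations over test algebras. -/
def NFpred : ∀ ⦃A : Type⦄ [CommRing A] [IsLocalRing A] [Algebra 𝒪 A] [IsTestAlg 𝒪 A],
    (GQ →* Matrix (Fin 2) (Fin 2) A) → Prop :=
  fun A _ _ _ _ r => IsNF D A r

theorem nfpred_iff {A : Type} [CommRing A] [IsLocalRing A] [Algebra 𝒪 A] [IsTestAlg 𝒪 A]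
    (r : GQ →* Matrix (Fin 2) (Fin 2) A) : NFpred D r ↔ IsNF D A r := Iff.rfl

/-- The residue of an entry of a normal form, via the canonical residue map. -/
theorem IsNF.resO_apply {A : Type} [CommRing A] [IsLocalRing A] [Algebra 𝒪 A] [IsTestAlg 𝒪 A]
    {r : GQ →* Matrix (Fin 2) (Fin 2) A} (h : IsNF D A r) (σ : GQ) (i j : Fin 2) :
    resO 𝒪 A (r σ i j) = D.rbar σ i j := by
  rw [Fermat.Agent.S53.resO_apply, RingEquiv.symm_apply_eq, h.residue_apply D]
  rfl

theorem nfAxioms : NFAxioms (NFpred D) D.rbar where
  map := by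
    intro A B _ _ _ _ _ _ _ _ φ r h
    exact IsNF.map D h φ (isLocalHom_of_algHom 𝒪 φ)
  of_map_pair := by
    intro P A B _ _ _ _ _ _ _ _ _ _ _ _ φ ψ hinj r h1 h2
    have h1' : IsNF D A (mapMat (φ : P →+* A) r) := h1
    have h2' : IsNF D B (mapMat (ψ : P →+* B) r) := h2
    have key : ∀ x y : P, φ x = φ y → ψ x = ψ y → x = y := fun x y e1 e2 =>
      hinj (Prod.ext e1 e2)
    refine ⟨mapMat_residue_eq_of_map D (φ : P →+* A) (isLocalHom_of_algHom 𝒪 φ)
      φ.comp_algebraMap h1'.1, ?_, ?_, ?_⟩
    · apply key
      · have := h1'.2.1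
        rw [mapMat_apply] at this
        rw [map_zero]; exact this
      · have := h2'.2.1
        rw [mapMat_apply] at this
        rw [map_zero]; exact this
    · apply key
      · have := h1'.2.2.1
        rw [mapMat_apply] at this
        rw [map_one]; exact this
      · have := h2'.2.2.1
        rw [mapMat_apply] at this
        rw [map_one]; exact this
    · apply key
      · have := h1'.2.2.2
        rw [mapMat_apply] at this
        rw [AlgHom.commutes]; exact this
      · have := h2'.2.2.2
        rw [mapMat_apply] at this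
        rw [AlgHom.commutes]; exact this
  res := by
    intro A _ _ _ _ r h σ i j
    exact IsNF.resO_apply D h σ i j

end

end Fermat.Agent.S53
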