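import Mathlib

set_option autoImplicit false
set_option linter.style.haveILetI false

namespace Fermat.Agent.S53.Tangent

open IsLocalRing

section Res

variable {𝒪 : Type*} [CommRing 𝒪] [IsLocalRing 𝒪]
  {A : Type*} [CommRing A] [IsLocalRing A] [Algebra 𝒪 A] [IsLocalHom (algebraMap 𝒪 A)]

/-- The identification of residue fields when `𝒪 → A/𝔪_A` is surjective. -/
noncomputable def resEquiv (hsurj : Function.Surjective (residue A ∘ algebraMap 𝒪 A)) :
    ResidueField 𝒪 ≃+* ResidueField A :=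
  RingEquiv.ofBijective (ResidueField.map (algebraMap 𝒪 A))
    ⟨(ResidueField.map (algebraMap 𝒪 A)).injective, by
      intro y
      obtain ⟨a, rfl⟩ := residue_surjective y
      obtain ⟨c, hc⟩ := hsurj (residue A a)
      exact ⟨residue 𝒪 c, by simpa using hc⟩⟩

/-- The `𝒪`-residue map `A → k`. -/
noncomputable def resO (hsurj : Function.Surjective (residue A ∘ algebraMap 𝒪 A)) :
    A →+* ResidueField 𝒪 :=
  (resEquiv hsurj).symm.toRingHom.comp (residue A)

theorem resO_algebraMap (hsurj : Function.Surjective (residue A ∘ algebraMap 𝒪 A)) (c : 𝒪) :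
    resO hsurj (algebraMap 𝒪 A c) = residue 𝒪 c := by
  simp only [resO, RingHom.coe_comp, Function.comp_apply, RingEquiv.toRingHom_eq_coe,
    RingHom.coe_coe]
  rw [RingEquiv.symm_apply_eq]
  change residue A (algebraMap 𝒪 A c) = ResidueField.map (algebraMap 𝒪 A) (residue 𝒪 c)
  rw [ResidueField.map_residue]

theorem resO_eq_zero_iff (hsurj : Function.Surjective (residue A ∘ algebraMap 𝒪 A)) (a : A) :
    resO hsurj a = 0 ↔ a ∈ maximalIdeal A := by
  simp [resO, residue_eq_zero_iff]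

variable (𝒪 A) in
/-- The ideal `𝔪_𝒪 A + 𝔪_A²` whose quotient is `k ⊕` (relative cotangent space). -/
def tanIdeal : Ideal A := Ideal.map (algebraMap 𝒪 A) (maximalIdeal 𝒪) ⊔ maximalIdeal A ^ 2

theorem tanIdeal_le : tanIdeal 𝒪 A ≤ maximalIdeal A := by
  refine sup_le ?_ (Ideal.pow_le_self two_ne_zero)
  rw [Ideal.map_le_iff_le_comap]
  intro c hc
  exact map_nonunit (algebraMap 𝒪 A) c hc

theorem smul_residueField (c : 𝒪) (y : ResidueField 𝒪) : c • y = residue 𝒪 c * y := by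
  rw [Algebra.smul_def]; rfl

/-- The key (Leibniz-type) identity for `𝒪`-linear functionals on `A ⧸ tanIdeal`. -/
theorem map_mk_mul (hsurj : Function.Surjective (residue A ∘ algebraMap 𝒪 A))
    (l : (A ⧸ tanIdeal 𝒪 A) →ₗ[𝒪] ResidueField 𝒪) (a b : A) :
    l (Ideal.Quotient.mk _ (a * b)) =
      resO hsurj a * l (Ideal.Quotient.mk _ b) + resO hsurj b * l (Ideal.Quotient.mk _ a) -
        resO hsurj a * resO hsurj b * l (Ideal.Quotient.mk _ 1) := by
  obtain ⟨ca, hca⟩ := residue_surjective (resO hsurj a)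
  obtain ⟨cb, hcb⟩ := residue_surjective (resO hsurj b)
  have ha : a - algebraMap 𝒪 A ca ∈ maximalIdeal A := by
    rw [← resO_eq_zero_iff hsurj, map_sub, resO_algebraMap, hca, sub_self]
  have hb : b - algebraMap 𝒪 A cb ∈ maximalIdeal A := by
    rw [← resO_eq_zero_iff hsurj, map_sub, resO_algebraMap, hcb, sub_self]
  have hprod : (a - algebraMap 𝒪 A ca) * (b - algebraMap 𝒪 A cb) ∈ tanIdeal 𝒪 A := by
    refine Ideal.mem_sup_right ?_
    rw [pow_two]
    exact Ideal.mul_mem_mul ha hb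
  have h0 : Ideal.Quotient.mk (tanIdeal 𝒪 A)
      ((a - algebraMap 𝒪 A ca) * (b - algebraMap 𝒪 A cb)) = 0 :=
    Ideal.Quotient.eq_zero_iff_mem.mpr hprod
  have h1 : Ideal.Quotient.mk (tanIdeal 𝒪 A) (a * b) =
      ca • Ideal.Quotient.mk (tanIdeal 𝒪 A) b + cb • Ideal.Quotient.mk (tanIdeal 𝒪 A) a -
        (ca * cb) • Ideal.Quotient.mk (tanIdeal 𝒪 A) 1 := by
    have : a * b = (a - algebraMap 𝒪 A ca) * (b - algebraMap 𝒪 A cb) +
        (ca • b + cb • a - (ca * cb) • (1 : A)) := by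
      simp only [Algebra.smul_def, map_mul]; ring
    rw [this, map_add, h0, zero_add]
    simp only [map_sub, map_add, Algebra.smul_def, map_mul]
    rfl
  rw [h1, map_sub, map_add, map_smul, map_smul, map_smul, smul_residueField, smul_residueField,
    smul_residueField, map_mul, hca, hcb]

end Res

section Hom

variable {𝒪 : Type*} [CommRing 𝒪] [IsLocalRing 𝒪]
  {A : Type*} [CommRing A] [IsLocalRing A] [Algebra 𝒪 A] [IsLocalHom (algebraMap 𝒪 A)]
  [Algebra 𝒪 (DualNumber (ResidueField 𝒪))]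

/-- The `𝒪`-algebra map `A → k[ε]` attached to an `𝒪`-linear functional on `A ⧸ tanIdeal`. -/
noncomputable def tanHom (hsurj : Function.Surjective (residue A ∘ algebraMap 𝒪 A))
    (halg : ∀ c : 𝒪, algebraMap 𝒪 (DualNumber (ResidueField 𝒪)) c =
      TrivSqZeroExt.inl (residue 𝒪 c))
    (l : (A ⧸ tanIdeal 𝒪 A) →ₗ[𝒪] ResidueField 𝒪) :
    A →ₐ[𝒪] DualNumber (ResidueField 𝒪) where
  toFun a := TrivSqZeroExt.inl (resO hsurj a) +
    TrivSqZeroExt.inr (l (Ideal.Quotient.mk _ a) - resO hsurj a * l (Ideal.Quotient.mk _ 1))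
  map_one' := by
    simp
  map_mul' a b := by
    rw [map_mk_mul hsurj l a b]
    ext
    · simp
    · simp
      ring
  map_zero' := by simp
  map_add' a b := by
    ext
    · simp
    · simp
      ring
  commutes' c := by
    rw [halg]
    ext
    · simp [resO_algebraMap]
    · have : Ideal.Quotient.mk (tanIdeal 𝒪 A) (algebraMap 𝒪 A c) =
          c • Ideal.Quotient.mk (tanIdeal 𝒪 A) 1 := by
        rw [Algebra.smul_def, map_one, mul_one]; rfl
      simp [resO_algebraMap, this, smul_residueField]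

theorem tanHom_apply (hsurj : Function.Surjective (residue A ∘ algebraMap 𝒪 A))
    (halg : ∀ c : 𝒪, algebraMap 𝒪 (DualNumber (ResidueField 𝒪)) c =
      TrivSqZeroExt.inl (residue 𝒪 c))
    (l : (A ⧸ tanIdeal 𝒪 A) →ₗ[𝒪] ResidueField 𝒪) (a : A) :
    tanHom hsurj halg l a = TrivSqZeroExt.inl (resO hsurj a) +
      TrivSqZeroExt.inr (l (Ideal.Quotient.mk _ a) - resO hsurj a * l (Ideal.Quotient.mk _ 1)) :=
  rfl

/-- `l ↦ (l 1, tanHom l)` is injective. -/
theorem tanHom_injective (hsurj : Function.Surjective (residue A ∘ algebraMap 𝒪 A))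
    (halg : ∀ c : 𝒪, algebraMap 𝒪 (DualNumber (ResidueField 𝒪)) c =
      TrivSqZeroExt.inl (residue 𝒪 c)) :
    Function.Injective fun l : (A ⧸ tanIdeal 𝒪 A) →ₗ[𝒪] ResidueField 𝒪 =>
      (l (Ideal.Quotient.mk _ 1), tanHom hsurj halg l) := by
  intro l l' h
  simp only [Prod.mk.injEq] at h
  obtain ⟨h1, h2⟩ := h
  refine LinearMap.ext fun x => ?_
  obtain ⟨a, rfl⟩ := Ideal.Quotient.mk_surjective x
  have := congrArg TrivSqZeroExt.snd (DFunLike.congr_fun h2 a)
  simp only [tanHom_apply, TrivSqZeroExt.snd_add, TrivSqZeroExt.snd_inl, TrivSqZeroExt.snd_inr,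
    zero_add, h1] at this
  simpa using this

end Hom

section Count

variable {𝒪 : Type*} [CommRing 𝒪] [IsLocalRing 𝒪]
  {A : Type*} [CommRing A] [IsLocalRing A] [Algebra 𝒪 A] [IsLocalHom (algebraMap 𝒪 A)]
  [Algebra 𝒪 (DualNumber (ResidueField 𝒪))]

theorem card_quotient_tanIdeal_le [Finite A] [Finite (ResidueField 𝒪)]
    (hsurj : Function.Surjective (residue A ∘ algebraMap 𝒪 A))
    (halg : ∀ c : 𝒪, algebraMap 𝒪 (DualNumber (ResidueField 𝒪)) c =
      TrivSqZeroExt.inl (residue 𝒪 c)) :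
    Nat.card (A ⧸ tanIdeal 𝒪 A) ≤
      Nat.card (ResidueField 𝒪) * Nat.card (A →ₐ[𝒪] DualNumber (ResidueField 𝒪)) := by
  have hT : Module.IsTorsionBySet 𝒪 (A ⧸ tanIdeal 𝒪 A) (maximalIdeal 𝒪 : Set 𝒪) := by
    intro x c
    obtain ⟨a, rfl⟩ := Ideal.Quotient.mk_surjective x
    change (c : 𝒪) • Ideal.Quotient.mk (tanIdeal 𝒪 A) a = 0
    rw [Algebra.smul_def]
    change Ideal.Quotient.mk (tanIdeal 𝒪 A) (algebraMap 𝒪 A c) * _ = 0
    rw [← map_mul, Ideal.Quotient.eq_zero_iff_mem]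
    exact Ideal.mul_mem_right _ _ (Ideal.mem_sup_left (Ideal.mem_map_of_mem _ c.2))
  letI : Module (ResidueField 𝒪) (A ⧸ tanIdeal 𝒪 A) := hT.module
  haveI : IsScalarTower 𝒪 (ResidueField 𝒪) (A ⧸ tanIdeal 𝒪 A) := hT.isScalarTower
  haveI : Finite (A ⧸ tanIdeal 𝒪 A) := Finite.of_surjective _ Ideal.Quotient.mk_surjective
  haveI : Module.Finite (ResidueField 𝒪) (A ⧸ tanIdeal 𝒪 A) := Module.Finite.of_finite
  -- cardinality of the dual
  have h1 : Nat.card (A ⧸ tanIdeal 𝒪 A) =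
      Nat.card (Module.Dual (ResidueField 𝒪) (A ⧸ tanIdeal 𝒪 A)) := by
    rw [Module.natCard_eq_pow_finrank (K := ResidueField 𝒪) (V := A ⧸ tanIdeal 𝒪 A),
      Module.natCard_eq_pow_finrank (K := ResidueField 𝒪)
        (V := Module.Dual (ResidueField 𝒪) (A ⧸ tanIdeal 𝒪 A)), Subspace.dual_finrank_eq]
  haveI : Finite (DualNumber (ResidueField 𝒪)) := by
    unfold DualNumber TrivSqZeroExt; infer_instance
  haveI : Finite (A →ₐ[𝒪] DualNumber (ResidueField 𝒪)) :=
    Finite.of_injective _ DFunLike.coe_injective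
  have h2 : Nat.card (Module.Dual (ResidueField 𝒪) (A ⧸ tanIdeal 𝒪 A)) ≤
      Nat.card (ResidueField 𝒪 × (A →ₐ[𝒪] DualNumber (ResidueField 𝒪))) := by
    refine Nat.card_le_card_of_injective
      (fun l => (fun l' : (A ⧸ tanIdeal 𝒪 A) →ₗ[𝒪] ResidueField 𝒪 =>
        (l' (Ideal.Quotient.mk _ 1), tanHom hsurj halg l')) (l.restrictScalars 𝒪)) ?_
    exact (tanHom_injective hsurj halg).comp (LinearMap.restrictScalars_injective 𝒪)
  rw [h1]
  refine h2.trans ?_
  rw [Nat.card_prod]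

end Count

section Gen

variable {𝒪 : Type*} [CommRing 𝒪] [IsLocalRing 𝒪]
  {A : Type*} [CommRing A] [IsLocalRing A] [Algebra 𝒪 A] [IsLocalHom (algebraMap 𝒪 A)]

/-- The maximal ideal of a finite local `𝒪`-algebra is generated by `𝔪_𝒪` and at most
`card (A ⧸ tanIdeal)` further elements. -/
theorem exists_finset_maximalIdeal_eq [Finite A] :
    ∃ s : Finset A, s.card ≤ Nat.card (A ⧸ tanIdeal 𝒪 A) ∧
      maximalIdeal A =
        Ideal.map (algebraMap 𝒪 A) (maximalIdeal 𝒪) ⊔ Ideal.span (s : Set A) := by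
  classical
  haveI : Finite (A ⧸ tanIdeal 𝒪 A) := Finite.of_surjective _ Ideal.Quotient.mk_surjective
  letI : Fintype (A ⧸ tanIdeal 𝒪 A) := Fintype.ofFinite _
  let σ : A ⧸ tanIdeal 𝒪 A → A := Function.surjInv Ideal.Quotient.mk_surjective
  have hσ : ∀ x, Ideal.Quotient.mk (tanIdeal 𝒪 A) (σ x) = x :=
    Function.surjInv_eq Ideal.Quotient.mk_surjective
  let s : Finset A := (Finset.univ.image σ).filter (· ∈ maximalIdeal A)
  refine ⟨s, ?_, ?_⟩
  · calc s.card ≤ (Finset.univ.image σ).card := Finset.card_filter_le _ _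
      _ ≤ (Finset.univ : Finset (A ⧸ tanIdeal 𝒪 A)).card := Finset.card_image_le
      _ = Nat.card (A ⧸ tanIdeal 𝒪 A) := by rw [Finset.card_univ, Nat.card_eq_fintype_card]
  · have hmap : Ideal.map (algebraMap 𝒪 A) (maximalIdeal 𝒪) ≤ maximalIdeal A :=
      le_sup_left.trans (tanIdeal_le (𝒪 := 𝒪) (A := A))
    have hs : Ideal.span (s : Set A) ≤ maximalIdeal A := by
      rw [Ideal.span_le]
      intro x hx
      exact (Finset.mem_filter.mp hx).2
    refine le_antisymm ?_ (sup_le hmap hs)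
    refine Submodule.le_of_le_smul_of_le_jacobson_bot (I := maximalIdeal A)
      (IsNoetherian.noetherian _) (maximalIdeal_le_jacobson ⊥) ?_
    intro m hm
    have h1 : m - σ (Ideal.Quotient.mk _ m) ∈ tanIdeal 𝒪 A := by
      rw [← Ideal.Quotient.eq, hσ]
    have h2 : σ (Ideal.Quotient.mk _ m) ∈ maximalIdeal A := by
      have := (maximalIdeal A).sub_mem hm (tanIdeal_le h1)
      simpa using this
    have h3 : σ (Ideal.Quotient.mk _ m) ∈ s := by
      refine Finset.mem_filter.mpr ⟨Finset.mem_image.mpr ⟨_, Finset.mem_univ _, rfl⟩, h2⟩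
    have h4 : m = (m - σ (Ideal.Quotient.mk _ m)) + σ (Ideal.Quotient.mk _ m) := by ring
    rw [h4]
    have h1' : m - σ (Ideal.Quotient.mk _ m) ∈
        Ideal.map (algebraMap 𝒪 A) (maximalIdeal 𝒪) ⊔ maximalIdeal A ^ 2 := h1
    rw [Submodule.mem_sup] at h1'
    obtain ⟨y, hy, z, hz, hyz⟩ := h1'
    rw [← hyz]
    have hz' : z ∈ maximalIdeal A • (maximalIdeal A : Submodule A A) := by
      rw [smul_eq_mul, ← pow_two]; exact hz
    have : y + z + σ (Ideal.Quotient.mk _ m) = (y + σ (Ideal.Quotient.mk _ m)) + z := by ring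
    rw [this]
    refine Submodule.add_mem_sup (Submodule.add_mem_sup hy (Ideal.subset_span h3)) hz'

end Gen

section Bound

variable {𝒪 : Type*} [CommRing 𝒪] [IsLocalRing 𝒪]
  {A : Type*} [CommRing A] [IsLocalRing A] [Algebra 𝒪 A] [IsLocalHom (algebraMap 𝒪 A)]
  [Algebra 𝒪 (DualNumber (ResidueField 𝒪))]

/-- **Tangent bound.** If `𝔪_𝒪 = (ϖ)`, `A` is a finite local `𝒪`-algebra with residue field `k`,
`𝔪_A ^ n = 0` and there are at most `c` `𝒪`-algebra maps `A → k[ε]`, then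
`|A| ≤ |k| ^ (∑_{i<n} (|k| c + 1)^i)`. -/
theorem card_le_of_card_algHom_le [Finite A] [Finite (ResidueField 𝒪)]
    (hsurj : Function.Surjective (residue A ∘ algebraMap 𝒪 A))
    (halg : ∀ c : 𝒪, algebraMap 𝒪 (DualNumber (ResidueField 𝒪)) c =
      TrivSqZeroExt.inl (residue 𝒪 c))
    (ϖ : 𝒪) (hϖ : maximalIdeal 𝒪 = Ideal.span {ϖ})
    (c : ℕ) (hc : Nat.card (A →ₐ[𝒪] DualNumber (ResidueField 𝒪)) ≤ c)
    (n : ℕ) (hn : maximalIdeal A ^ n = ⊥) :
    Nat.card A ≤ Nat.card (ResidueField 𝒪) ^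
      ∑ i ∈ Finset.range n, (Nat.card (ResidueField 𝒪) * c + 1) ^ i := by
  classical
  obtain ⟨s, hs, hmax⟩ := exists_finset_maximalIdeal_eq (𝒪 := 𝒪) (A := A)
  have hcard := card_quotient_tanIdeal_le (A := A) hsurj halg
  have hs' : s.card ≤ Nat.card (ResidueField 𝒪) * c :=
    hs.trans (hcard.trans (Nat.mul_le_mul_left _ hc))
  let s' : Finset A := insert (algebraMap 𝒪 A ϖ) s
  have hspan : Ideal.span (s' : Set A) = maximalIdeal A := by
    rw [hmax, hϖ, Ideal.map_span, Set.image_singleton, Finset.coe_insert, Ideal.span_insert]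
  haveI : Finite (A ⧸ maximalIdeal A) := Finite.of_surjective _ Ideal.Quotient.mk_surjective
  have hidx := Ideal.index_pow_le s' hspan n
  rw [hn] at hidx
  have hbot : (⊥ : Ideal A).toAddSubgroup.index = Nat.card A := by
    rw [Submodule.bot_toAddSubgroup, AddSubgroup.index_bot]
  have hk : (maximalIdeal A).toAddSubgroup.index = Nat.card (ResidueField 𝒪) := by
    change Nat.card (A ⧸ maximalIdeal A) = _
    exact Nat.card_congr (resEquiv hsurj).symm.toEquiv
  rw [hbot, hk] at hidx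
  refine hidx.trans (Nat.pow_le_pow_right Nat.card_pos ?_)
  refine Finset.sum_le_sum fun i _ => Nat.pow_le_pow_left ?_ i
  exact (Finset.card_insert_le _ _).trans (Nat.succ_le_succ hs')

end Bound

end Fermat.Agent.S53.Tangent
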