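import Mathlib
import Fermat.Prelude.Def_GaloisRep_DeformationCondition
import Fermat.Agent.S53.MatrixLayer
import Fermat.Agent.S53.FibreProduct
import Fermat.Agent.S53.Glue
import Fermat.Agent.S53.H5_Tangent
import Fermat.Agent.S53.NF

set_option autoImplicit false
set_option linter.style.haveILetI false
set_option linter.unusedSectionVars false

/-!
# Wiring of the tangent bound (package M3 for S53)

We connect the pure-algebra tangent bound of `H5_Tangent` with `GaloisRep.TangentFinite`.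
-/

open IsLocalRing

namespace Fermat.Agent.S53

section DualNumberAlg

variable (𝒪 : Type) [CommRing 𝒪] [IsLocalRing 𝒪]

/-- The `𝒪`-algebra structure on `k[ε]` used in `GaloisRep.TangentFinite`. -/
@[reducible] noncomputable def dualNumberAlgebra : Algebra 𝒪 (DualNumber (ResidueField 𝒪)) :=
  ((algebraMap (ResidueField 𝒪) (DualNumber (ResidueField 𝒪))).comp
    (algebraMap 𝒪 (ResidueField 𝒪))).toAlgebra

/-- The `k`-algebra structure on the residue field of `k[ε]` used in `GaloisRep.TangentFinite`. -/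
@[reducible] noncomputable def dualNumberResidueAlgebra :
    Algebra (ResidueField 𝒪) (ResidueField (DualNumber (ResidueField 𝒪))) :=
  ((IsLocalRing.residue (DualNumber (ResidueField 𝒪))).comp
    (algebraMap (ResidueField 𝒪) (DualNumber (ResidueField 𝒪)))).toAlgebra

attribute [local instance] dualNumberAlgebra dualNumberResidueAlgebra

theorem dualNumber_algebraMap_apply (c : 𝒪) :
    algebraMap 𝒪 (DualNumber (ResidueField 𝒪)) c = TrivSqZeroExt.inl (residue 𝒪 c) := rfl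

theorem dualNumber_mem_maximalIdeal_iff {K : Type} [Field K] (x : DualNumber K) :
    x ∈ maximalIdeal (DualNumber K) ↔ x.fst = 0 := by
  rw [mem_maximalIdeal, mem_nonunits_iff, TrivSqZeroExt.isUnit_iff_isUnit_fst, isUnit_iff_ne_zero,
    not_not]

instance isTestAlg_dualNumber : IsTestAlg 𝒪 (DualNumber (ResidueField 𝒪)) := by
  refine ⟨⟨fun c hc => ?_⟩, fun x => ?_⟩
  · rw [dualNumber_algebraMap_apply, TrivSqZeroExt.isUnit_iff_isUnit_fst,
      TrivSqZeroExt.fst_inl] at hc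
    exact isUnit_of_map_unit (residue 𝒪) c hc
  · obtain ⟨y, rfl⟩ := residue_surjective x
    obtain ⟨c, hc⟩ := residue_surjective y.fst
    refine ⟨c, ?_⟩
    change residue _ (algebraMap 𝒪 (DualNumber (ResidueField 𝒪)) c) = residue _ y
    rw [← sub_eq_zero, ← map_sub, residue_eq_zero_iff, dualNumber_mem_maximalIdeal_iff,
      dualNumber_algebraMap_apply, TrivSqZeroExt.fst_sub, TrivSqZeroExt.fst_inl, hc, sub_self]

instance finite_dualNumber {K : Type} [Field K] [Finite K] : Finite (DualNumber K) := by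
  unfold DualNumber TrivSqZeroExt; infer_instance

theorem dualNumber_maximalIdeal_sq {K : Type} [Field K] :
    maximalIdeal (DualNumber K) ^ 2 = ⊥ := by
  rw [DualNumber.maximalIdeal_eq_span_singleton_eps, Ideal.span_singleton_pow, pow_two,
    DualNumber.eps_mul_eps]
  simp

theorem residueField_map_dualNumber :
    haveI : IsLocalHom (algebraMap 𝒪 (DualNumber (ResidueField 𝒪))) := IsTestAlg.isLocalHom
    ResidueField.map (algebraMap 𝒪 (DualNumber (ResidueField 𝒪))) =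
      algebraMap (ResidueField 𝒪) (ResidueField (DualNumber (ResidueField 𝒪))) := by
  haveI : IsLocalHom (algebraMap 𝒪 (DualNumber (ResidueField 𝒪))) := IsTestAlg.isLocalHom
  ext x
  obtain ⟨c, rfl⟩ := residue_surjective x
  rw [ResidueField.map_residue]
  rfl

theorem baseChangeAlong_dualNumber (ρbar : ResidualGaloisRep (ResidueField 𝒪)) :
    haveI : IsLocalHom (algebraMap 𝒪 (DualNumber (ResidueField 𝒪))) := IsTestAlg.isLocalHom
    ρbar.baseChangeAlong (ResidueField.map (algebraMap 𝒪 (DualNumber (ResidueField 𝒪)))) =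
      ρbar.baseChange (ResidueField (DualNumber (ResidueField 𝒪))) := by
  haveI : IsLocalHom (algebraMap 𝒪 (DualNumber (ResidueField 𝒪))) := IsTestAlg.isLocalHom
  rw [residueField_map_dualNumber]
  rfl

variable (ρbar : ResidualGaloisRep (ResidueField 𝒪))
  (𝒟 : ∀ ⦃A : Type⦄ [CommRing A] [IsLocalRing A] [Algebra 𝒪 A], GaloisRepAdic A → Prop)

/-- The deformations of type `𝒟` of `ρbar` to the dual numbers. -/
def TanSub : Type 1 :=
  {ρ : GaloisRepAdic (DualNumber (ResidueField 𝒪)) //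
    𝒟 ρ ∧ ρ.residual.IsEquiv (ρbar.baseChange (ResidueField (DualNumber (ResidueField 𝒪))))}

/-- Equivalence of deformations to the dual numbers. -/
def tanSetoid : Setoid (TanSub 𝒪 ρbar 𝒟) :=
  ⟨fun ρ ρ' => ρ.1.IsEquiv ρ'.1, ⟨fun ρ => ⟨GaloisRepAdic.Equiv.refl ρ.1⟩,
    fun ⟨e⟩ => ⟨e.symm⟩, fun ⟨e⟩ ⟨e'⟩ => ⟨e.trans e'⟩⟩⟩

theorem tangentFinite_iff :
    GaloisRep.TangentFinite 𝒪 ρbar 𝒟 ↔ Finite (Quotient (tanSetoid 𝒪 ρbar 𝒟)) := Iff.rfl

end DualNumberAlg

section Wiring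

variable {𝒪 : Type} [CommRing 𝒪] [IsLocalRing 𝒪] [Finite (ResidueField 𝒪)]
  (ρbar : ResidualGaloisRep (ResidueField 𝒪))
  {𝒟 : ∀ ⦃A : Type⦄ [CommRing A] [IsLocalRing A] [Algebra 𝒪 A], GaloisRepAdic A → Prop}
  (h𝒟 : GaloisRep.IsDeformationCondition 𝒪 𝒟)
  {A : Type} [CommRing A] [IsLocalRing A] [Algebra 𝒪 A] [IsTestAlg 𝒪 A] [Finite A]

attribute [local instance] dualNumberAlgebra dualNumberResidueAlgebra

include h𝒟 in
/-- Pushing a representation of type `𝒟` forward along an `𝒪`-algebra map `A → k[ε]`. -/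
theorem cond_mapMat_dualNumber {r : GQ →* Matrix (Fin 2) (Fin 2) A} (hr : MatCont r)
    (hD : 𝒟 (ofMatrix r hr)) (f : A →ₐ[𝒪] DualNumber (ResidueField 𝒪)) :
    𝒟 (ofMatrix (mapMat (f : A →+* DualNumber (ResidueField 𝒪)) r)
      (matCont_mapMat _ (isLocalHom_of_algHom 𝒪 f) hr)) := by
  have hkε : GaloisRep.IsArtinianTestAlgebra 𝒪 (DualNumber (ResidueField 𝒪)) :=
    isArtinianTestAlgebra_of_finite 𝒪
  have h1 := h𝒟.baseChangeAlong (isArtinianTestAlgebra_of_finite 𝒪) hkε f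
    (isLocalHom_of_algHom 𝒪 f) hD
  exact h𝒟.of_isEquiv hkε (baseChangeAlong_ofMatrix_isEquiv _ (isLocalHom_of_algHom 𝒪 f) hr) h1

include h𝒟 in
/-- **Tangent wiring.** The number of `𝒪`-algebra maps `A → k[ε]` is bounded by the number of
equivalence classes of deformations of type `𝒟` to `k[ε]`. -/
theorem card_algHom_dualNumber_le (hfin : GaloisRep.TangentFinite 𝒪 ρbar 𝒟)
    {r : GQ →* Matrix (Fin 2) (Fin 2) A} (hr : MatCont r) (hD : 𝒟 (ofMatrix r hr))
    (hgen : Algebra.adjoin 𝒪 {x : A | ∃ g i j, x = r g i j} = ⊤)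
    (hres : ∀ f : A →ₐ[𝒪] DualNumber (ResidueField 𝒪),
      (ofMatrix (mapMat (f : A →+* DualNumber (ResidueField 𝒪)) r)
        (matCont_mapMat _ (isLocalHom_of_algHom 𝒪 f) hr)).residual.IsEquiv
        (ρbar.baseChange (ResidueField (DualNumber (ResidueField 𝒪)))))
    (huniq : ∀ f f' : A →ₐ[𝒪] DualNumber (ResidueField 𝒪),
      (ofMatrix (mapMat (f : A →+* DualNumber (ResidueField 𝒪)) r)
        (matCont_mapMat _ (isLocalHom_of_algHom 𝒪 f) hr)).IsEquiv
      (ofMatrix (mapMat (f' : A →+* DualNumber (ResidueField 𝒪)) r)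
        (matCont_mapMat _ (isLocalHom_of_algHom 𝒪 f') hr)) →
      mapMat (f : A →+* DualNumber (ResidueField 𝒪)) r =
        mapMat (f' : A →+* DualNumber (ResidueField 𝒪)) r) :
    Nat.card (A →ₐ[𝒪] DualNumber (ResidueField 𝒪)) ≤
      Nat.card (Quotient (tanSetoid 𝒪 ρbar 𝒟)) := by
  haveI : Finite (Quotient (tanSetoid 𝒪 ρbar 𝒟)) := (tangentFinite_iff 𝒪 ρbar 𝒟).mp hfin
  let F : (A →ₐ[𝒪] DualNumber (ResidueField 𝒪)) → Quotient (tanSetoid 𝒪 ρbar 𝒟) := fun f =>
    Quotient.mk _ ⟨_, cond_mapMat_dualNumber h𝒟 hr hD f, hres f⟩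
  refine Nat.card_le_card_of_injective F fun f f' hff' => ?_
  have h1 : (ofMatrix (mapMat (f : A →+* DualNumber (ResidueField 𝒪)) r)
        (matCont_mapMat _ (isLocalHom_of_algHom 𝒪 f) hr)).IsEquiv
      (ofMatrix (mapMat (f' : A →+* DualNumber (ResidueField 𝒪)) r)
        (matCont_mapMat _ (isLocalHom_of_algHom 𝒪 f') hr)) := Quotient.exact hff'
  have h2 := huniq f f' h1
  refine AlgHom.ext_of_adjoin_eq_top hgen ?_
  rintro x ⟨g, i, j, rfl⟩
  exact congrArg (fun s : GQ →* Matrix (Fin 2) (Fin 2) (DualNumber (ResidueField 𝒪)) => s g i j) h2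

include h𝒟 in
/-- The resulting bound on the cardinality of `A` when `𝔪_A ^ n = 0`. -/
theorem card_le_of_tangentFinite (ϖ : 𝒪) (hϖ : maximalIdeal 𝒪 = Ideal.span {ϖ})
    (hfin : GaloisRep.TangentFinite 𝒪 ρbar 𝒟)
    {r : GQ →* Matrix (Fin 2) (Fin 2) A} (hr : MatCont r) (hD : 𝒟 (ofMatrix r hr))
    (hgen : Algebra.adjoin 𝒪 {x : A | ∃ g i j, x = r g i j} = ⊤)
    (hres : ∀ f : A →ₐ[𝒪] DualNumber (ResidueField 𝒪),
      (ofMatrix (mapMat (f : A →+* DualNumber (ResidueField 𝒪)) r)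
        (matCont_mapMat _ (isLocalHom_of_algHom 𝒪 f) hr)).residual.IsEquiv
        (ρbar.baseChange (ResidueField (DualNumber (ResidueField 𝒪)))))
    (huniq : ∀ f f' : A →ₐ[𝒪] DualNumber (ResidueField 𝒪),
      (ofMatrix (mapMat (f : A →+* DualNumber (ResidueField 𝒪)) r)
        (matCont_mapMat _ (isLocalHom_of_algHom 𝒪 f) hr)).IsEquiv
      (ofMatrix (mapMat (f' : A →+* DualNumber (ResidueField 𝒪)) r)
        (matCont_mapMat _ (isLocalHom_of_algHom 𝒪 f') hr)) →
      mapMat (f : A →+* DualNumber (ResidueField 𝒪)) r =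
        mapMat (f' : A →+* DualNumber (ResidueField 𝒪)) r)
    (n : ℕ) (hn : maximalIdeal A ^ n = ⊥) :
    Nat.card A ≤ Nat.card (ResidueField 𝒪) ^
      ∑ i ∈ Finset.range n, (Nat.card (ResidueField 𝒪) *
        Nat.card (Quotient (tanSetoid 𝒪 ρbar 𝒟)) + 1) ^ i := by
  haveI : IsLocalHom (algebraMap 𝒪 A) := IsTestAlg.isLocalHom
  exact Tangent.card_le_of_card_algHom_le (A := A) IsTestAlg.residue_surjective
    (dualNumber_algebraMap_apply 𝒪) ϖ hϖ _
    (card_algHom_dualNumber_le ρbar h𝒟 hfin hr hD hgen hres huniq) n hn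

include h𝒟 in
/-- **Cardinality bound for normal-form test objects** whose entries generate. -/
theorem card_le_of_isNF {ρbar : ResidualGaloisRep (ResidueField 𝒪)} (D : NFData 𝒪 ρbar)
    (ϖ : 𝒪) (hϖ : maximalIdeal 𝒪 = Ideal.span {ϖ})
    (hfin : GaloisRep.TangentFinite 𝒪 ρbar 𝒟)
    [IsLocalHom (algebraMap 𝒪 A)]
    {r : GQ →* Matrix (Fin 2) (Fin 2) A} (hr : MatCont r) (hnf : IsNF D A r)
    (hD : 𝒟 (ofMatrix r hr))
    (hgen : Algebra.adjoin 𝒪 {x : A | ∃ g i j, x = r g i j} = ⊤)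
    (n : ℕ) (hn : maximalIdeal A ^ n = ⊥) :
    Nat.card A ≤ Nat.card (ResidueField 𝒪) ^
      ∑ i ∈ Finset.range n, (Nat.card (ResidueField 𝒪) *
        Nat.card (Quotient (tanSetoid 𝒪 ρbar 𝒟)) + 1) ^ i := by
  haveI : IsLocalHom (algebraMap 𝒪 (DualNumber (ResidueField 𝒪))) := IsTestAlg.isLocalHom
  refine card_le_of_tangentFinite ρbar h𝒟 ϖ hϖ hfin hr hD hgen (fun f => ?_) (fun f f' he => ?_)
    n hn
  · have h1 := (hnf.map D f (isLocalHom_of_algHom 𝒪 f)).residual_isEquiv D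
      (matCont_mapMat _ (isLocalHom_of_algHom 𝒪 f) hr)
    rw [baseChangeAlong_dualNumber] at h1
    exact h1
  · exact IsNF.eq_of_isEquiv D (hnf.map D f (isLocalHom_of_algHom 𝒪 f))
      (hnf.map D f' (isLocalHom_of_algHom 𝒪 f')) _ _ he

end Wiring

end Fermat.Agent.S53
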