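import Mathlib
import Fermat.Agent.S53.GoodNF
import Fermat.Agent.S53.TangentWiring

/-!
# S53 support: uniform cardinality bound for good ideals of a given level (input `hcard` of
`exists_least_tower`)
-/

set_option autoImplicit false
set_option linter.style.haveILetI false
set_option linter.unusedSectionVars false

open IsLocalRing

namespace Fermat.Agent.S53

section

variable {𝒪 : Type} [CommRing 𝒪] [IsLocalRing 𝒪] [Finite (ResidueField 𝒪)]
  {ρbar : ResidualGaloisRep (ResidueField 𝒪)} (D : NFData 𝒪 ρbar)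
  {𝒟 : ∀ ⦃A : Type⦄ [CommRing A] [IsLocalRing A] [Algebra 𝒪 A], GaloisRepAdic A → Prop}

/-- The quotients by good ideals of level `n` have uniformly bounded cardinality. -/
theorem goodLevel_card_le (h𝒟 : GaloisRep.IsDeformationCondition 𝒪 𝒟)
    (ϖ : 𝒪) (hϖ : maximalIdeal 𝒪 = Ideal.span {ϖ})
    (hfin : GaloisRep.TangentFinite 𝒪 ρbar 𝒟) (n : ℕ) :
    ∃ C : ℕ, ∀ 𝔞 ∈ goodLevel (NFpred D) 𝒟 D.rbar n, Nat.card (Theta 𝒪 ⧸ 𝔞) ≤ C := by
  refine ⟨Nat.card (ResidueField 𝒪) ^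
      ∑ i ∈ Finset.range (n + 1), (Nat.card (ResidueField 𝒪) *
        Nat.card (Quotient (tanSetoid 𝒪 ρbar 𝒟)) + 1) ^ i, fun 𝔞 h => ?_⟩
  haveI := h.1.isLocalRing
  haveI := h.1.isTestAlg
  haveI := h.1.finite
  have T := h.1.isTestObj_taut (nfAxioms D) h𝒟
  exact card_le_of_isNF h𝒟 D ϖ hϖ hfin T.cont T.nf T.isD
    (adjoin_taut_eq_top 𝔞 h.1.isTautHom) (n + 1) (goodLevel_maximalIdeal_pow (nfAxioms D) h)

end

end Fermat.Agent.S53
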