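import Mathlib

set_option autoImplicit false

/-!
# Least elements of families of ideals of bounded index (package M4.5 for S53)

* `exists_least_of_card_le` : a nonempty family of ideals of finite, uniformly bounded index which
  is closed under binary intersection has a least element.
* `exists_least_tower` : a sequence `J n` of such families, linked by `J n ⊆ J (n+1)` and
  `a ∈ J (n+1) → a ⊔ 𝔐^(n+1) ∈ J n`, has least elements `a n` with `a n = a (n+1) ⊔ 𝔐^(n+1)`.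
-/

namespace Fermat.Agent.S53

section Least

variable {Θ : Type*} [CommRing Θ]

/-- If `a ≤ b` are ideals of finite index with `card (Θ/b) ≥ card (Θ/a)`, then `a = b`. -/
theorem ideal_eq_of_le_of_card_le {a b : Ideal Θ} (hab : a ≤ b) [Finite (Θ ⧸ a)]
    (hcard : Nat.card (Θ ⧸ a) ≤ Nat.card (Θ ⧸ b)) : a = b := by
  have hsurj : Function.Surjective (Ideal.Quotient.factor hab) :=
    Ideal.Quotient.factor_surjective hab
  haveI : Finite (Θ ⧸ b) := Finite.of_surjective _ hsurj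
  have hle : Nat.card (Θ ⧸ b) ≤ Nat.card (Θ ⧸ a) := Nat.card_le_card_of_surjective _ hsurj
  have hbij : Function.Bijective (Ideal.Quotient.factor hab) := by
    rw [Nat.bijective_iff_surjective_and_card]
    exact ⟨hsurj, le_antisymm hle hcard |>.symm ▸ rfl⟩
  refine le_antisymm hab fun x hx => ?_
  have h1 : Ideal.Quotient.factor hab (Ideal.Quotient.mk a x) = 0 := by
    rw [Ideal.Quotient.factor_mk]
    exact Ideal.Quotient.eq_zero_iff_mem.mpr hx
  have h2 : Ideal.Quotient.mk a x = 0 := hbij.1 (by rw [h1, map_zero])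
  exact Ideal.Quotient.eq_zero_iff_mem.mp h2

/-- A nonempty family of ideals of finite, uniformly bounded index which is closed under binary
intersections has a least element. -/
theorem exists_least_of_card_le (J : Set (Ideal Θ)) (hne : J.Nonempty)
    (hinf : ∀ a ∈ J, ∀ b ∈ J, a ⊓ b ∈ J)
    (hfin : ∀ a ∈ J, Finite (Θ ⧸ a))
    (hcard : ∃ C : ℕ, ∀ a ∈ J, Nat.card (Θ ⧸ a) ≤ C) :
    ∃ a ∈ J, ∀ b ∈ J, a ≤ b := by
  classical
  obtain ⟨C, hC⟩ := hcard
  -- the set of attained cardinalities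
  let S : Set ℕ := {m | ∃ a ∈ J, Nat.card (Θ ⧸ a) = m}
  have hSne : S.Nonempty := by
    obtain ⟨a, ha⟩ := hne
    exact ⟨_, a, ha, rfl⟩
  have hSbdd : BddAbove S := ⟨C, by rintro m ⟨a, ha, rfl⟩; exact hC a ha⟩
  obtain ⟨a, ha, hmax⟩ : ∃ a ∈ J, ∀ b ∈ J, Nat.card (Θ ⧸ b) ≤ Nat.card (Θ ⧸ a) := by
    have hmem := Nat.sSup_mem hSne hSbdd
    obtain ⟨a, ha, hacard⟩ := hmem
    refine ⟨a, ha, fun b hb => ?_⟩
    rw [hacard]
    exact le_csSup hSbdd ⟨b, hb, rfl⟩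
  refine ⟨a, ha, fun b hb => ?_⟩
  have hab : a ⊓ b ∈ J := hinf a ha b hb
  haveI := hfin _ hab
  have := ideal_eq_of_le_of_card_le (a := a ⊓ b) (b := a) inf_le_left (hmax _ hab)
  rw [← this]
  exact inf_le_right

/-- Least elements of a tower of families of ideals. -/
theorem exists_least_tower (𝔐 : Ideal Θ) (J : ℕ → Set (Ideal Θ))
    (hne : ∀ n, (J n).Nonempty)
    (hinf : ∀ n, ∀ a ∈ J n, ∀ b ∈ J n, a ⊓ b ∈ J n)
    (hfin : ∀ n, ∀ a ∈ J n, Finite (Θ ⧸ a))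
    (hcard : ∀ n, ∃ C : ℕ, ∀ a ∈ J n, Nat.card (Θ ⧸ a) ≤ C)
    (hpow : ∀ n, ∀ a ∈ J n, 𝔐 ^ (n + 1) ≤ a)
    (hmono : ∀ n, J n ⊆ J (n + 1))
    (hsup : ∀ n, ∀ a ∈ J (n + 1), a ⊔ 𝔐 ^ (n + 1) ∈ J n) :
    ∃ a : ℕ → Ideal Θ, (∀ n, a n ∈ J n) ∧ (∀ n, ∀ b ∈ J n, a n ≤ b) ∧
      ∀ n, a n = a (n + 1) ⊔ 𝔐 ^ (n + 1) := by
  choose a ha hleast using fun n =>
    exists_least_of_card_le (J n) (hne n) (hinf n) (hfin n) (hcard n)
  refine ⟨a, ha, hleast, fun n => le_antisymm ?_ ?_⟩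
  · exact hleast n _ (hsup n _ (ha (n + 1)))
  · exact sup_le (hleast (n + 1) _ (hmono n (ha n))) (hpow n _ (ha n))

end Least

end Fermat.Agent.S53
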