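import Mathlib

set_option autoImplicit false
set_option linter.unusedSectionVars false

/-!
# Inverse limits of towers of finite local rings (package M4 for S53)

Given a tower `π n : R (n+1) →ₐ[𝒪] R n` of finite local `𝒪`-algebras with surjective transition
maps such that `ker (π n) = (maximalIdeal (R (n+1))) ^ (n+1)`, the inverse limit `Lim π` is a
complete Noetherian local ring with `Lim π ⧸ 𝔪 ^ (n+1) ≃ R n`.
-/

namespace Fermat.Agent.S53

open CategoryTheory IsLocalRing

universe u v

/-- König's lemma for sequences of finite nonempty types. -/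
theorem exists_compatible_of_finite {S : ℕ → Type u} [∀ n, Finite (S n)] [∀ n, Nonempty (S n)]
    (t : ∀ n, S (n + 1) → S n) : ∃ s : ∀ n, S n, ∀ n, t n (s (n + 1)) = s n := by
  let F : ℕᵒᵖ ⥤ Type u := Functor.ofOpSequence (X := fun n => S n) (fun n => TypeCat.ofHom (t n))
  have : ∀ j : ℕᵒᵖ, Finite (F.obj j) := fun j => inferInstanceAs (Finite (S j.unop))
  have : ∀ j : ℕᵒᵖ, Nonempty (F.obj j) := fun j => inferInstanceAs (Nonempty (S j.unop))
  obtain ⟨s, hs⟩ := nonempty_sections_of_finite_inverse_system F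
  refine ⟨fun n => s (Opposite.op n), fun n => ?_⟩
  have := hs (homOfLE (Nat.le_add_right n 1)).op
  rw [Functor.ofOpSequence_map_homOfLE_succ] at this
  exact this

/-- Compatible sequences through a given element, for surjective transition maps. -/
theorem exists_compatible_seq : ∀ (n : ℕ) {X : ℕ → Type u} (t : ∀ n, X (n + 1) → X n)
    (_ : ∀ n, Function.Surjective (t n)) (r : X n),
    ∃ f : ∀ m, X m, (∀ m, t m (f (m + 1)) = f m) ∧ f n = r := by
  intro n
  induction n with
  | zero =>
    intro X t ht r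
    refine ⟨fun m => Nat.rec (motive := X) r (fun m x => Function.surjInv (ht m) x) m,
      fun m => ?_, rfl⟩
    exact Function.surjInv_eq (ht m) _
  | succ n ih =>
    intro X t ht r
    obtain ⟨f, hf, hfn⟩ := ih (X := fun m => X (m + 1)) (fun m => t (m + 1))
      (fun m => ht (m + 1)) r
    refine ⟨fun m => match m with
      | 0 => t 0 (f 0)
      | m + 1 => f m, fun m => ?_, hfn⟩
    cases m with
    | zero => rfl
    | succ m => exact hf m

section Tower

variable {𝒪 : Type v} [CommRing 𝒪] {R : ℕ → Type u} [∀ n, CommRing (R n)]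
  [∀ n, Algebra 𝒪 (R n)] (π : ∀ n, R (n + 1) →ₐ[𝒪] R n)

/-- The inverse limit of the tower, as a subalgebra of the product. -/
def limSubalgebra : Subalgebra 𝒪 (∀ n, R n) where
  carrier := {x | ∀ n, π n (x (n + 1)) = x n}
  mul_mem' {x y} hx hy n := by simp only [Pi.mul_apply, map_mul, hx n, hy n]
  add_mem' {x y} hx hy n := by simp only [Pi.add_apply, map_add, hx n, hy n]
  algebraMap_mem' r n := by simp only [Pi.algebraMap_apply, AlgHom.commutes]

/-- The inverse limit ring. -/
abbrev Lim : Type u := ↥(limSubalgebra π)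

/-- Projection to level `n`. -/
def proj (n : ℕ) : Lim π →ₐ[𝒪] R n :=
  (Pi.evalAlgHom 𝒪 R n).comp (limSubalgebra π).val

variable {π}

@[simp] theorem proj_apply (n : ℕ) (x : Lim π) : proj π n x = x.1 n := rfl

theorem proj_compat (n : ℕ) (x : Lim π) : π n (proj π (n + 1) x) = proj π n x := x.2 n

theorem lim_ext {x y : Lim π} (h : ∀ n, proj π n x = proj π n y) : x = y :=
  Subtype.ext (funext h)

/-- Build an element of the limit from a compatible sequence. -/
def Lim.mk (f : ∀ n, R n) (hf : ∀ n, π n (f (n + 1)) = f n) : Lim π := ⟨f, hf⟩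

@[simp] theorem proj_mk (f : ∀ n, R n) (hf : ∀ n, π n (f (n + 1)) = f n) (n : ℕ) :
    proj π n (Lim.mk f hf) = f n := rfl

theorem proj_surjective (hπ : ∀ n, Function.Surjective (π n)) (n : ℕ) :
    Function.Surjective (proj π n) := by
  intro r
  obtain ⟨f, hf, hfn⟩ := exists_compatible_seq n (fun m => (π m : R (m + 1) → R m)) hπ r
  exact ⟨Lim.mk f hf, hfn⟩

theorem ker_proj_succ_le (n : ℕ) : RingHom.ker (proj π (n + 1)) ≤ RingHom.ker (proj π n) := by
  intro x hx
  rw [RingHom.mem_ker] at hx ⊢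
  rw [← proj_compat, hx, map_zero]

theorem ker_proj_antitone {n m : ℕ} (h : n ≤ m) :
    RingHom.ker (proj π m) ≤ RingHom.ker (proj π n) := by
  induction h with
  | refl => exact le_rfl
  | step _ ih => exact (ker_proj_succ_le _).trans ih

theorem map_proj_succ_ker (hπ : ∀ n, Function.Surjective (π n)) (n : ℕ) :
    (RingHom.ker (proj π n)).map (proj π (n + 1)) = RingHom.ker (π n) := by
  apply le_antisymm
  · rw [Ideal.map_le_iff_le_comap]
    intro x hx
    rw [Ideal.mem_comap, RingHom.mem_ker, proj_compat]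
    exact hx
  · intro u hu
    obtain ⟨x, rfl⟩ := proj_surjective hπ (n + 1) u
    apply Ideal.mem_map_of_mem
    rw [RingHom.mem_ker] at hu ⊢
    rw [← proj_compat]; exact hu

section Local

variable [∀ n, IsLocalRing (R n)]

theorem isUnit_proj_of_isUnit_proj_zero (hπ : ∀ n, Function.Surjective (π n)) (x : Lim π)
    (h : IsUnit (proj π 0 x)) : ∀ n, IsUnit (proj π n x) := by
  intro n
  induction n with
  | zero => exact h
  | succ n ih =>
    have : IsLocalHom (π n : R (n + 1) →+* R n) := IsLocalHom.of_surjective _ (hπ n)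
    apply isUnit_of_map_unit (π n : R (n + 1) →+* R n)
    change IsUnit (π n (proj π (n + 1) x))
    rw [proj_compat]; exact ih

theorem isUnit_of_isUnit_proj_zero (hπ : ∀ n, Function.Surjective (π n)) (x : Lim π)
    (h : IsUnit (proj π 0 x)) : IsUnit x := by
  have hu := isUnit_proj_of_isUnit_proj_zero hπ x h
  have hinv : ∀ n, π n (↑(hu (n + 1)).unit⁻¹) = ↑(hu n).unit⁻¹ := by
    intro n
    have h1 : π n (↑(hu (n + 1)).unit⁻¹) * proj π n x = 1 := by
      have h3 : (↑(hu (n + 1)).unit⁻¹ : R (n + 1)) * proj π (n + 1) x = 1 :=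
        (hu (n + 1)).val_inv_mul
      have h4 := congrArg (π n) h3
      rwa [map_mul, map_one, proj_compat] at h4
    have h2 : proj π n x * ↑(hu n).unit⁻¹ = 1 := (hu n).mul_val_inv
    calc π n (↑(hu (n + 1)).unit⁻¹) = π n (↑(hu (n + 1)).unit⁻¹) * (proj π n x * ↑(hu n).unit⁻¹) := by
          rw [h2, mul_one]
      _ = ↑(hu n).unit⁻¹ := by rw [← mul_assoc, h1, one_mul]
  refine IsUnit.of_mul_eq_one (Lim.mk (fun n => ↑(hu n).unit⁻¹) hinv) ?_
  apply lim_ext
  intro n
  rw [map_mul, proj_mk, map_one]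
  exact (hu n).mul_val_inv

theorem isLocalHom_proj_zero (hπ : ∀ n, Function.Surjective (π n)) :
    IsLocalHom (proj π 0 : Lim π →+* R 0) :=
  ⟨fun x hx => isUnit_of_isUnit_proj_zero hπ x hx⟩

theorem isLocalRing_lim (hπ : ∀ n, Function.Surjective (π n)) : IsLocalRing (Lim π) :=
  have := isLocalHom_proj_zero hπ
  RingHom.domain_isLocalRing (proj π 0 : Lim π →+* R 0)

theorem isLocalHom_proj (hπ : ∀ n, Function.Surjective (π n)) (n : ℕ) :
    IsLocalHom (proj π n : Lim π →+* R n) := by
  refine ⟨fun x hx => isUnit_of_isUnit_proj_zero hπ x ?_⟩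
  induction n with
  | zero => exact hx
  | succ n ih =>
    apply ih
    have h1 := hx.map (π n)
    have h2 : π n ((proj π (n + 1) : Lim π →+* R (n + 1)) x) = (proj π n : Lim π →+* R n) x :=
      proj_compat n x
    rwa [h2] at h1

end Local

end Tower

/-- Elements of `span (range v) * J` are sums `∑ v i * c i` with `c i ∈ J`. -/
theorem exists_sum_of_mem_span_range_mul {A : Type*} [CommRing A] {ι : Type*} [Fintype ι]
    (v : ι → A) (J : Ideal A) {x : A} (hx : x ∈ Ideal.span (Set.range v) * J) :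
    ∃ c : ι → A, (∀ i, c i ∈ J) ∧ x = ∑ i, v i * c i := by
  classical
  refine Submodule.mul_induction_on hx ?_ ?_
  · intro a ha b hb
    obtain ⟨d, rfl⟩ := (Ideal.mem_span_range_iff_exists_fun).mp ha
    refine ⟨fun i => d i * b, fun i => J.mul_mem_left _ hb, ?_⟩
    rw [Finset.sum_mul]
    exact Finset.sum_congr rfl fun i _ => by ring
  · rintro x y ⟨c, hc, rfl⟩ ⟨d, hd, rfl⟩
    refine ⟨fun i => c i + d i, fun i => J.add_mem (hc i) (hd i), ?_⟩
    rw [← Finset.sum_add_distrib]
    exact Finset.sum_congr rfl fun i _ => by ring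

section Structure

variable {𝒪 : Type v} [CommRing 𝒪] {R : ℕ → Type u} [∀ n, CommRing (R n)]
  [∀ n, Algebra 𝒪 (R n)] {π : ∀ n, R (n + 1) →ₐ[𝒪] R n} [∀ n, IsLocalRing (R n)]

theorem map_pi_comp_proj (n : ℕ) (J : Ideal (Lim π)) :
    (J.map (proj π (n + 1))).map (π n) = J.map (proj π n) := by
  apply le_antisymm
  · rw [Ideal.map_le_iff_le_comap, Ideal.map_le_iff_le_comap]
    intro x hx
    rw [Ideal.mem_comap, Ideal.mem_comap, proj_compat]
    exact Ideal.mem_map_of_mem _ hx
  · rw [Ideal.map_le_iff_le_comap]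
    intro x hx
    rw [Ideal.mem_comap, ← proj_compat]
    exact Ideal.mem_map_of_mem _ (Ideal.mem_map_of_mem _ hx)

theorem maximalIdeal_pow_eq_bot (hπ : ∀ n, Function.Surjective (π n))
    (hker : ∀ n, RingHom.ker (π n) = maximalIdeal (R (n + 1)) ^ (n + 1)) (n : ℕ) :
    maximalIdeal (R n) ^ (n + 1) = ⊥ := by
  have h1 : (maximalIdeal (R (n + 1))).map (π n) = maximalIdeal (R n) :=
    map_maximalIdeal_of_surjective (π n : R (n + 1) →+* R n) (hπ n)
  rw [← h1, ← Ideal.map_pow, ← hker n]
  exact (Ideal.map_eq_bot_iff_le_ker _).mpr le_rfl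

variable [IsLocalRing (Lim π)]

theorem map_proj_maximalIdeal (hπ : ∀ n, Function.Surjective (π n)) (n : ℕ) :
    (maximalIdeal (Lim π)).map (proj π n) = maximalIdeal (R n) :=
  map_maximalIdeal_of_surjective (proj π n : Lim π →+* R n) (proj_surjective hπ n)

omit [IsLocalRing (Lim π)] in
/-- Lemma T: the image of `ker (proj n)` at level `j ≥ n` is `𝔪_j ^ (n+1)`. -/
theorem map_proj_ker_proj (hπ : ∀ n, Function.Surjective (π n))
    (hker : ∀ n, RingHom.ker (π n) = maximalIdeal (R (n + 1)) ^ (n + 1)) {n j : ℕ} (hnj : n ≤ j) :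
    (RingHom.ker (proj π n)).map (proj π j) = maximalIdeal (R j) ^ (n + 1) := by
  induction j, hnj using Nat.le_induction with
  | base =>
    rw [maximalIdeal_pow_eq_bot hπ hker n]
    exact (Ideal.map_eq_bot_iff_le_ker _).mpr le_rfl
  | succ j hnj ih =>
    set A := (RingHom.ker (proj π n)).map (proj π (j + 1)) with hA
    set B := maximalIdeal (R (j + 1)) ^ (n + 1) with hB
    have hAmap : A.map (π j) = maximalIdeal (R j) ^ (n + 1) := by
      rw [hA, map_pi_comp_proj, ih]
    have hBmap : B.map (π j) = maximalIdeal (R j) ^ (n + 1) := by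
      rw [hB, Ideal.map_pow]
      congr 1
      exact map_maximalIdeal_of_surjective (π j : R (j + 1) →+* R j) (hπ j)
    have hkerA : RingHom.ker (π j) ≤ A := by
      rw [← map_proj_succ_ker hπ j]
      exact Ideal.map_mono (ker_proj_antitone hnj)
    have hkerB : RingHom.ker (π j) ≤ B := by
      rw [hker j]
      exact Ideal.pow_le_pow_right (by omega)
    have h1 : A = (A.map (π j)).comap (π j) := by
      rw [Ideal.comap_map_of_surjective _ (hπ j)]
      exact (sup_eq_left.mpr hkerA).symm
    have h2 : B = (B.map (π j)).comap (π j) := by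
      rw [Ideal.comap_map_of_surjective _ (hπ j)]
      exact (sup_eq_left.mpr hkerB).symm
    rw [h1, h2, hAmap, hBmap]

/-- `K' n`: `⊤` for `n = 0` and `ker (proj (n-1))` otherwise. -/
def kerFil (π : ∀ n, R (n + 1) →ₐ[𝒪] R n) : ℕ → Ideal (Lim π)
  | 0 => ⊤
  | n + 1 => RingHom.ker (proj π n)

omit [∀ n, IsLocalRing (R n)] [IsLocalRing (Lim π)] in
theorem kerFil_succ (n : ℕ) : kerFil π (n + 1) = RingHom.ker (proj π n) := rfl

theorem map_proj_kerFil (hπ : ∀ n, Function.Surjective (π n))
    (hker : ∀ n, RingHom.ker (π n) = maximalIdeal (R (n + 1)) ^ (n + 1)) {n j : ℕ}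
    (hnj : n ≤ j + 1) :
    (kerFil π n).map (proj π j) = maximalIdeal (R j) ^ n := by
  cases n with
  | zero =>
    rw [pow_zero, Ideal.one_eq_top]
    exact Ideal.map_top _
  | succ n => exact map_proj_ker_proj hπ hker (by omega)

theorem maximalIdeal_pow_le_kerFil (hπ : ∀ n, Function.Surjective (π n))
    (hker : ∀ n, RingHom.ker (π n) = maximalIdeal (R (n + 1)) ^ (n + 1)) (n : ℕ) :
    maximalIdeal (Lim π) ^ n ≤ kerFil π n := by
  cases n with
  | zero => exact le_top
  | succ n =>
    rw [kerFil_succ, ← Ideal.map_eq_bot_iff_le_ker, Ideal.map_pow, map_proj_maximalIdeal hπ,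
      maximalIdeal_pow_eq_bot hπ hker]

section Generators

variable [∀ n, Finite (R n)] {s : ℕ} (y : Fin s → Lim π)

/-- Claim A: generators of `𝔪_1` lifted to the limit generate `𝔪_n` at every level. -/
theorem map_proj_span_eq_maximalIdeal (hπ : ∀ n, Function.Surjective (π n))
    (hker : ∀ n, RingHom.ker (π n) = maximalIdeal (R (n + 1)) ^ (n + 1))
    (hy : ∀ i, y i ∈ maximalIdeal (Lim π))
    (hy1 : Ideal.span (Set.range fun i => proj π 1 (y i)) = maximalIdeal (R 1)) (n : ℕ) :
    (Ideal.span (Set.range y)).map (proj π n) = maximalIdeal (R n) := by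
  have hle : ∀ n, (Ideal.span (Set.range y)).map (proj π n) ≤ maximalIdeal (R n) := by
    intro n
    rw [← map_proj_maximalIdeal hπ n]
    apply Ideal.map_mono
    rw [Ideal.span_le]
    rintro _ ⟨i, rfl⟩
    exact hy i
  induction n with
  | zero =>
    apply le_antisymm (hle 0)
    have := maximalIdeal_pow_eq_bot hπ hker 0
    rw [zero_add, pow_one] at this
    rw [this]; exact bot_le
  | succ n ih =>
    rcases Nat.eq_zero_or_pos n with rfl | hn
    · rw [Ideal.map_span, ← Set.range_comp]
      exact hy1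
    · apply le_antisymm (hle (n + 1))
      set I' := (Ideal.span (Set.range y)).map (proj π (n + 1)) with hI'
      have h1 : I'.map (π n) = (maximalIdeal (R (n + 1))).map (π n) := by
        rw [hI', map_pi_comp_proj, ih]
        exact (map_maximalIdeal_of_surjective (π n : R (n + 1) →+* R n) (hπ n)).symm
      have h2 : maximalIdeal (R (n + 1)) ≤ I' ⊔ RingHom.ker (π n) := by
        have := congrArg (Ideal.comap (π n)) h1
        rw [Ideal.comap_map_of_surjective _ (hπ n), Ideal.comap_map_of_surjective _ (hπ n)] at this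
        have hc : Ideal.comap (π n) ⊥ = RingHom.ker (π n) := rfl
        rw [hc] at this
        rw [this]
        exact le_sup_left
      have h3 : maximalIdeal (R (n + 1)) ≤
          I' ⊔ maximalIdeal (R (n + 1)) • maximalIdeal (R (n + 1)) := by
        refine h2.trans (sup_le_sup_left ?_ _)
        rw [hker n, smul_eq_mul, ← pow_two]
        exact Ideal.pow_le_pow_right (by omega)
      exact Submodule.le_of_le_smul_of_le_jacobson_bot
        (IsNoetherian.noetherian _) (maximalIdeal_le_jacobson _) h3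

/-- Claim D': `K' (n+1) ≤ I * K' n` where `I` is generated by lifts of generators of `𝔪_1`. -/
theorem kerFil_succ_le_mul (hπ : ∀ n, Function.Surjective (π n))
    (hker : ∀ n, RingHom.ker (π n) = maximalIdeal (R (n + 1)) ^ (n + 1))
    (hy : ∀ i, y i ∈ maximalIdeal (Lim π))
    (hy1 : Ideal.span (Set.range fun i => proj π 1 (y i)) = maximalIdeal (R 1)) (n : ℕ) :
    kerFil π (n + 1) ≤ Ideal.span (Set.range y) * kerFil π n := by
  intro z hz
  -- level sets
  let S : ℕ → Type u := fun j =>
    {c : Fin s → R j // (∀ i, c i ∈ (kerFil π n).map (proj π j)) ∧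
      ∑ i, proj π j (y i) * c i = proj π j z}
  have hne : ∀ j, Nonempty (S j) := by
    intro j
    rcases Nat.lt_or_ge j n with hj | hj
    · refine ⟨⟨fun _ => 0, fun _ => Ideal.zero_mem _, ?_⟩⟩
      have : z ∈ RingHom.ker (proj π j) := ker_proj_antitone (le_of_lt hj) hz
      rw [RingHom.mem_ker] at this
      simp [this]
    · have hz' : proj π j z ∈ (kerFil π (n + 1)).map (proj π j) := Ideal.mem_map_of_mem _ hz
      rw [map_proj_kerFil hπ hker (by omega), pow_succ', ← map_proj_kerFil hπ hker (n := n) (j := j)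
        (by omega), ← map_proj_span_eq_maximalIdeal y hπ hker hy hy1 j, Ideal.map_span,
        ← Set.range_comp] at hz'
      obtain ⟨c, hc, hsum⟩ := exists_sum_of_mem_span_range_mul _ _ hz'
      exact ⟨⟨c, hc, hsum.symm⟩⟩
  have hfin : ∀ j, Finite (S j) := fun j => Subtype.finite
  let t : ∀ j, S (j + 1) → S j := fun j c =>
    ⟨fun i => π j (c.1 i), fun i => by
      rw [← map_pi_comp_proj]
      exact Ideal.mem_map_of_mem _ (c.2.1 i), by
      have := congrArg (π j) c.2.2
      rw [map_sum, proj_compat] at this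
      rw [← this]
      exact Finset.sum_congr rfl fun i _ => by rw [map_mul, proj_compat]⟩
  obtain ⟨σ, hσ⟩ := exists_compatible_of_finite t
  -- assemble the coefficients
  let c : Fin s → Lim π := fun i => Lim.mk (fun j => (σ j).1 i) fun j => by
    have := congrArg (fun c : S j => c.1 i) (hσ j)
    exact this
  have hcmem : ∀ i, c i ∈ kerFil π n := by
    intro i
    cases n with
    | zero => exact Submodule.mem_top
    | succ n =>
      rw [kerFil_succ, RingHom.mem_ker]
      have h1 : (σ n).1 i ∈ (kerFil π (n + 1)).map (proj π n) := (σ n).2.1 i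
      have h2 : (kerFil π (n + 1)).map (proj π n) = ⊥ :=
        (Ideal.map_eq_bot_iff_le_ker _).mpr le_rfl
      exact (Ideal.mem_bot).mp (h2.le h1)
  have hz_eq : z = ∑ i, y i * c i := by
    apply lim_ext
    intro j
    rw [map_sum, ← (σ j).2.2]
    exact Finset.sum_congr rfl fun i _ => by rw [map_mul]; rfl
  rw [hz_eq]
  exact Ideal.sum_mem _ fun i _ =>
    Ideal.mul_mem_mul (Ideal.subset_span ⟨i, rfl⟩) (hcmem i)

theorem kerFil_eq_pow (hπ : ∀ n, Function.Surjective (π n))
    (hker : ∀ n, RingHom.ker (π n) = maximalIdeal (R (n + 1)) ^ (n + 1))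
    (hy : ∀ i, y i ∈ maximalIdeal (Lim π))
    (hy1 : Ideal.span (Set.range fun i => proj π 1 (y i)) = maximalIdeal (R 1)) (n : ℕ) :
    kerFil π n = Ideal.span (Set.range y) ^ n ∧ kerFil π n = maximalIdeal (Lim π) ^ n := by
  have hI : Ideal.span (Set.range y) ≤ maximalIdeal (Lim π) := by
    rw [Ideal.span_le]
    rintro _ ⟨i, rfl⟩
    exact hy i
  have h1 : kerFil π n ≤ Ideal.span (Set.range y) ^ n := by
    induction n with
    | zero => rw [pow_zero, Ideal.one_eq_top]; exact le_top
    | succ n ih =>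
      rw [pow_succ']
      exact (kerFil_succ_le_mul y hπ hker hy hy1 n).trans (Ideal.mul_mono_right ih)
  have h2 : Ideal.span (Set.range y) ^ n ≤ maximalIdeal (Lim π) ^ n := Ideal.pow_right_mono hI n
  have h3 := maximalIdeal_pow_le_kerFil hπ hker n
  exact ⟨le_antisymm h1 (h2.trans h3), le_antisymm (h1.trans h2) h3⟩

end Generators

section Complete

variable [∀ n, Finite (R n)]

theorem exists_generators (hπ : ∀ n, Function.Surjective (π n)) :
    ∃ (s : ℕ) (y : Fin s → Lim π), (∀ i, y i ∈ maximalIdeal (Lim π)) ∧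
      Ideal.span (Set.range fun i => proj π 1 (y i)) = maximalIdeal (R 1) := by
  obtain ⟨s, v, hv⟩ := Submodule.fg_iff_exists_fin_generating_family.mp
    (IsNoetherian.noetherian (maximalIdeal (R 1)))
  choose y hy using fun i => proj_surjective hπ 1 (v i)
  refine ⟨s, y, fun i => ?_, ?_⟩
  · rw [mem_maximalIdeal, mem_nonunits_iff]
    intro hu
    have h1 : IsUnit (proj π 1 (y i)) := hu.map (proj π 1)
    have h2 : v i ∈ maximalIdeal (R 1) := by
      rw [← hv]; exact Submodule.subset_span ⟨i, rfl⟩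
    rw [hy i] at h1
    exact h2 h1
  · have : (fun i => proj π 1 (y i)) = v := funext hy
    rw [this]; exact hv

/-- `ker (proj n) = 𝔪 ^ (n+1)`. -/
theorem ker_proj_eq_maximalIdeal_pow (hπ : ∀ n, Function.Surjective (π n))
    (hker : ∀ n, RingHom.ker (π n) = maximalIdeal (R (n + 1)) ^ (n + 1)) (n : ℕ) :
    RingHom.ker (proj π n) = maximalIdeal (Lim π) ^ (n + 1) := by
  obtain ⟨s, y, hy, hy1⟩ := exists_generators (π := π) hπ
  exact (kerFil_eq_pow y hπ hker hy hy1 (n + 1)).2

theorem maximalIdeal_fg (hπ : ∀ n, Function.Surjective (π n))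
    (hker : ∀ n, RingHom.ker (π n) = maximalIdeal (R (n + 1)) ^ (n + 1)) :
    (maximalIdeal (Lim π)).FG := by
  obtain ⟨s, y, hy, hy1⟩ := exists_generators (π := π) hπ
  have h := kerFil_eq_pow y hπ hker hy hy1 1
  rw [pow_one, pow_one] at h
  rw [← h.2, h.1]
  exact Submodule.fg_span (Set.finite_range y)

theorem mem_maximalIdeal_pow_iff (hπ : ∀ n, Function.Surjective (π n))
    (hker : ∀ n, RingHom.ker (π n) = maximalIdeal (R (n + 1)) ^ (n + 1)) (n : ℕ) (x : Lim π) :
    x ∈ maximalIdeal (Lim π) ^ (n + 1) ↔ proj π n x = 0 := by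
  rw [← ker_proj_eq_maximalIdeal_pow hπ hker n, RingHom.mem_ker]

theorem isAdicComplete_lim (hπ : ∀ n, Function.Surjective (π n))
    (hker : ∀ n, RingHom.ker (π n) = maximalIdeal (R (n + 1)) ^ (n + 1)) :
    IsAdicComplete (maximalIdeal (Lim π)) (Lim π) := by
  have hmem : ∀ (n : ℕ) (x : Lim π),
      x ∈ (maximalIdeal (Lim π) ^ (n + 1) • ⊤ : Submodule (Lim π) (Lim π)) ↔ proj π n x = 0 := by
    intro n x
    rw [smul_eq_mul, Ideal.mul_top]
    exact mem_maximalIdeal_pow_iff hπ hker n x
  refine { haus' := ?_, prec' := ?_ }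
  · intro x hx
    apply lim_ext
    intro n
    have := hx (n + 1)
    rw [SModEq.zero, hmem] at this
    rw [this, map_zero]
  · intro f hf
    have hcompat : ∀ j, π j (proj π (j + 1) (f (j + 2))) = proj π j (f (j + 1)) := by
      intro j
      rw [proj_compat]
      have := hf (Nat.le_succ (j + 1))
      rw [SModEq.sub_mem, hmem, map_sub, sub_eq_zero] at this
      exact this.symm
    refine ⟨Lim.mk (fun j => proj π j (f (j + 1))) hcompat, fun n => ?_⟩
    cases n with
    | zero =>
      rw [pow_zero, Ideal.one_eq_top, Submodule.top_smul]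
      exact SModEq.top
    | succ n =>
      rw [SModEq.sub_mem, hmem, map_sub, proj_mk, sub_self]

end Complete

section AlgebraProps

theorem mem_maximalIdeal_iff_proj (hπ : ∀ n, Function.Surjective (π n)) (n : ℕ) (x : Lim π) :
    x ∈ maximalIdeal (Lim π) ↔ proj π n x ∈ maximalIdeal (R n) := by
  have := isLocalHom_proj hπ n
  rw [mem_maximalIdeal, mem_maximalIdeal, mem_nonunits_iff, mem_nonunits_iff, not_iff_not]
  exact ⟨fun h => h.map (proj π n), fun h => isUnit_of_map_unit (proj π n : Lim π →+* R n) x h⟩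

theorem isLocalHom_algebraMap_lim [IsLocalHom (algebraMap 𝒪 (R 0))] :
    IsLocalHom (algebraMap 𝒪 (Lim π)) := by
  refine ⟨fun a ha => ?_⟩
  have h1 : IsUnit (proj π 0 (algebraMap 𝒪 (Lim π) a)) := ha.map (proj π 0)
  rw [AlgHom.commutes] at h1
  exact isUnit_of_map_unit (algebraMap 𝒪 (R 0)) a h1

theorem exists_sub_algebraMap_mem_maximalIdeal (hπ : ∀ n, Function.Surjective (π n))
    (hres : Function.Surjective (residue (R 0) ∘ algebraMap 𝒪 (R 0))) (x : Lim π) :
    ∃ a : 𝒪, x - algebraMap 𝒪 (Lim π) a ∈ maximalIdeal (Lim π) := by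
  obtain ⟨a, ha⟩ := hres (residue (R 0) (proj π 0 x))
  refine ⟨a, ?_⟩
  rw [mem_maximalIdeal_iff_proj hπ 0, map_sub, AlgHom.commutes, ← residue_eq_zero_iff, map_sub,
    sub_eq_zero]
  exact ha.symm

theorem residue_surjective_lim (hπ : ∀ n, Function.Surjective (π n))
    (hres : Function.Surjective (residue (R 0) ∘ algebraMap 𝒪 (R 0))) :
    Function.Surjective (residue (Lim π) ∘ algebraMap 𝒪 (Lim π)) := by
  intro z
  obtain ⟨x, rfl⟩ := residue_surjective z
  obtain ⟨a, ha⟩ := exists_sub_algebraMap_mem_maximalIdeal hπ hres x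
  refine ⟨a, ?_⟩
  rw [← residue_eq_zero_iff, map_sub, sub_eq_zero] at ha
  exact ha.symm

end AlgebraProps

end Structure

end Fermat.Agent.S53
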