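import Mathlib
import Fermat.Agent.S53.LimRing
import Fermat.Agent.S53.MatrixLayer

set_option autoImplicit false
set_option linter.unusedSectionVars false

/-!
# Factoring maps out of the inverse limit `Lim π` through a finite level (S53 helpers)
-/

namespace Fermat.Agent.S53

open IsLocalRing

universe v

/-- A surjective algebra map `f` factors any algebra map `g` with `ker f ≤ ker g`. -/
theorem exists_algHom_comp_eq_of_ker_le {S A B C : Type*} [CommRing S] [CommRing A] [CommRing B]
    [CommRing C] [Algebra S A] [Algebra S B] [Algebra S C] (f : A →ₐ[S] B)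
    (hf : Function.Surjective f) (g : A →ₐ[S] C)
    (h : RingHom.ker f ≤ RingHom.ker g) :
    ∃ g' : B →ₐ[S] C, g'.comp f = g := by
  refine ⟨(Ideal.Quotient.liftₐ (RingHom.ker f) g fun a ha => h ha).comp
    (Ideal.quotientKerAlgEquivOfSurjective hf).symm.toAlgHom, ?_⟩
  ext a
  have : (Ideal.quotientKerAlgEquivOfSurjective hf).symm (f a) =
      Ideal.Quotient.mk (RingHom.ker f) a := by
    rw [AlgEquiv.symm_apply_eq]
    rfl
  simp only [AlgHom.comp_apply]
  erw [this]
  rfl

section Factor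

variable {𝒪 : Type v} [CommRing 𝒪] {R : ℕ → Type} [∀ n, CommRing (R n)]
  [∀ n, Algebra 𝒪 (R n)] {π : ∀ n, R (n + 1) →ₐ[𝒪] R n} [IsLocalRing (Lim π)]
  {B : Type} [CommRing B] [IsLocalRing B] [Algebra 𝒪 B]

/-- A local map from the limit to a local ring with `𝔪_B ^ (n+1) = 0` factors through `R n`. -/
theorem Lim.exists_factor_of_pow_eq_bot (hπ : ∀ n, Function.Surjective (π n))
    (hkerpow : ∀ n, RingHom.ker (proj π n) = maximalIdeal (Lim π) ^ (n + 1))
    (q : Lim π →ₐ[𝒪] B) (hq : IsLocalHom (q : Lim π →+* B)) (n : ℕ)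
    (hB : maximalIdeal B ^ (n + 1) = ⊥) :
    ∃ q' : R n →ₐ[𝒪] B, q'.comp (proj π n) = q := by
  refine exists_algHom_comp_eq_of_ker_le (proj π n) (proj_surjective hπ n) q ?_
  intro x hx
  rw [hkerpow n] at hx
  have := map_maximalIdeal_pow_le (q : Lim π →+* B) hq (n + 1) hx
  rw [hB, Ideal.mem_bot] at this
  exact this

/-- A local map from the limit to an Artinian local ring factors through some `R n`. -/
theorem Lim.exists_factor_of_isArtinianRing [IsArtinianRing B]
    (hπ : ∀ n, Function.Surjective (π n))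
    (hkerpow : ∀ n, RingHom.ker (proj π n) = maximalIdeal (Lim π) ^ (n + 1))
    (q : Lim π →ₐ[𝒪] B) (hq : IsLocalHom (q : Lim π →+* B)) :
    ∃ (n : ℕ) (q' : R n →ₐ[𝒪] B), q'.comp (proj π n) = q := by
  obtain ⟨n, hn⟩ := IsArtinianRing.isNilpotent_jacobson_bot (R := B)
  rw [jacobson_eq_maximalIdeal ⊥ bot_ne_top] at hn
  have hn' : maximalIdeal B ^ (n + 1) = ⊥ := by
    rw [pow_succ, hn, Ideal.zero_eq_bot, Ideal.bot_mul]
  obtain ⟨q', hq'⟩ := Lim.exists_factor_of_pow_eq_bot hπ hkerpow q hq n hn'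
  exact ⟨n, q', hq'⟩

end Factor

end Fermat.Agent.S53
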