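import Mathlib
import Fermat.Agent.S53.LimRing

set_option autoImplicit false
set_option linter.unusedSectionVars false

/-!
# Noetherianity of the inverse limit of a tower of finite local rings

We construct a surjective algebra map `MvPowerSeries (Fin s) 𝒪 →ₐ[𝒪] Lim π`.
-/

namespace Fermat.Agent.S53

open IsLocalRing

universe u v

section Eval

variable {𝒪 : Type v} [CommRing 𝒪] {A : Type u} [CommRing A] [Algebra 𝒪 A] {s : ℕ}

/-- A polynomial without monomials of degree `< n` evaluates to zero at a point all of whose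
monomials of degree `≥ n` vanish. -/
theorem aeval_eq_zero_of_coeff_eq_zero (v : Fin s → A) (n : ℕ)
    (hv : ∀ β : Fin s →₀ ℕ, n ≤ β.degree → ∏ i, v i ^ β i = 0)
    (p : MvPolynomial (Fin s) 𝒪) (hp : ∀ β : Fin s →₀ ℕ, β.degree < n → p.coeff β = 0) :
    MvPolynomial.aeval v p = 0 := by
  rw [MvPolynomial.aeval_def, MvPolynomial.eval₂_eq']
  apply Finset.sum_eq_zero
  intro β hβ
  rcases Nat.lt_or_ge β.degree n with h | h
  · rw [hp β h, map_zero, zero_mul]
  · rw [hv β h, mul_zero]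

theorem prod_pow_eq_zero_of_mem (I : Ideal A) (n : ℕ) (hI : I ^ n = ⊥) (v : Fin s → A)
    (hv : ∀ i, v i ∈ I) (β : Fin s →₀ ℕ) (hβ : n ≤ β.degree) : ∏ i, v i ^ β i = 0 := by
  have h1 : ∏ i, v i ^ β i ∈ ∏ i : Fin s, I ^ β i :=
    Ideal.prod_mem_prod fun i _ => Ideal.pow_mem_pow (hv i) _
  rw [Finset.prod_pow_eq_pow_sum, ← Finsupp.degree_eq_sum] at h1
  have h2 : I ^ β.degree ≤ I ^ n := Ideal.pow_le_pow_right hβ
  have h3 := h2 h1
  rw [hI, Ideal.mem_bot] at h3
  exact h3

variable (𝒪) in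
/-- Truncate and evaluate: a linear map on power series. -/
noncomputable def truncEvalLin (v : Fin s → A) (n : ℕ) : MvPowerSeries (Fin s) 𝒪 →ₗ[𝒪] A :=
  (MvPolynomial.aeval v).toLinearMap ∘ₗ (MvPowerSeries.truncTotal (σ := Fin s) (R := 𝒪) n)

theorem truncEvalLin_apply (v : Fin s → A) (n : ℕ) (F : MvPowerSeries (Fin s) 𝒪) :
    truncEvalLin 𝒪 v n F = MvPolynomial.aeval v (MvPowerSeries.truncTotal n F) := rfl

theorem truncEvalLin_one (v : Fin s → A) {n : ℕ} (hn : n ≠ 0) : truncEvalLin 𝒪 v n 1 = 1 := by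
  rw [truncEvalLin_apply, MvPowerSeries.truncTotal_one hn, map_one]

theorem truncEvalLin_mul (v : Fin s → A) (n : ℕ)
    (hv : ∀ β : Fin s →₀ ℕ, n ≤ β.degree → ∏ i, v i ^ β i = 0)
    (F G : MvPowerSeries (Fin s) 𝒪) :
    truncEvalLin 𝒪 v n (F * G) = truncEvalLin 𝒪 v n F * truncEvalLin 𝒪 v n G := by
  rw [truncEvalLin_apply, truncEvalLin_apply, truncEvalLin_apply, ← map_mul, ← sub_eq_zero,
    ← map_sub]
  apply aeval_eq_zero_of_coeff_eq_zero v n hv
  intro β hβ
  rw [MvPolynomial.coeff_sub, MvPowerSeries.coeff_truncTotal _ hβ,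
    MvPowerSeries.coeff_truncTotal_mul_truncTotal_eq_coeff_mul _ _ hβ, sub_self]

/-- Truncate and evaluate as an algebra map, when high-degree monomials vanish. -/
noncomputable def truncEval (v : Fin s → A) {n : ℕ} (hn : n ≠ 0)
    (hv : ∀ β : Fin s →₀ ℕ, n ≤ β.degree → ∏ i, v i ^ β i = 0) :
    MvPowerSeries (Fin s) 𝒪 →ₐ[𝒪] A :=
  AlgHom.ofLinearMap (truncEvalLin 𝒪 v n) (truncEvalLin_one v hn) (truncEvalLin_mul v n hv)

theorem truncEval_apply (v : Fin s → A) {n : ℕ} (hn : n ≠ 0)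
    (hv : ∀ β : Fin s →₀ ℕ, n ≤ β.degree → ∏ i, v i ^ β i = 0)
    (F : MvPowerSeries (Fin s) 𝒪) :
    truncEval v hn hv F = MvPolynomial.aeval v (MvPowerSeries.truncTotal n F) := rfl

/-- Truncating at a higher degree does not change the value. -/
theorem aeval_truncTotal_eq (v : Fin s → A) {n m : ℕ} (hnm : n ≤ m)
    (hv : ∀ β : Fin s →₀ ℕ, n ≤ β.degree → ∏ i, v i ^ β i = 0)
    (F : MvPowerSeries (Fin s) 𝒪) :
    MvPolynomial.aeval v (MvPowerSeries.truncTotal m F) =
      MvPolynomial.aeval v (MvPowerSeries.truncTotal n F) := by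
  rw [← sub_eq_zero, ← map_sub]
  apply aeval_eq_zero_of_coeff_eq_zero v n hv
  intro β hβ
  rw [MvPolynomial.coeff_sub, MvPowerSeries.coeff_truncTotal _ hβ,
    MvPowerSeries.coeff_truncTotal _ (lt_of_lt_of_le hβ hnm), sub_self]

end Eval

section Tower

variable {𝒪 : Type v} [CommRing 𝒪] {R : ℕ → Type u} [∀ n, CommRing (R n)]
  [∀ n, Algebra 𝒪 (R n)] {π : ∀ n, R (n + 1) →ₐ[𝒪] R n} [∀ n, IsLocalRing (R n)]
  [IsLocalRing (Lim π)] {s : ℕ} (y : Fin s → Lim π)

theorem aeval_comp_proj (n : ℕ) (p : MvPolynomial (Fin s) 𝒪) :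
    MvPolynomial.aeval (fun i => proj π n (y i)) p = proj π n (MvPolynomial.aeval y p) := by
  have := MvPolynomial.comp_aeval (R := 𝒪) (f := y) (proj π n)
  rw [← this]; rfl

theorem monomial_vanish (hπ : ∀ n, Function.Surjective (π n))
    (hker : ∀ n, RingHom.ker (π n) = maximalIdeal (R (n + 1)) ^ (n + 1))
    (hy : ∀ i, y i ∈ maximalIdeal (Lim π)) (n : ℕ) (β : Fin s →₀ ℕ) (hβ : n + 1 ≤ β.degree) :
    ∏ i, (proj π n (y i)) ^ β i = 0 :=
  prod_pow_eq_zero_of_mem (maximalIdeal (R n)) (n + 1) (maximalIdeal_pow_eq_bot hπ hker n) _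
    (fun i => (mem_maximalIdeal_iff_proj hπ n (y i)).mp (hy i)) β hβ

/-- The level-`n` evaluation map from the power series ring. -/
noncomputable def levelMap (hπ : ∀ n, Function.Surjective (π n))
    (hker : ∀ n, RingHom.ker (π n) = maximalIdeal (R (n + 1)) ^ (n + 1))
    (hy : ∀ i, y i ∈ maximalIdeal (Lim π)) (n : ℕ) : MvPowerSeries (Fin s) 𝒪 →ₐ[𝒪] R n :=
  truncEval (fun i => proj π n (y i)) (Nat.succ_ne_zero n) (monomial_vanish y hπ hker hy n)

theorem levelMap_apply (hπ : ∀ n, Function.Surjective (π n))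
    (hker : ∀ n, RingHom.ker (π n) = maximalIdeal (R (n + 1)) ^ (n + 1))
    (hy : ∀ i, y i ∈ maximalIdeal (Lim π)) (n : ℕ) (F : MvPowerSeries (Fin s) 𝒪) :
    levelMap y hπ hker hy n F =
      proj π n (MvPolynomial.aeval y (MvPowerSeries.truncTotal (n + 1) F)) := by
  rw [← aeval_comp_proj]; rfl

theorem levelMap_compat (hπ : ∀ n, Function.Surjective (π n))
    (hker : ∀ n, RingHom.ker (π n) = maximalIdeal (R (n + 1)) ^ (n + 1))
    (hy : ∀ i, y i ∈ maximalIdeal (Lim π)) (n : ℕ) (F : MvPowerSeries (Fin s) 𝒪) :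
    π n (levelMap y hπ hker hy (n + 1) F) = levelMap y hπ hker hy n F := by
  rw [levelMap_apply, levelMap_apply, proj_compat, ← aeval_comp_proj, ← aeval_comp_proj]
  exact aeval_truncTotal_eq _ (Nat.le_succ _) (monomial_vanish y hπ hker hy n) F

/-- The algebra map from the power series ring to the limit. -/
noncomputable def powerSeriesMap (hπ : ∀ n, Function.Surjective (π n))
    (hker : ∀ n, RingHom.ker (π n) = maximalIdeal (R (n + 1)) ^ (n + 1))
    (hy : ∀ i, y i ∈ maximalIdeal (Lim π)) : MvPowerSeries (Fin s) 𝒪 →ₐ[𝒪] Lim π :=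
  AlgHom.codRestrict (AlgHom.pi (fun n => levelMap y hπ hker hy n)) (limSubalgebra π)
    (fun F n => levelMap_compat y hπ hker hy n F)

theorem proj_powerSeriesMap (hπ : ∀ n, Function.Surjective (π n))
    (hker : ∀ n, RingHom.ker (π n) = maximalIdeal (R (n + 1)) ^ (n + 1))
    (hy : ∀ i, y i ∈ maximalIdeal (Lim π)) (n : ℕ) (F : MvPowerSeries (Fin s) 𝒪) :
    proj π n (powerSeriesMap y hπ hker hy F) = levelMap y hπ hker hy n F := rfl

/-- Graded surjectivity: elements of `I ^ d` are values of homogeneous polynomials of degree `d`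
modulo `I ^ (d+1)`. -/
theorem exists_homogeneous_approx
    (hres : ∀ x : Lim π, ∃ a : 𝒪, x - algebraMap 𝒪 (Lim π) a ∈ Ideal.span (Set.range y)) :
    ∀ (d : ℕ) (z : Lim π), z ∈ Ideal.span (Set.range y) ^ d →
      ∃ G : MvPolynomial (Fin s) 𝒪, G.IsHomogeneous d ∧
        z - MvPolynomial.aeval y G ∈ Ideal.span (Set.range y) ^ (d + 1) := by
  intro d
  induction d with
  | zero =>
    intro z _
    obtain ⟨a, ha⟩ := hres z
    refine ⟨MvPolynomial.C a, MvPolynomial.isHomogeneous_C _ a, ?_⟩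
    rw [MvPolynomial.aeval_C, zero_add, pow_one]
    exact ha
  | succ d ih =>
    intro z hz
    rw [pow_succ'] at hz
    obtain ⟨c, hc, rfl⟩ := exists_sum_of_mem_span_range_mul y _ hz
    choose G hG using fun i => ih (c i) (hc i)
    refine ⟨∑ i, MvPolynomial.X i * G i, ?_, ?_⟩
    · apply MvPolynomial.IsHomogeneous.sum
      intro i _
      rw [add_comm d 1]
      exact (MvPolynomial.isHomogeneous_X _ i).mul (hG i).1
    · rw [map_sum, ← Finset.sum_sub_distrib]
      apply Ideal.sum_mem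
      intro i _
      rw [map_mul, MvPolynomial.aeval_X, ← mul_sub, pow_succ' _ (d + 1)]
      exact Ideal.mul_mem_mul (Ideal.subset_span ⟨i, rfl⟩) (hG i).2

theorem powerSeriesMap_surjective (hπ : ∀ n, Function.Surjective (π n))
    (hker : ∀ n, RingHom.ker (π n) = maximalIdeal (R (n + 1)) ^ (n + 1))
    (hy : ∀ i, y i ∈ maximalIdeal (Lim π))
    (hres : ∀ x : Lim π, ∃ a : 𝒪, x - algebraMap 𝒪 (Lim π) a ∈ Ideal.span (Set.range y))
    (hI : ∀ n, Ideal.span (Set.range y) ^ (n + 1) ≤ RingHom.ker (proj π n)) :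
    Function.Surjective (powerSeriesMap (𝒪 := 𝒪) y hπ hker hy) := by
  intro r
  set I := Ideal.span (Set.range y) with hIdef
  -- the recursion on approximating polynomials
  have hstep : ∀ (d : ℕ) (x : {p : MvPolynomial (Fin s) 𝒪 // r - MvPolynomial.aeval y p ∈ I ^ d}),
      ∃ G : MvPolynomial (Fin s) 𝒪, G.IsHomogeneous d ∧
        r - MvPolynomial.aeval y (x.1 + G) ∈ I ^ (d + 1) := by
    intro d x
    obtain ⟨G, hG1, hG2⟩ := exists_homogeneous_approx y hres d _ x.2
    refine ⟨G, hG1, ?_⟩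
    rw [map_add, ← sub_sub]
    exact hG2
  choose G hG using hstep
  let f : ∀ d, {p : MvPolynomial (Fin s) 𝒪 // r - MvPolynomial.aeval y p ∈ I ^ d} := fun d =>
    Nat.rec (motive := fun d => {p : MvPolynomial (Fin s) 𝒪 // r - MvPolynomial.aeval y p ∈ I ^ d})
      ⟨0, by rw [pow_zero, Ideal.one_eq_top]; exact Submodule.mem_top⟩
      (fun d x => ⟨x.1 + G d x, (hG d x).2⟩) d
  let Gd : ℕ → MvPolynomial (Fin s) 𝒪 := fun d => G d (f d)
  have hGd : ∀ d, (Gd d).IsHomogeneous d := fun d => (hG d (f d)).1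
  have hf0 : (f 0).1 = 0 := rfl
  have hfs : ∀ d, (f (d + 1)).1 = (f d).1 + Gd d := fun d => rfl
  have hfsum : ∀ d, (f d).1 = ∑ e ∈ Finset.range d, Gd e := by
    intro d
    induction d with
    | zero => rw [hf0, Finset.range_zero, Finset.sum_empty]
    | succ d ih => rw [hfs, ih, Finset.sum_range_succ]
  -- the power series
  let F : MvPowerSeries (Fin s) 𝒪 := fun β => MvPolynomial.coeff β (Gd β.degree)
  have hFtrunc : ∀ n, MvPowerSeries.truncTotal n F = (f n).1 := by
    intro n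
    ext β
    rw [hfsum, MvPolynomial.coeff_sum, MvPowerSeries.coeff_truncTotal_eq_ite]
    split_ifs with h
    · rw [Finset.sum_eq_single β.degree]
      · rfl
      · intro e _ he
        exact (hGd e).coeff_eq_zero (Ne.symm he)
      · intro h'
        exact absurd (Finset.mem_range.mpr h) h'
    · symm
      apply Finset.sum_eq_zero
      intro e he
      apply (hGd e).coeff_eq_zero
      have := Finset.mem_range.mp he
      omega
  refine ⟨F, lim_ext fun n => ?_⟩
  rw [proj_powerSeriesMap, levelMap_apply, hFtrunc]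
  have h1 : r - MvPolynomial.aeval y (f (n + 1)).1 ∈ RingHom.ker (proj π n) := hI n (f (n + 1)).2
  rw [RingHom.mem_ker, map_sub, sub_eq_zero] at h1
  exact h1.symm

end Tower

section Main

variable {𝒪 : Type v} [CommRing 𝒪] {R : ℕ → Type u} [∀ n, CommRing (R n)]
  [∀ n, Algebra 𝒪 (R n)] {π : ∀ n, R (n + 1) →ₐ[𝒪] R n} [∀ n, IsLocalRing (R n)]
  [IsLocalRing (Lim π)] [∀ n, Finite (R n)]

/-- The limit is a quotient of a power series ring in finitely many variables. -/
theorem exists_powerSeries_surjective (hπ : ∀ n, Function.Surjective (π n))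
    (hker : ∀ n, RingHom.ker (π n) = maximalIdeal (R (n + 1)) ^ (n + 1))
    (hres : Function.Surjective (residue (R 0) ∘ algebraMap 𝒪 (R 0))) :
    ∃ (s : ℕ) (Φ : MvPowerSeries (Fin s) 𝒪 →ₐ[𝒪] Lim π), Function.Surjective Φ := by
  obtain ⟨s, y, hy, hy1⟩ := exists_generators (π := π) hπ
  have hk := kerFil_eq_pow y hπ hker hy hy1
  have hm : maximalIdeal (Lim π) = Ideal.span (Set.range y) := by
    have h := hk 1
    rw [pow_one, pow_one] at h
    rw [← h.2, h.1]
  refine ⟨s, powerSeriesMap y hπ hker hy, powerSeriesMap_surjective y hπ hker hy ?_ ?_⟩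
  · intro x
    rw [← hm]
    exact exists_sub_algebraMap_mem_maximalIdeal hπ hres x
  · intro n
    rw [← (hk (n + 1)).1]
    exact le_rfl

theorem isNoetherianRing_lim [IsNoetherianRing 𝒪] (hπ : ∀ n, Function.Surjective (π n))
    (hker : ∀ n, RingHom.ker (π n) = maximalIdeal (R (n + 1)) ^ (n + 1))
    (hres : Function.Surjective (residue (R 0) ∘ algebraMap 𝒪 (R 0))) :
    IsNoetherianRing (Lim π) := by
  obtain ⟨s, Φ, hΦ⟩ := exists_powerSeries_surjective (π := π) hπ hker hres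
  exact isNoetherianRing_of_surjective _ _ (Φ : MvPowerSeries (Fin s) 𝒪 →+* Lim π) hΦ

end Main

end Fermat.Agent.S53
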