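import Mathlib
import Fermat.Agent.S53.LimRing

set_option autoImplicit false
set_option linter.unusedSectionVars false

/-!
# Maps out of the inverse limit `Lim π` into adically complete rings (S53, limit step of M6)
-/

namespace Fermat.Agent.S53

open IsLocalRing

universe u v w

section Lift

variable {𝒪 : Type v} [CommRing 𝒪] {R : ℕ → Type u} [∀ n, CommRing (R n)]
  [∀ n, Algebra 𝒪 (R n)] {π : ∀ n, R (n + 1) →ₐ[𝒪] R n}
  {A : Type w} [CommRing A] [Algebra 𝒪 A] (I : Ideal A)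

/-- The transition map `A ⧸ I ^ (n+2) → A ⧸ I ^ (n+1)`. -/
abbrev quotSucc (n : ℕ) : (A ⧸ I ^ (n + 1 + 1)) →ₐ[𝒪] A ⧸ I ^ (n + 1) :=
  Ideal.Quotient.factorₐ 𝒪 (Ideal.pow_le_pow_right (Nat.le_succ (n + 1)))

/-- The auxiliary family `Lim π → A ⧸ I ^ n` attached to a family `φ n : R n → A ⧸ I ^ (n+1)`. -/
def liftFamily (φ : ∀ n, R n →ₐ[𝒪] A ⧸ I ^ (n + 1)) (n : ℕ) : Lim π →ₐ[𝒪] A ⧸ I ^ n :=
  (Ideal.Quotient.factorₐ 𝒪 (Ideal.pow_le_pow_right (Nat.le_succ n))).comp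
    ((φ n).comp (proj π n))

theorem liftFamily_succ (φ : ∀ n, R n →ₐ[𝒪] A ⧸ I ^ (n + 1))
    (hφ : ∀ n, (quotSucc (𝒪 := 𝒪) I n).comp (φ (n + 1)) = (φ n).comp (π n)) (n : ℕ) :
    liftFamily (π := π) I φ (n + 1) = (φ n).comp (proj π n) := by
  ext x
  have h := congrArg (fun f => f (proj π (n + 1) x)) (hφ n)
  simp only [AlgHom.comp_apply, proj_compat] at h
  simp only [liftFamily, AlgHom.comp_apply]
  exact h

theorem liftFamily_compat_succ (φ : ∀ n, R n →ₐ[𝒪] A ⧸ I ^ (n + 1))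
    (hφ : ∀ n, (quotSucc (𝒪 := 𝒪) I n).comp (φ (n + 1)) = (φ n).comp (π n)) (n : ℕ) :
    (Ideal.Quotient.factorₐ 𝒪 (Ideal.pow_le_pow_right (Nat.le_succ n))).comp
      (liftFamily (π := π) I φ (n + 1)) = liftFamily I φ n := by
  rw [liftFamily_succ I φ hφ]
  rfl

theorem liftFamily_compat (φ : ∀ n, R n →ₐ[𝒪] A ⧸ I ^ (n + 1))
    (hφ : ∀ n, (quotSucc (𝒪 := 𝒪) I n).comp (φ (n + 1)) = (φ n).comp (π n)) {m n : ℕ}
    (hle : m ≤ n) :
    (Ideal.Quotient.factorₐ 𝒪 (Ideal.pow_le_pow_right hle)).comp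
      (liftFamily (π := π) I φ n) = liftFamily I φ m := by
  induction n, hle using Nat.le_induction with
  | base =>
    ext x
    simp
  | succ n hmn ih =>
    rw [← ih, ← liftFamily_compat_succ I φ hφ n]
    ext x
    simp only [AlgHom.comp_apply]
    generalize liftFamily (π := π) I φ (n + 1) x = z
    obtain ⟨a, rfl⟩ := Ideal.Quotient.mk_surjective z
    rfl

variable [IsAdicComplete I A]

/-- **Lifting property of the limit.** -/
theorem Lim.exists_unique_lift (φ : ∀ n, R n →ₐ[𝒪] A ⧸ I ^ (n + 1))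
    (hφ : ∀ n, (quotSucc (𝒪 := 𝒪) I n).comp (φ (n + 1)) = (φ n).comp (π n)) :
    ∃! Φ : Lim π →ₐ[𝒪] A,
      ∀ n, (Ideal.Quotient.mkₐ 𝒪 (I ^ (n + 1))).comp Φ = (φ n).comp (proj π n) := by
  refine ⟨IsAdicComplete.liftAlgHom I (liftFamily (π := π) I φ)
    (fun hle => liftFamily_compat I φ hφ hle), fun n => ?_, fun Ψ hΨ => ?_⟩
  · rw [IsAdicComplete.mkₐ_comp_liftAlgHom, liftFamily_succ I φ hφ]
  · refine IsAdicComplete.algHom_ext I fun n => ?_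
    rw [IsAdicComplete.mkₐ_comp_liftAlgHom, ← liftFamily_compat_succ I φ hφ n,
      liftFamily_succ I φ hφ, ← hΨ n]
    ext x
    rfl

end Lift

section Ext

variable {𝒪 : Type v} [CommRing 𝒪] {R : ℕ → Type u} [∀ n, CommRing (R n)]
  [∀ n, Algebra 𝒪 (R n)] {π : ∀ n, R (n + 1) →ₐ[𝒪] R n}
  {A : Type w} [CommRing A] [Algebra 𝒪 A] (I : Ideal A)

/-- Two `𝒪`-algebra maps out of `Lim π` into an `I`-adically separated ring which are
"continuous" (map `ker (proj n)` into `I ^ (n+1)`) and agree on a set whose images generate every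
`R n` as an `𝒪`-algebra are equal. -/
theorem Lim.algHom_ext_of_adjoin [IsHausdorff I A] (E : Set (Lim π))
    (hE : ∀ n, Algebra.adjoin 𝒪 (proj π n '' E) = ⊤) (Φ Ψ : Lim π →ₐ[𝒪] A)
    (hΦ : ∀ n, ∀ x ∈ RingHom.ker (proj π n), Φ x ∈ I ^ (n + 1))
    (hΨ : ∀ n, ∀ x ∈ RingHom.ker (proj π n), Ψ x ∈ I ^ (n + 1))
    (h : ∀ e ∈ E, Φ e = Ψ e) : Φ = Ψ := by
  have hadj : ∀ p ∈ Algebra.adjoin 𝒪 E, Φ p = Ψ p := by
    intro p hp
    exact AlgHom.adjoin_le_equalizer Φ Ψ h hp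
  ext x
  rw [← sub_eq_zero]
  refine IsHausdorff.haus' (I := I) _ fun n => ?_
  rw [SModEq.zero, smul_eq_mul, Ideal.mul_top]
  have hx : proj π n x ∈ Algebra.adjoin 𝒪 (proj π n '' E) := by rw [hE n]; trivial
  rw [← AlgHom.map_adjoin] at hx
  obtain ⟨p, hp, hpx⟩ := hx
  have hker : x - p ∈ RingHom.ker (proj π n) := by
    rw [RingHom.mem_ker, map_sub, sub_eq_zero]
    exact hpx.symm
  have h1 := hΦ n _ hker
  have h2 := hΨ n _ hker
  have h3 : Φ x - Ψ x = Φ (x - p) - Ψ (x - p) := by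
    rw [map_sub, map_sub, hadj p hp]; ring
  rw [h3]
  exact Ideal.pow_le_pow_right (Nat.le_succ n) (Ideal.sub_mem _ h1 h2)

end Ext

section Local

variable {𝒪 : Type v} [CommRing 𝒪] {R : ℕ → Type u} [∀ n, CommRing (R n)]
  [∀ n, Algebra 𝒪 (R n)] {π : ∀ n, R (n + 1) →ₐ[𝒪] R n}
  {A : Type w} [CommRing A] [Algebra 𝒪 A]

/-- If `ker (proj n) = 𝔪 ^ (n+1)` then any ring hom mapping `𝔪` into `I` maps `ker (proj n)` into
`I ^ (n+1)`. -/
theorem Lim.map_ker_proj_le_pow (I : Ideal A) (J : Ideal (Lim π))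
    (hker : ∀ n, RingHom.ker (proj π n) = J ^ (n + 1))
    (Φ : Lim π →ₐ[𝒪] A) (hΦ : ∀ x ∈ J, Φ x ∈ I) (n : ℕ) :
    ∀ x ∈ RingHom.ker (proj π n), Φ x ∈ I ^ (n + 1) := by
  intro x hx
  rw [hker n] at hx
  have h1 : J.map Φ ≤ I := by
    rw [Ideal.map_le_iff_le_comap]
    exact fun y hy => hΦ y hy
  have h2 : (J ^ (n + 1)).map Φ ≤ I ^ (n + 1) := by
    rw [Ideal.map_pow]
    exact Ideal.pow_right_mono h1 _
  exact h2 (Ideal.mem_map_of_mem _ hx)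

end Local

end Fermat.Agent.S53
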