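import Mathlib
import Fermat.Prelude.Def_GaloisRep_DeformationCondition
import Fermat.Agent.S53.MatrixLayer

set_option autoImplicit false
set_option linter.unusedSectionVars false

/-!
# The Artinian quotients `A ⧸ 𝔪_A ^ (n+1)` of a Noetherian local ring (S53, used in M6)
-/

namespace Fermat.Agent.S53

open IsLocalRing

section QuotPow

variable (A : Type) [CommRing A] [IsLocalRing A] (n : ℕ)

instance instNontrivialQuotMaxPow : Nontrivial (A ⧸ maximalIdeal A ^ (n + 1)) :=
  Ideal.Quotient.nontrivial_iff.mpr fun h =>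
    (Ideal.IsMaximal.ne_top inferInstance : maximalIdeal A ≠ ⊤)
      (top_le_iff.mp (h ▸ Ideal.pow_le_self (Nat.succ_ne_zero n)))

instance instIsLocalRingQuotMaxPow : IsLocalRing (A ⧸ maximalIdeal A ^ (n + 1)) :=
  IsLocalRing.of_surjective' (Ideal.Quotient.mk (maximalIdeal A ^ (n + 1)))
    Ideal.Quotient.mk_surjective

theorem isLocalHom_mk_maxPow :
    IsLocalHom (Ideal.Quotient.mk (maximalIdeal A ^ (n + 1))) :=
  IsLocalHom.of_surjective _ Ideal.Quotient.mk_surjective

theorem maximalIdeal_quotMaxPow :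
    maximalIdeal (A ⧸ maximalIdeal A ^ (n + 1)) =
      (maximalIdeal A).map (Ideal.Quotient.mk (maximalIdeal A ^ (n + 1))) :=
  (map_maximalIdeal_of_surjective _ Ideal.Quotient.mk_surjective).symm

theorem maximalIdeal_quotMaxPow_pow :
    maximalIdeal (A ⧸ maximalIdeal A ^ (n + 1)) ^ (n + 1) = ⊥ := by
  rw [maximalIdeal_quotMaxPow, ← Ideal.map_pow, Ideal.map_eq_bot_iff_le_ker, Ideal.mk_ker]

instance instIsArtinianRingQuotMaxPow [IsNoetherianRing A] :
    IsArtinianRing (A ⧸ maximalIdeal A ^ (n + 1)) := by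
  rw [isArtinianRing_iff_isNilpotent_maximalIdeal]
  exact ⟨n + 1, maximalIdeal_quotMaxPow_pow A n⟩

variable {A} (𝒪 : Type) [CommRing 𝒪] [IsLocalRing 𝒪] [Algebra 𝒪 A]

theorem isArtinianTestAlgebra_quotMaxPow [IsNoetherianRing A]
    (hloc : IsLocalHom (algebraMap 𝒪 A))
    (hsurj : Function.Surjective (residue A ∘ algebraMap 𝒪 A)) :
    GaloisRep.IsArtinianTestAlgebra 𝒪 (A ⧸ maximalIdeal A ^ (n + 1)) where
  isLocalHom := by
    have h1 := isLocalHom_mk_maxPow A n
    have : algebraMap 𝒪 (A ⧸ maximalIdeal A ^ (n + 1)) =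
        (Ideal.Quotient.mk (maximalIdeal A ^ (n + 1))).comp (algebraMap 𝒪 A) := rfl
    rw [this]
    exact RingHom.isLocalHom_comp _ _
  residue_surjective := by
    intro x
    obtain ⟨y, rfl⟩ := residue_surjective x
    obtain ⟨a, rfl⟩ := Ideal.Quotient.mk_surjective y
    obtain ⟨o, ho⟩ := hsurj (residue A a)
    refine ⟨o, ?_⟩
    simp only [Function.comp_apply] at ho ⊢
    rw [← sub_eq_zero, ← map_sub, residue_eq_zero_iff] at ho ⊢
    have : algebraMap 𝒪 (A ⧸ maximalIdeal A ^ (n + 1)) o -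
        Ideal.Quotient.mk (maximalIdeal A ^ (n + 1)) a =
        Ideal.Quotient.mk (maximalIdeal A ^ (n + 1)) (algebraMap 𝒪 A o - a) := by
      rw [map_sub]; rfl
    rw [this, maximalIdeal_quotMaxPow]
    exact Ideal.mem_map_of_mem _ ho
  isArtinian := inferInstance

end QuotPow

end Fermat.Agent.S53
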