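import Mathlib
import Fermat.Agent.S53.MatrixLayer
import Fermat.Agent.S53.LimRing
import Fermat.Agent.S53.FibreProduct
import Fermat.Agent.S53.Glue

set_option autoImplicit false
set_option linter.unusedSectionVars false

/-!
# The universal matrix representation over the inverse limit (package M5 for S53)
-/

namespace Fermat.Agent.S53

open IsLocalRing

section LimRep

variable {𝒪 : Type} [CommRing 𝒪] {R : ℕ → Type} [∀ n, CommRing (R n)] [∀ n, Algebra 𝒪 (R n)]
  {π : ∀ n, R (n + 1) →ₐ[𝒪] R n}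
  (r : ∀ n, GQ →* Matrix (Fin 2) (Fin 2) (R n))
  (hcompat : ∀ n, mapMat (π n : R (n + 1) →+* R n) (r (n + 1)) = r n)

/-- The matrix representation over the inverse limit attached to a compatible system. -/
noncomputable def limRep : GQ →* Matrix (Fin 2) (Fin 2) (Lim π) where
  toFun g := fun i j => Lim.mk (fun n => r n g i j) fun n => by
    have := congrArg (fun s : GQ →* Matrix (Fin 2) (Fin 2) (R n) => s g i j) (hcompat n)
    exact this
  map_one' := by
    refine Matrix.ext fun i j => lim_ext fun n => ?_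
    rw [proj_mk, map_one, Matrix.one_apply, Matrix.one_apply]
    split_ifs <;> simp
  map_mul' g h := by
    refine Matrix.ext fun i j => lim_ext fun n => ?_
    rw [proj_mk, map_mul, Matrix.mul_apply, Matrix.mul_apply, map_sum]
    refine Finset.sum_congr rfl fun l _ => ?_
    rw [map_mul]
    rfl

@[simp] theorem proj_limRep_apply (n : ℕ) (g : GQ) (i j : Fin 2) :
    proj π n (limRep r hcompat g i j) = r n g i j := rfl

theorem mapMat_proj_limRep (n : ℕ) :
    mapMat (proj π n : Lim π →+* R n) (limRep r hcompat) = r n := by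
  ext g i j
  rfl

end LimRep

section Structure

variable {𝒪 : Type} [CommRing 𝒪] {R : ℕ → Type} [∀ n, CommRing (R n)] [∀ n, Algebra 𝒪 (R n)]
  {π : ∀ n, R (n + 1) →ₐ[𝒪] R n} [∀ n, IsLocalRing (R n)] [∀ n, Finite (R n)]
  [IsLocalRing (Lim π)]

variable (r : ∀ n, GQ →* Matrix (Fin 2) (Fin 2) (R n))
  (hcompat : ∀ n, mapMat (π n : R (n + 1) →+* R n) (r (n + 1)) = r n)

/-- Continuity of the limit representation. -/
theorem matCont_limRep (hπ : ∀ n, Function.Surjective (π n))
    (hker : ∀ n, RingHom.ker (π n) = maximalIdeal (R (n + 1)) ^ (n + 1))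
    (hrc : ∀ n, MatCont (r n)) : MatCont (limRep r hcompat) := by
  intro N
  cases N with
  | zero =>
    obtain ⟨L, hL, -⟩ := hrc 0 0
    refine ⟨L, hL, fun σ _ i j => ?_⟩
    rw [pow_zero, Ideal.one_eq_top]
    exact Submodule.mem_top
  | succ m =>
    obtain ⟨L, hL, h⟩ := hrc m (m + 1)
    refine ⟨L, hL, fun σ hσ i j => ?_⟩
    rw [← ker_proj_eq_maximalIdeal_pow hπ hker m, RingHom.mem_ker]
    have h1 := h σ hσ i j
    rw [maximalIdeal_pow_eq_bot hπ hker m, Ideal.mem_bot] at h1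
    rw [← h1, Matrix.sub_apply, Matrix.sub_apply, map_sub, proj_limRep_apply,
      Matrix.one_apply, Matrix.one_apply]
    split_ifs <;> simp

end Structure

section Condition

/-- An Artinian local ring has nilpotent maximal ideal. -/
theorem exists_maximalIdeal_pow_succ_eq_bot (B : Type) [CommRing B] [IsLocalRing B]
    [IsArtinianRing B] : ∃ N : ℕ, maximalIdeal B ^ (N + 1) = ⊥ := by
  obtain ⟨n, hn⟩ := IsArtinianRing.isNilpotent_jacobson_bot (R := B)
  rw [IsLocalRing.jacobson_eq_maximalIdeal _ bot_ne_top] at hn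
  refine ⟨n, ?_⟩
  rw [eq_bot_iff, ← Ideal.zero_eq_bot, ← hn]
  exact Ideal.pow_le_pow_right (Nat.le_succ n)

variable {𝒪 : Type} [CommRing 𝒪] [IsLocalRing 𝒪]
  {𝒟 : ∀ ⦃A : Type⦄ [CommRing A] [IsLocalRing A] [Algebra 𝒪 A], GaloisRepAdic A → Prop}
  (h𝒟 : GaloisRep.IsDeformationCondition 𝒪 𝒟)
  {R : ℕ → Type} [∀ n, CommRing (R n)] [∀ n, Algebra 𝒪 (R n)]
  {π : ∀ n, R (n + 1) →ₐ[𝒪] R n} [∀ n, IsLocalRing (R n)] [∀ n, Finite (R n)]
  [∀ n, IsTestAlg 𝒪 (R n)]
  [IsLocalRing (Lim π)] [IsNoetherianRing (Lim π)]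
  [IsAdicComplete (maximalIdeal (Lim π)) (Lim π)]
  (r : ∀ n, GQ →* Matrix (Fin 2) (Fin 2) (R n))
  (hcompat : ∀ n, mapMat (π n : R (n + 1) →+* R n) (r (n + 1)) = r n)

/-- Any local `𝒪`-algebra map from the limit to a local ring with `𝔪^(N+1) = 0` factors
through level `N`. -/
theorem exists_factor_proj (hπ : ∀ n, Function.Surjective (π n))
    (hker : ∀ n, RingHom.ker (π n) = maximalIdeal (R (n + 1)) ^ (n + 1))
    {B : Type} [CommRing B] [IsLocalRing B] [Algebra 𝒪 B] (q : Lim π →ₐ[𝒪] B)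
    (hq : IsLocalHom (q : Lim π →+* B)) {N : ℕ} (hN : maximalIdeal B ^ (N + 1) = ⊥) :
    ∃ q' : R N →ₐ[𝒪] B, q'.comp (proj π N) = q := by
  have H : RingHom.ker (proj π N).toRingHom ≤ RingHom.ker q.toRingHom := by
    intro x hx
    have hx' : x ∈ maximalIdeal (Lim π) ^ (N + 1) := by
      rw [← ker_proj_eq_maximalIdeal_pow hπ hker N]
      exact hx
    have h1 := map_maximalIdeal_pow_le (q : Lim π →+* B) hq (N + 1) hx'
    rw [hN, Ideal.mem_bot] at h1
    exact h1
  exact ⟨AlgHom.liftOfSurjective (proj π N) (proj_surjective hπ N) q H,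
    AlgHom.liftOfSurjective_comp _ _ _ _⟩

include h𝒟 in
/-- The deformation condition holds for the limit representation. -/
theorem cond_limRep (hπ : ∀ n, Function.Surjective (π n))
    (hker : ∀ n, RingHom.ker (π n) = maximalIdeal (R (n + 1)) ^ (n + 1))
    (hrc : ∀ n, MatCont (r n))
    (hloc : IsLocalHom (algebraMap 𝒪 (Lim π)))
    (hres : Function.Surjective (residue (Lim π) ∘ algebraMap 𝒪 (Lim π)))
    (hD : ∀ n, 𝒟 (ofMatrix (r n) (hrc n))) :
    𝒟 (ofMatrix (limRep r hcompat) (matCont_limRep r hcompat hπ hker hrc)) := by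
  rw [h𝒟.iff_forall_surjective hloc hres]
  intro B _ _ _ hB q hq _
  haveI := hB.isArtinian
  haveI : IsTestAlg 𝒪 B := isTestAlg_of_isArtinianTestAlgebra 𝒪 hB
  obtain ⟨N, hN⟩ := exists_maximalIdeal_pow_succ_eq_bot B
  obtain ⟨q', hq'⟩ := exists_factor_proj hπ hker q hq hN
  have hq'loc : IsLocalHom (q' : R N →+* B) := isLocalHom_of_algHom 𝒪 q'
  have h1 : 𝒟 ((ofMatrix (r N) (hrc N)).baseChangeAlong (q' : R N →+* B) hq'loc) :=
    h𝒟.baseChangeAlong (isArtinianTestAlgebra_of_finite 𝒪) hB q' hq'loc (hD N)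
  have h2 := baseChangeAlong_ofMatrix_isEquiv (q' : R N →+* B) hq'loc (hrc N)
  have h3 := baseChangeAlong_ofMatrix_isEquiv (q : Lim π →+* B) hq
    (matCont_limRep r hcompat hπ hker hrc)
  have h4 : mapMat (q' : R N →+* B) (r N) = mapMat (q : Lim π →+* B) (limRep r hcompat) := by
    rw [← hq', ← mapMat_proj_limRep r hcompat N]
    rfl
  exact h𝒟.of_isEquiv hB (isEquiv_trans h2
    (isEquiv_trans (ofMatrix_isEquiv_of_eq _ _ h4) (isEquiv_symm h3))) h1

end Condition

end Fermat.Agent.S53
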