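import Mathlib
import Fermat.Prelude.Def_GaloisRep_DeformationCondition
import Fermat.Agent.S53.MatrixLayer
import Fermat.Agent.S53.LimRing
import Fermat.Agent.S53.LimRingNoeth
import Fermat.Agent.S53.LimLift
import Fermat.Agent.S53.LimRep
import Fermat.Agent.S53.QuotPow
import Fermat.Agent.S53.FibreProduct
import Fermat.Agent.S53.UnivRep
import Fermat.Agent.S53.NF

set_option autoImplicit false
set_option linter.unusedSectionVars false

/-!
# The universal property of the limit ring (S53, package M6), in abstract form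

We work with an abstract "normal form" predicate `NF` on matrix representations, and a tower
`R n` of finite local `𝒪`-algebras carrying compatible matrix representations `r n` whose entries
generate `R n`, such that every Artinian normal-form test object of type `𝒟` with
`𝔪 ^ (n+1) = 0` is (uniquely) the image of `r n`.  Then `Lim π` with the limit representation
has the universal property required by `GaloisRep.DeformationRingData`.
-/

namespace Fermat.Agent.S53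

open IsLocalRing

namespace H9

section IsEquivBasics

variable {A : Type} [CommRing A] [IsLocalRing A]

theorem isEquiv_refl (ρ : GaloisRepAdic A) : ρ.IsEquiv ρ := ⟨GaloisRepAdic.Equiv.refl ρ⟩

theorem isEquiv_symm {ρ ρ' : GaloisRepAdic A} (h : ρ.IsEquiv ρ') : ρ'.IsEquiv ρ :=
  h.elim fun e => ⟨e.symm⟩

theorem isEquiv_trans {ρ ρ' ρ'' : GaloisRepAdic A} (h : ρ.IsEquiv ρ') (h' : ρ'.IsEquiv ρ'') :
    ρ.IsEquiv ρ'' := h.elim fun e => h'.elim fun e' => ⟨e.trans e'⟩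

theorem isEquiv_baseChangeAlong {B : Type} [CommRing B] [IsLocalRing B] (φ : A →+* B)
    (hφ : IsLocalHom φ) {ρ ρ' : GaloisRepAdic A} (h : ρ.IsEquiv ρ') :
    (ρ.baseChangeAlong φ hφ).IsEquiv (ρ'.baseChangeAlong φ hφ) :=
  h.elim fun e => ⟨e.baseChangeAlong φ hφ⟩

/-- `ofMatrix` only depends on the matrix representation. -/
theorem ofMatrix_isEquiv_of_eq {r r' : GQ →* Matrix (Fin 2) (Fin 2) A} (hr : MatCont r)
    (hr' : MatCont r') (h : r = r') : (ofMatrix r hr).IsEquiv (ofMatrix r' hr') := by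
  subst h
  exact isEquiv_refl _

end IsEquivBasics

end H9

section Univ

variable {𝒪 : Type} [CommRing 𝒪] [IsLocalRing 𝒪]
  {𝒟 : ∀ ⦃A : Type⦄ [CommRing A] [IsLocalRing A] [Algebra 𝒪 A], GaloisRepAdic A → Prop}
  (NF : ∀ ⦃A : Type⦄ [CommRing A] [IsLocalRing A] [Algebra 𝒪 A],
    (GQ →* Matrix (Fin 2) (Fin 2) A) → Prop)
  {R : ℕ → Type} [∀ n, CommRing (R n)] [∀ n, Algebra 𝒪 (R n)] [∀ n, IsLocalRing (R n)]
  {π : ∀ n, R (n + 1) →ₐ[𝒪] R n}
  (r : ∀ n, GQ →* Matrix (Fin 2) (Fin 2) (R n))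
  (hr : ∀ n, mapMat (π n : R (n + 1) →+* R n) (r (n + 1)) = r n)

/-- The set of matrix entries of a matrix representation. -/
def entrySet {A : Type} [CommRing A] (ρ : GQ →* Matrix (Fin 2) (Fin 2) A) : Set A :=
  {x | ∃ σ i j, x = ρ σ i j}

theorem proj_image_entrySet_limRep (n : ℕ) :
    proj π n '' entrySet (limRep r hr) = entrySet (r n) := by
  ext x
  constructor
  · rintro ⟨y, ⟨σ, i, j, rfl⟩, rfl⟩
    exact ⟨σ, i, j, rfl⟩
  · rintro ⟨σ, i, j, rfl⟩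
    exact ⟨limRep r hr σ i j, ⟨σ, i, j, rfl⟩, rfl⟩

/-- Two algebra maps agreeing on the entries of `r n` (which generate) are equal. -/
theorem algHom_ext_of_entrySet {A B : Type} [CommRing A] [CommRing B] [Algebra 𝒪 A]
    [Algebra 𝒪 B] (ρ : GQ →* Matrix (Fin 2) (Fin 2) A)
    (hgen : Algebra.adjoin 𝒪 (entrySet ρ) = ⊤) (f g : A →ₐ[𝒪] B)
    (h : mapMat (f : A →+* B) ρ = mapMat (g : A →+* B) ρ) : f = g := by
  refine AlgHom.ext_of_adjoin_eq_top hgen ?_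
  rintro _ ⟨σ, i, j, rfl⟩
  have := congrArg (fun ρ' : GQ →* Matrix (Fin 2) (Fin 2) B => ρ' σ i j) h
  exact this

/-- **Existence half of the universal property** (matrix form). -/
theorem Lim.exists_classifying (h𝒟 : GaloisRep.IsDeformationCondition 𝒪 𝒟)
    (hgen : ∀ n, Algebra.adjoin 𝒪 (entrySet (r n)) = ⊤)
    (hNFmap : ∀ ⦃A B : Type⦄ [CommRing A] [IsLocalRing A] [Algebra 𝒪 A] [CommRing B]
      [IsLocalRing B] [Algebra 𝒪 B] (φ : A →ₐ[𝒪] B), IsLocalHom (φ : A →+* B) →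
      ∀ ρ : GQ →* Matrix (Fin 2) (Fin 2) A, NF ρ → NF (mapMat (φ : A →+* B) ρ))
    (hkey : ∀ (n : ℕ) ⦃B : Type⦄ [CommRing B] [IsLocalRing B] [Algebra 𝒪 B],
      GaloisRep.IsArtinianTestAlgebra 𝒪 B → maximalIdeal B ^ (n + 1) = ⊥ →
      ∀ (ρ : GQ →* Matrix (Fin 2) (Fin 2) B) (hρ : MatCont ρ), NF ρ → 𝒟 (ofMatrix ρ hρ) →
      ∃ f : R n →ₐ[𝒪] B, mapMat (f : R n →+* B) (r n) = ρ)
    (A : Type) [CommRing A] [IsLocalRing A] [IsNoetherianRing A]
    [IsAdicComplete (maximalIdeal A) A] [Algebra 𝒪 A] [IsLocalHom (algebraMap 𝒪 A)]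
    (hsurj : Function.Surjective (residue A ∘ algebraMap 𝒪 A))
    (rA : GQ →* Matrix (Fin 2) (Fin 2) A) (hrA : MatCont rA) (hNFA : NF rA)
    (hDA : 𝒟 (ofMatrix rA hrA)) :
    ∃ Φ : Lim π →ₐ[𝒪] A, mapMat (Φ : Lim π →+* A) (limRep r hr) = rA := by
  have hArt : ∀ n, GaloisRep.IsArtinianTestAlgebra 𝒪 (A ⧸ maximalIdeal A ^ (n + 1)) :=
    fun n => isArtinianTestAlgebra_quotMaxPow n 𝒪 inferInstance hsurj
  let q : ∀ n, A →ₐ[𝒪] A ⧸ maximalIdeal A ^ (n + 1) := fun n => Ideal.Quotient.mkₐ 𝒪 _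
  have hlocq : ∀ n, IsLocalHom (q n : A →+* A ⧸ maximalIdeal A ^ (n + 1)) :=
    fun n => isLocalHom_mk_maxPow A n
  have hDn : ∀ n, 𝒟 (ofMatrix (mapMat (q n : A →+* A ⧸ maximalIdeal A ^ (n + 1)) rA)
      (matCont_mapMat _ (hlocq n) hrA)) := by
    intro n
    have h1 := (h𝒟.iff_forall_surjective inferInstance hsurj (ofMatrix rA hrA)).mp hDA (hArt n)
      (q n) (hlocq n) (Ideal.Quotient.mkₐ_surjective 𝒪 _)
    exact h𝒟.of_isEquiv (hArt n) (baseChangeAlong_ofMatrix_isEquiv _ (hlocq n) hrA) h1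
  choose f hf using fun n => hkey n (hArt n) (maximalIdeal_quotMaxPow_pow A n) _ _
    (hNFmap (q n) (hlocq n) rA hNFA) (hDn n)
  have hfe : ∀ n σ i j, f n (r n σ i j) = q n (rA σ i j) := by
    intro n σ i j
    have := congrArg (fun ρ' : GQ →* Matrix (Fin 2) (Fin 2) (A ⧸ maximalIdeal A ^ (n + 1)) =>
      ρ' σ i j) (hf n)
    exact this
  have hcompat : ∀ n, (quotSucc (𝒪 := 𝒪) (maximalIdeal A) n).comp (f (n + 1)) =
      (f n).comp (π n) := by
    intro n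
    apply algHom_ext_of_entrySet (r (n + 1)) (hgen (n + 1))
    ext σ i j
    have h1 : π n (r (n + 1) σ i j) = r n σ i j := by
      have := congrArg (fun ρ' : GQ →* Matrix (Fin 2) (Fin 2) (R n) => ρ' σ i j) (hr n)
      exact this
    show quotSucc (𝒪 := 𝒪) (maximalIdeal A) n (f (n + 1) (r (n + 1) σ i j)) =
      f n (π n (r (n + 1) σ i j))
    rw [h1, hfe, hfe]
    rfl
  obtain ⟨Φ, hΦ, -⟩ := Lim.exists_unique_lift (π := π) (maximalIdeal A) f hcompat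
  refine ⟨Φ, ?_⟩
  ext σ i j
  show Φ (limRep r hr σ i j) = rA σ i j
  rw [← sub_eq_zero]
  refine IsHausdorff.haus' (I := maximalIdeal A) _ fun n => ?_
  rw [SModEq.zero, smul_eq_mul, Ideal.mul_top]
  have h2 := congrArg (fun g : Lim π →ₐ[𝒪] A ⧸ maximalIdeal A ^ (n + 1) =>
    g (limRep r hr σ i j)) (hΦ n)
  simp only [AlgHom.comp_apply, proj_limRep_apply, hfe] at h2
  have h3 : Ideal.Quotient.mk (maximalIdeal A ^ (n + 1)) (Φ (limRep r hr σ i j) - rA σ i j) = 0 := by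
    rw [map_sub, sub_eq_zero]
    exact h2
  rw [Ideal.Quotient.eq_zero_iff_mem] at h3
  exact Ideal.pow_le_pow_right (Nat.le_succ n) h3

/-- **Uniqueness half of the universal property** (matrix form): a local `𝒪`-algebra map out of
`Lim π` into a separated local ring is determined by the image of the limit representation. -/
theorem Lim.algHom_ext_of_mapMat [IsLocalRing (Lim π)]
    (hgen : ∀ n, Algebra.adjoin 𝒪 (entrySet (r n)) = ⊤)
    (hkerpow : ∀ n, RingHom.ker (proj π n) = maximalIdeal (Lim π) ^ (n + 1))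
    {A : Type} [CommRing A] [IsLocalRing A] [IsHausdorff (maximalIdeal A) A] [Algebra 𝒪 A]
    (Φ Ψ : Lim π →ₐ[𝒪] A) (hΦ : IsLocalHom (Φ : Lim π →+* A))
    (hΨ : IsLocalHom (Ψ : Lim π →+* A))
    (h : mapMat (Φ : Lim π →+* A) (limRep r hr) = mapMat (Ψ : Lim π →+* A) (limRep r hr)) :
    Φ = Ψ := by
  refine Lim.algHom_ext_of_adjoin (maximalIdeal A) (entrySet (limRep r hr)) ?_ Φ Ψ ?_ ?_ ?_
  · intro n
    rw [proj_image_entrySet_limRep]
    exact hgen n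
  · exact Lim.map_ker_proj_le_pow (maximalIdeal A) (maximalIdeal (Lim π)) hkerpow Φ
      fun x hx => map_nonunit (Φ : Lim π →+* A) x hx
  · exact Lim.map_ker_proj_le_pow (maximalIdeal A) (maximalIdeal (Lim π)) hkerpow Ψ
      fun x hx => map_nonunit (Ψ : Lim π →+* A) x hx
  · rintro _ ⟨σ, i, j, rfl⟩
    have := congrArg (fun ρ' : GQ →* Matrix (Fin 2) (Fin 2) A => ρ' σ i j) h
    exact this

/-- A deformation condition is invariant under equivalence also over complete Noetherian test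
algebras. -/
theorem H9.of_isEquiv_complete (h𝒟 : GaloisRep.IsDeformationCondition 𝒪 𝒟)
    {A : Type} [CommRing A] [IsLocalRing A] [IsNoetherianRing A]
    [IsAdicComplete (maximalIdeal A) A] [Algebra 𝒪 A] (hloc : IsLocalHom (algebraMap 𝒪 A))
    (hsurj : Function.Surjective (residue A ∘ algebraMap 𝒪 A))
    {ρ ρ' : GaloisRepAdic A} (he : ρ.IsEquiv ρ') (hρ : 𝒟 ρ) : 𝒟 ρ' := by
  rw [h𝒟.iff_forall_surjective hloc hsurj] at hρ ⊢
  intro B _ _ _ hB q hq hqs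
  exact h𝒟.of_isEquiv hB (H9.isEquiv_baseChangeAlong _ hq he) (hρ hB q hq hqs)

/-- **The universal property of `Lim π`**, in exactly the shape of the field `universal` of
`GaloisRep.DeformationRingData`. -/
theorem Lim.universal {ρbar : ResidualGaloisRep (ResidueField 𝒪)}
    [IsLocalRing (Lim π)] [IsLocalHom (algebraMap 𝒪 (Lim π))]
    (hresR : Function.Surjective (residue (Lim π) ∘ algebraMap 𝒪 (Lim π)))
    (h𝒟 : GaloisRep.IsDeformationCondition 𝒪 𝒟)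
    (hgen : ∀ n, Algebra.adjoin 𝒪 (entrySet (r n)) = ⊤)
    (hkerpow : ∀ n, RingHom.ker (proj π n) = maximalIdeal (Lim π) ^ (n + 1))
    (hcontU : MatCont (limRep r hr)) (hNFU : NF (limRep r hr))
    (hNFmap : ∀ ⦃A B : Type⦄ [CommRing A] [IsLocalRing A] [Algebra 𝒪 A] [CommRing B]
      [IsLocalRing B] [Algebra 𝒪 B] (φ : A →ₐ[𝒪] B), IsLocalHom (φ : A →+* B) →
      ∀ ρ : GQ →* Matrix (Fin 2) (Fin 2) A, NF ρ → NF (mapMat (φ : A →+* B) ρ))
    (hNFuniq : ∀ ⦃A : Type⦄ [CommRing A] [IsLocalRing A] [Algebra 𝒪 A],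
      IsLocalHom (algebraMap 𝒪 A) → Function.Surjective (residue A ∘ algebraMap 𝒪 A) →
      ∀ ρ ρ' : GQ →* Matrix (Fin 2) (Fin 2) A, NF ρ → NF ρ' →
      ∀ P : Matrix (Fin 2) (Fin 2) A, IsUnit P → (∀ g, P * ρ g = ρ' g * P) → ρ = ρ')
    (hNFex : ∀ ⦃A : Type⦄ [CommRing A] [IsLocalRing A] [IsNoetherianRing A]
      [IsAdicComplete (maximalIdeal A) A] [Algebra 𝒪 A] [IsLocalHom (algebraMap 𝒪 A)],
      Function.Surjective (residue A ∘ algebraMap 𝒪 A) → ∀ ρA : GaloisRepAdic A,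
      ρA.residual.IsEquiv (ρbar.baseChangeAlong (ResidueField.map (algebraMap 𝒪 A))) →
      ∃ (rA : GQ →* Matrix (Fin 2) (Fin 2) A) (hrA : MatCont rA),
        NF rA ∧ ρA.IsEquiv (ofMatrix rA hrA))
    (hkey : ∀ (n : ℕ) ⦃B : Type⦄ [CommRing B] [IsLocalRing B] [Algebra 𝒪 B],
      GaloisRep.IsArtinianTestAlgebra 𝒪 B → maximalIdeal B ^ (n + 1) = ⊥ →
      ∀ (ρ : GQ →* Matrix (Fin 2) (Fin 2) B) (hρ : MatCont ρ), NF ρ → 𝒟 (ofMatrix ρ hρ) →
      ∃ f : R n →ₐ[𝒪] B, mapMat (f : R n →+* B) (r n) = ρ) :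
    ∀ (A : Type) [CommRing A] [IsLocalRing A] [IsNoetherianRing A]
      [IsAdicComplete (maximalIdeal A) A] [Algebra 𝒪 A] [IsLocalHom (algebraMap 𝒪 A)],
      Function.Surjective (residue A ∘ algebraMap 𝒪 A) →
      ∀ ρA : GaloisRepAdic A, 𝒟 ρA →
        ρA.residual.IsEquiv (ρbar.baseChangeAlong (ResidueField.map (algebraMap 𝒪 A))) →
        ∃! φ : Lim π →ₐ[𝒪] A, ∃ hφ : IsLocalHom (φ : Lim π →+* A),
          ((ofMatrix (limRep r hr) hcontU).baseChangeAlong (φ : Lim π →+* A) hφ).IsEquiv ρA := by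
  intro A _ _ _ _ _ _ hsurj ρA hDρA hres
  obtain ⟨rA, hrA, hNFA, hequiv⟩ := hNFex hsurj ρA hres
  have hDA : 𝒟 (ofMatrix rA hrA) := H9.of_isEquiv_complete h𝒟 inferInstance hsurj hequiv hDρA
  obtain ⟨Φ, hΦ⟩ := Lim.exists_classifying NF r hr h𝒟 hgen hNFmap hkey A hsurj rA hrA hNFA hDA
  have : IsTestAlg 𝒪 (Lim π) := ⟨inferInstance, hresR⟩
  have : IsTestAlg 𝒪 A := ⟨inferInstance, hsurj⟩
  have hloc : ∀ φ : Lim π →ₐ[𝒪] A, IsLocalHom (φ : Lim π →+* A) :=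
    fun φ => isLocalHom_of_algHom 𝒪 φ
  -- every admissible `φ` maps the universal matrix representation to `rA`
  have hmain : ∀ (φ : Lim π →ₐ[𝒪] A) (hφ : IsLocalHom (φ : Lim π →+* A)),
      ((ofMatrix (limRep r hr) hcontU).baseChangeAlong (φ : Lim π →+* A) hφ).IsEquiv ρA →
      mapMat (φ : Lim π →+* A) (limRep r hr) = rA := by
    intro φ hφ he
    have h1 : (ofMatrix (mapMat (φ : Lim π →+* A) (limRep r hr))
        (matCont_mapMat _ hφ hcontU)).IsEquiv (ofMatrix rA hrA) :=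
      H9.isEquiv_trans (H9.isEquiv_symm (baseChangeAlong_ofMatrix_isEquiv _ hφ hcontU))
        (H9.isEquiv_trans he hequiv)
    obtain ⟨P, hP, hconj⟩ := exists_conj_of_ofMatrix_isEquiv _ _ h1
    exact hNFuniq inferInstance hsurj _ _ (hNFmap φ hφ _ hNFU) hNFA P hP hconj
  refine ⟨Φ, ⟨hloc Φ, ?_⟩, ?_⟩
  · refine H9.isEquiv_trans (baseChangeAlong_ofMatrix_isEquiv _ (hloc Φ) hcontU) ?_
    exact H9.isEquiv_trans (H9.ofMatrix_isEquiv_of_eq _ hrA hΦ) (H9.isEquiv_symm hequiv)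
  · rintro φ ⟨hφ, he⟩
    exact Lim.algHom_ext_of_mapMat r hr hgen hkerpow φ Φ hφ (hloc Φ)
      ((hmain φ hφ he).trans hΦ.symm)

end Univ

section Concrete

variable {𝒪 : Type} [CommRing 𝒪] [IsLocalRing 𝒪] {ρbar : ResidualGaloisRep (ResidueField 𝒪)}
  (D : NFData 𝒪 ρbar)

/-- The normal-form predicate with the local-hom hypothesis bundled. -/
def NFPred : ∀ ⦃A : Type⦄ [CommRing A] [IsLocalRing A] [Algebra 𝒪 A],
    (GQ →* Matrix (Fin 2) (Fin 2) A) → Prop :=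
  fun A _ _ _ ρ => ∃ _h : IsLocalHom (algebraMap 𝒪 A), IsNF D A ρ

theorem nfPred_iff {A : Type} [CommRing A] [IsLocalRing A] [Algebra 𝒪 A]
    [h : IsLocalHom (algebraMap 𝒪 A)] (ρ : GQ →* Matrix (Fin 2) (Fin 2) A) :
    NFPred D ρ ↔ IsNF D A ρ :=
  ⟨fun ⟨_, h'⟩ => h', fun h' => ⟨h, h'⟩⟩

theorem NFPred.map ⦃A B : Type⦄ [CommRing A] [IsLocalRing A] [Algebra 𝒪 A] [CommRing B]
    [IsLocalRing B] [Algebra 𝒪 B] (φ : A →ₐ[𝒪] B) (hφ : IsLocalHom (φ : A →+* B))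
    (ρ : GQ →* Matrix (Fin 2) (Fin 2) A) (h : NFPred D ρ) :
    NFPred D (mapMat (φ : A →+* B) ρ) := by
  obtain ⟨hA, hNF⟩ := h
  have hB : IsLocalHom (algebraMap 𝒪 B) := by
    have : algebraMap 𝒪 B = (φ : A →+* B).comp (algebraMap 𝒪 A) := by
      ext o; exact (φ.commutes o).symm
    rw [this]
    exact RingHom.isLocalHom_comp _ _
  exact ⟨hB, hNF.map D φ hφ⟩

theorem NFPred.unique ⦃A : Type⦄ [CommRing A] [IsLocalRing A] [Algebra 𝒪 A]
    (ρ ρ' : GQ →* Matrix (Fin 2) (Fin 2) A) (h : NFPred D ρ) (h' : NFPred D ρ')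
    (P : Matrix (Fin 2) (Fin 2) A) (hP : IsUnit P) (hc : ∀ g, P * ρ g = ρ' g * P) : ρ = ρ' := by
  obtain ⟨hA, hNF⟩ := h
  obtain ⟨_, hNF'⟩ := h'
  exact hNF.unique D hNF' P hP hc

/-- **Universal property of `Lim π`**, concrete version for the rigid normal form of `NF.lean`. -/
theorem Lim.universal_isNF
    {𝒟 : ∀ ⦃A : Type⦄ [CommRing A] [IsLocalRing A] [Algebra 𝒪 A], GaloisRepAdic A → Prop}
    (h𝒟 : GaloisRep.IsDeformationCondition 𝒪 𝒟)
    {R : ℕ → Type} [∀ n, CommRing (R n)] [∀ n, Algebra 𝒪 (R n)] [∀ n, IsLocalRing (R n)]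
    {π : ∀ n, R (n + 1) →ₐ[𝒪] R n}
    (r : ∀ n, GQ →* Matrix (Fin 2) (Fin 2) (R n))
    (hr : ∀ n, mapMat (π n : R (n + 1) →+* R n) (r (n + 1)) = r n)
    [IsLocalRing (Lim π)] [IsLocalHom (algebraMap 𝒪 (Lim π))]
    (hresR : Function.Surjective (residue (Lim π) ∘ algebraMap 𝒪 (Lim π)))
    (hgen : ∀ n, Algebra.adjoin 𝒪 (entrySet (r n)) = ⊤)
    (hkerpow : ∀ n, RingHom.ker (proj π n) = maximalIdeal (Lim π) ^ (n + 1))
    (hcontU : MatCont (limRep r hr)) (hNFU : IsNF D (Lim π) (limRep r hr))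
    (hkey : ∀ (n : ℕ) ⦃B : Type⦄ [CommRing B] [IsLocalRing B] [Algebra 𝒪 B]
      [IsLocalHom (algebraMap 𝒪 B)],
      GaloisRep.IsArtinianTestAlgebra 𝒪 B → maximalIdeal B ^ (n + 1) = ⊥ →
      ∀ (ρ : GQ →* Matrix (Fin 2) (Fin 2) B) (hρ : MatCont ρ), IsNF D B ρ → 𝒟 (ofMatrix ρ hρ) →
      ∃ f : R n →ₐ[𝒪] B, mapMat (f : R n →+* B) (r n) = ρ) :
    ∀ (A : Type) [CommRing A] [IsLocalRing A] [IsNoetherianRing A]
      [IsAdicComplete (maximalIdeal A) A] [Algebra 𝒪 A] [IsLocalHom (algebraMap 𝒪 A)],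
      Function.Surjective (residue A ∘ algebraMap 𝒪 A) →
      ∀ ρA : GaloisRepAdic A, 𝒟 ρA →
        ρA.residual.IsEquiv (ρbar.baseChangeAlong (ResidueField.map (algebraMap 𝒪 A))) →
        ∃! φ : Lim π →ₐ[𝒪] A, ∃ hφ : IsLocalHom (φ : Lim π →+* A),
          ((ofMatrix (limRep r hr) hcontU).baseChangeAlong (φ : Lim π →+* A) hφ).IsEquiv ρA := by
  refine Lim.universal (NFPred D) r hr hresR h𝒟 hgen hkerpow hcontU ⟨inferInstance, hNFU⟩
    (NFPred.map D) (fun A _ _ _ _ _ ρ ρ' h h' P hP hc => NFPred.unique D ρ ρ' h h' P hP hc)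
    ?_ ?_
  · intro A _ _ _ _ _ _ hsurj ρA hres
    obtain ⟨rA, hrA, hNF, he⟩ := exists_isNF D ρA hres
    exact ⟨rA, hrA, ⟨inferInstance, hNF⟩, H9.isEquiv_symm he⟩
  · intro n B _ _ _ hB hpow ρ hρ hNF hD
    obtain ⟨hloc, hNF'⟩ := hNF
    exact hkey n hB hpow ρ hρ hNF' hD

end Concrete

end Fermat.Agent.S53
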