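import Mathlib
import Fermat.Prelude.Def_GaloisRep_DeformationRingData
import Fermat.Prelude.Def_GaloisRep_DeformationCondition
import Fermat.Agent.S53.MatrixLayer
import Fermat.Agent.S53.LimRing
import Fermat.Agent.S53.LimRingNoeth
import Fermat.Agent.S53.LimRep
import Fermat.Agent.S53.FibreProduct
import Fermat.Agent.S53.Glue
import Fermat.Agent.S53.NF
import Fermat.Agent.S53.UnivRep
import Fermat.Agent.S53.UnivProp

set_option autoImplicit false
set_option linter.unusedSectionVars false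
set_option linter.style.haveILetI false

/-!
# Consumer-side assembly for S53: from a tower of universal normal-form test objects to
`GaloisRep.DeformationRingData`.
-/

namespace Fermat.Agent.S53

open IsLocalRing

section Condition

variable {𝒪 : Type} [CommRing 𝒪] [IsLocalRing 𝒪]
  {𝒟 : ∀ ⦃A : Type⦄ [CommRing A] [IsLocalRing A] [Algebra 𝒪 A], GaloisRepAdic A → Prop}
  (h𝒟 : GaloisRep.IsDeformationCondition 𝒪 𝒟)
  {R : ℕ → Type} [∀ n, CommRing (R n)] [∀ n, Algebra 𝒪 (R n)]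
  {π : ∀ n, R (n + 1) →ₐ[𝒪] R n} [∀ n, IsLocalRing (R n)] [∀ n, Finite (R n)]
  [∀ n, IsLocalHom (algebraMap 𝒪 (R n))]
  [IsLocalRing (Lim π)]
  (r : ∀ n, GQ →* Matrix (Fin 2) (Fin 2) (R n))
  (hcompat : ∀ n, mapMat (π n : R (n + 1) →+* R n) (r (n + 1)) = r n)

/-- The limit of normal forms is a normal form. -/
theorem isNF_limRep {ρbar : ResidualGaloisRep (ResidueField 𝒪)} (D : NFData 𝒪 ρbar)
    [IsLocalHom (algebraMap 𝒪 (Lim π))]
    (hπ : ∀ n, Function.Surjective (π n))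
    (hnf : ∀ n, IsNF D (R n) (r n)) : IsNF D (Lim π) (limRep r hcompat) :=
  IsNF.of_forall_map D (proj π) (isLocalHom_proj hπ) (fun _ _ h => lim_ext h) fun n => by
    rw [mapMat_proj_limRep]
    exact hnf n

end Condition

section Assembly

variable {𝒪 : Type} [CommRing 𝒪] [IsDomain 𝒪] [IsDiscreteValuationRing 𝒪]
  [IsAdicComplete (IsLocalRing.maximalIdeal 𝒪) 𝒪]
  {ρbar : ResidualGaloisRep (IsLocalRing.ResidueField 𝒪)}
  {𝒟 : ∀ ⦃A : Type⦄ [CommRing A] [IsLocalRing A] [Algebra 𝒪 A], GaloisRepAdic A → Prop}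
  {R : ℕ → Type} [∀ n, CommRing (R n)] [∀ n, Algebra 𝒪 (R n)]
  {π : ∀ n, R (n + 1) →ₐ[𝒪] R n} [∀ n, IsLocalRing (R n)] [∀ n, Finite (R n)]
  [∀ n, IsLocalHom (algebraMap 𝒪 (R n))]

/-- **Consumer-side assembly**: a tower of universal normal-form test objects yields a universal
deformation ring. -/
theorem nonempty_deformationRingData_of_tower
    (habs : ρbar.IsAbsolutelyIrreducible)
    (h𝒟 : GaloisRep.IsDeformationCondition 𝒪 𝒟)
    (D : NFData 𝒪 ρbar)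
    (hπ : ∀ n, Function.Surjective (π n))
    (hker : ∀ n, RingHom.ker (π n) = maximalIdeal (R (n + 1)) ^ (n + 1))
    (hresR : ∀ n, Function.Surjective (residue (R n) ∘ algebraMap 𝒪 (R n)))
    (r : ∀ n, GQ →* Matrix (Fin 2) (Fin 2) (R n))
    (hcompat : ∀ n, mapMat (π n : R (n + 1) →+* R n) (r (n + 1)) = r n)
    (hrc : ∀ n, MatCont (r n))
    (hnf : ∀ n, IsNF D (R n) (r n))
    (hD : ∀ n, 𝒟 (ofMatrix (r n) (hrc n)))
    (hgen : ∀ n, Algebra.adjoin 𝒪 (entrySet (r n)) = ⊤)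
    (hkey : ∀ (n : ℕ) ⦃B : Type⦄ [CommRing B] [IsLocalRing B] [Algebra 𝒪 B]
      [IsLocalHom (algebraMap 𝒪 B)],
      GaloisRep.IsArtinianTestAlgebra 𝒪 B → maximalIdeal B ^ (n + 1) = ⊥ →
      ∀ (ρ : GQ →* Matrix (Fin 2) (Fin 2) B) (hρ : MatCont ρ), IsNF D B ρ → 𝒟 (ofMatrix ρ hρ) →
      ∃ f : R n →ₐ[𝒪] B, mapMat (f : R n →+* B) (r n) = ρ) :
    Nonempty (GaloisRep.DeformationRingData 𝒪 ρbar 𝒟) := by
  haveI : ∀ n, IsTestAlg 𝒪 (R n) := fun n => ⟨inferInstance, hresR n⟩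
  haveI : IsLocalRing (Lim π) := isLocalRing_lim hπ
  haveI : IsLocalHom (algebraMap 𝒪 (Lim π)) := isLocalHom_algebraMap_lim
  have hres : Function.Surjective (residue (Lim π) ∘ algebraMap 𝒪 (Lim π)) :=
    residue_surjective_lim hπ (hresR 0)
  haveI : IsNoetherianRing (Lim π) := isNoetherianRing_lim hπ hker (hresR 0)
  haveI : IsAdicComplete (maximalIdeal (Lim π)) (Lim π) := isAdicComplete_lim hπ hker
  have hcont : MatCont (limRep r hcompat) := matCont_limRep r hcompat hπ hker hrc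
  have hNFU : IsNF D (Lim π) (limRep r hcompat) := isNF_limRep r hcompat D hπ hnf
  -- the abstract normal-form predicate
  let NF : ∀ ⦃A : Type⦄ [CommRing A] [IsLocalRing A] [Algebra 𝒪 A],
      (GQ →* Matrix (Fin 2) (Fin 2) A) → Prop :=
    fun A _ _ _ ρ => ∃ h : IsLocalHom (algebraMap 𝒪 A), @IsNF 𝒪 _ _ ρbar D A _ _ _ h ρ
  refine ⟨{
    R := Lim π
    residue_surjective := hres
    absIrr := habs
    ρ := ofMatrix (limRep r hcompat) hcont
    isOfType := cond_limRep h𝒟 r hcompat hπ hker hrc inferInstance hres hD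
    residual_isEquiv := hNFU.residual_isEquiv D hcont
    universal := Lim.universal NF r hcompat hres h𝒟 hgen (ker_proj_eq_maximalIdeal_pow hπ hker)
      hcont ⟨inferInstance, hNFU⟩ ?_ ?_ ?_ ?_ }⟩
  · -- hNFmap
    intro A B _ _ _ _ _ _ φ hφ ρ hρ
    obtain ⟨hA, hρ⟩ := hρ
    have hB : IsLocalHom (algebraMap 𝒪 B) := by
      have : algebraMap 𝒪 B = (φ : A →+* B).comp (algebraMap 𝒪 A) := φ.comp_algebraMap.symm
      rw [this]
      exact RingHom.isLocalHom_comp _ _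
    exact ⟨hB, IsNF.map D hρ φ hφ⟩
  · -- hNFuniq
    intro A _ _ _ hA _ ρ ρ' hρ hρ' P hP hc
    obtain ⟨h1, hρ⟩ := hρ
    obtain ⟨h2, hρ'⟩ := hρ'
    exact IsNF.unique D hρ hρ' P hP hc
  · -- hNFex
    intro A _ _ _ _ _ hA _ ρA hρA
    obtain ⟨rA, hrA, hnfA, he⟩ := exists_isNF D ρA hρA
    exact ⟨rA, hrA, ⟨hA, hnfA⟩, isEquiv_symm he⟩
  · -- hkey
    intro n B _ _ _ hB hpow ρ hρ hnfρ hDρ
    obtain ⟨hloc, hnfρ⟩ := hnfρ
    exact hkey n hB hpow ρ hρ hnfρ hDρ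

end Assembly

end Fermat.Agent.S53
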