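import Mathlib
import Fermat.Agent.S53.GoodNF
import Fermat.Agent.S53.Least
import Fermat.Agent.S53.GoodCard
import Fermat.Agent.S53.TowerAssembly

/-!
# S53 (producer side): the tower of least good ideals

From `hbar`, `TangentFinite` and the deformation condition axioms we build the tower
`R n = Θ ⧸ 𝔞 n` of universal normal-form test objects of level `n` and feed it into
`nonempty_deformationRingData_of_tower`.
-/

set_option autoImplicit false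
set_option linter.style.haveILetI false
set_option linter.unusedSectionVars false

open IsLocalRing

namespace Fermat.Agent.S53

section Tower

variable {𝒪 : Type} [CommRing 𝒪] [IsLocalRing 𝒪]
  {ρbar : ResidualGaloisRep (ResidueField 𝒪)} (D : NFData 𝒪 ρbar)
  {𝒟 : ∀ ⦃A : Type⦄ [CommRing A] [IsLocalRing A] [Algebra 𝒪 A], GaloisRepAdic A → Prop}

/-- `hbar` transported to the matrix form of the residual representation. -/
theorem cond_ofMatrix_rbar (h𝒟 : GaloisRep.IsDeformationCondition 𝒪 𝒟)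
    (hbar : 𝒟 (GaloisRepAdic.ofResidualGaloisRep ρbar)) :
    𝒟 (ofMatrix D.rbar (matCont_of_finiteLevel D.rbar_fin)) := by
  obtain ⟨e⟩ := D.equiv
  refine h𝒟.of_isEquiv (isArtinianTestAlgebra_residueField 𝒪) ?_ hbar
  exact ⟨⟨e.toLinearEquiv.symm, fun σ x => (e.symm.map_apply σ x)⟩⟩

variable (𝒟) in
/-- A tower of least good ideals. -/
structure GoodTower where
  /-- the ideals -/
  𝔞 : ℕ → Ideal (Theta 𝒪)
  mem : ∀ n, 𝔞 n ∈ goodLevel (NFpred D) 𝒟 D.rbar n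
  least : ∀ n, ∀ 𝔟 ∈ goodLevel (NFpred D) 𝒟 D.rbar n, 𝔞 n ≤ 𝔟
  step : ∀ n, 𝔞 n = 𝔞 (n + 1) ⊔ thetaM D.rbar ^ (n + 1)

/-- Existence of the tower of least good ideals. -/
theorem nonempty_goodTower [Finite (ResidueField 𝒪)]
    (h𝒟 : GaloisRep.IsDeformationCondition 𝒪 𝒟)
    (hbar : 𝒟 (GaloisRepAdic.ofResidualGaloisRep ρbar))
    (ϖ : 𝒪) (hϖ : maximalIdeal 𝒪 = Ideal.span {ϖ})
    (hfin : GaloisRep.TangentFinite 𝒪 ρbar 𝒟) : Nonempty (GoodTower D 𝒟) := by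
  obtain ⟨𝔞, h1, h2, h3⟩ := exists_least_tower (thetaM D.rbar) (goodLevel (NFpred D) 𝒟 D.rbar)
    (fun n => goodLevel_nonempty (isNF_rbar D) (matCont_of_finiteLevel D.rbar_fin)
      (cond_ofMatrix_rbar D h𝒟 hbar) n)
    (fun n 𝔞 h𝔞 𝔟 h𝔟 => goodLevel_inf (nfAxioms D) h𝒟 h𝔞 h𝔟)
    (fun n 𝔞 h𝔞 => goodLevel_finite h𝔞)
    (fun n => goodLevel_card_le D h𝒟 ϖ hϖ hfin n)
    (fun n 𝔞 h𝔞 => goodLevel_pow_le h𝔞)
    (fun n => goodLevel_mono n)
    (fun n 𝔞 h𝔞 => goodLevel_sup (nfAxioms D) h𝒟 h𝔞)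
  exact ⟨⟨𝔞, h1, h2, h3⟩⟩

namespace GoodTower

variable {D} (T : GoodTower D 𝒟)

/-- The `n`-th ring of the tower. -/
abbrev R (n : ℕ) : Type := Theta 𝒪 ⧸ T.𝔞 n

instance instIsLocalRing (n : ℕ) : IsLocalRing (T.R n) := (T.mem n).1.isLocalRing

instance instIsTestAlg (n : ℕ) : IsTestAlg 𝒪 (T.R n) := (T.mem n).1.isTestAlg

instance instFinite (n : ℕ) : Finite (T.R n) := (T.mem n).1.finite

instance instIsLocalHom (n : ℕ) : IsLocalHom (algebraMap 𝒪 (T.R n)) := IsTestAlg.isLocalHom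

theorem le_succ (n : ℕ) : T.𝔞 (n + 1) ≤ T.𝔞 n := by
  rw [T.step n]; exact le_sup_left

/-- The transition maps. -/
noncomputable def π (n : ℕ) : T.R (n + 1) →ₐ[𝒪] T.R n := Ideal.Quotient.factorₐ 𝒪 (T.le_succ n)

theorem π_surjective (n : ℕ) : Function.Surjective (T.π n) :=
  Ideal.Quotient.factor_surjective (T.le_succ n)

theorem ker_π (n : ℕ) : RingHom.ker (T.π n) = maximalIdeal (T.R (n + 1)) ^ (n + 1) := by
  have h1 : RingHom.ker (T.π n) = (T.𝔞 n).map (Ideal.Quotient.mk (T.𝔞 (n + 1))) :=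
    Ideal.Quotient.factor_ker (T.le_succ n)
  rw [h1, (T.mem (n + 1)).1.maximalIdeal_eq (nfAxioms D), ← Ideal.map_pow]
  conv_lhs => rw [T.step n]
  rw [Ideal.map_sup, Ideal.map_quotient_self, bot_sup_eq]

/-- The tautological representations. -/
noncomputable def r (n : ℕ) : GQ →* Matrix (Fin 2) (Fin 2) (T.R n) :=
  taut (T.𝔞 n) (T.mem n).1.isTautHom

theorem isTestObj_r (h𝒟 : GaloisRep.IsDeformationCondition 𝒪 𝒟) (n : ℕ) :
    IsTestObj (NFpred D) 𝒟 (T.r n) :=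
  (T.mem n).1.isTestObj_taut (nfAxioms D) h𝒟

theorem r_compat (n : ℕ) :
    mapMat (T.π n : T.R (n + 1) →+* T.R n) (T.r (n + 1)) = T.r n := by
  ext σ i j
  rfl

theorem r_gen (n : ℕ) : Algebra.adjoin 𝒪 (entrySet (T.r n)) = ⊤ :=
  adjoin_taut_eq_top (T.𝔞 n) (T.mem n).1.isTautHom

theorem key [Finite (ResidueField 𝒪)] (n : ℕ) ⦃B : Type⦄ [CommRing B] [IsLocalRing B]
    [Algebra 𝒪 B] [IsLocalHom (algebraMap 𝒪 B)]
    (hB : GaloisRep.IsArtinianTestAlgebra 𝒪 B) (hn : maximalIdeal B ^ (n + 1) = ⊥)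
    (ρ : GQ →* Matrix (Fin 2) (Fin 2) B) (hρ : MatCont ρ) (hnf : IsNF D B ρ)
    (hD : 𝒟 (ofMatrix ρ hρ)) :
    ∃ f : T.R n →ₐ[𝒪] B, mapMat (f : T.R n →+* B) (T.r n) = ρ := by
  haveI : IsTestAlg 𝒪 B := isTestAlg_of_isArtinianTestAlgebra 𝒪 hB
  haveI : Finite B := finite_of_isArtinianTestAlgebra 𝒪 hB
  have hobj : IsTestObj (NFpred D) 𝒟 ρ := ⟨inferInstance, hnf, hρ, hD⟩
  have hle : T.𝔞 n ≤ RingHom.ker (evalHom 𝒪 ρ) :=
    T.least n _ (hobj.ker_mem_goodLevel (nfAxioms D) hn)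
  exact ⟨quotLift (T.𝔞 n) ρ hle, mapMat_quotLift_taut (T.𝔞 n) ρ hle _⟩

end GoodTower

end Tower

section Final

variable {𝒪 : Type} [CommRing 𝒪] [IsDomain 𝒪] [IsDiscreteValuationRing 𝒪]
  [IsAdicComplete (IsLocalRing.maximalIdeal 𝒪) 𝒪] [Finite (IsLocalRing.ResidueField 𝒪)]
  {ρbar : ResidualGaloisRep (IsLocalRing.ResidueField 𝒪)}
  {𝒟 : ∀ ⦃A : Type⦄ [CommRing A] [IsLocalRing A] [Algebra 𝒪 A], GaloisRepAdic A → Prop}

/-- **Existence of the universal deformation ring.** -/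
theorem nonempty_deformationRingData_main
    (habs : ρbar.IsAbsolutelyIrreducible)
    (h𝒟 : GaloisRep.IsDeformationCondition 𝒪 𝒟)
    (hbar : 𝒟 (GaloisRepAdic.ofResidualGaloisRep ρbar))
    (hfin : GaloisRep.TangentFinite 𝒪 ρbar 𝒟) :
    Nonempty (GaloisRep.DeformationRingData 𝒪 ρbar 𝒟) := by
  obtain ⟨D⟩ := exists_nfData 𝒪 ρbar habs
  obtain ⟨ϖ, hϖ⟩ := IsDiscreteValuationRing.exists_irreducible 𝒪
  have hϖ' : maximalIdeal 𝒪 = Ideal.span {ϖ} := hϖ.maximalIdeal_eq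
  obtain ⟨T⟩ := nonempty_goodTower D h𝒟 hbar ϖ hϖ' hfin
  exact nonempty_deformationRingData_of_tower (R := T.R) (π := T.π) habs h𝒟 D T.π_surjective
    T.ker_π (fun n => IsTestAlg.residue_surjective) T.r T.r_compat
    (fun n => (T.isTestObj_r h𝒟 n).cont) (fun n => (T.isTestObj_r h𝒟 n).nf)
    (fun n => (T.isTestObj_r h𝒟 n).isD) T.r_gen (fun n => T.key n)

end Final

end Fermat.Agent.S53
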